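/-
helper9, PIVOT at `p = 3` (design of helper75: auxiliary prime `r ≡ 2 mod 3` in the level):
the unramifiedness condition `UnrCond M c H` for EVERY odd prime `p` (including `p = 3`),
when some prime `r ∣ M` has no root of `x² + x + 1` modulo `r` (e.g. `r ≡ 2 mod 3`).

`Γ₀(M)` then has no element of trace `±1` (no elliptic element of order `3` or `6`); elements of
trace `0` have `a⁴ ≡ 1`, a `p^E`-th power for odd `p`; parabolic elements have `a ≡ ±1`.

* `no_root_of_mod_three` : `r` prime, `r % 3 = 2` ⟹ `x² + x + 1 ≠ 0` in `ℤ/r`;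
* `unrCond_of_aux`       : the condition `UnrCond M c H`;
* `fh_unr_of_aux`        : `F_H / F₀` is unramified (helper34's FH-UNR).
-/
import Fermat.Agent.L.Pivot.Geom.H70_UnrFive
import Fermat.Agent.NEB.H34_Unr

set_option autoImplicit false
set_option linter.style.haveILetI false

open Matrix
open scoped MatrixGroups

namespace Fermat.Agent.L.Pivot3.H9

/-- An element killed by `m` in a group is a `P`-th power, `P` prime to `m`. -/
theorem exists_pow_eq_of_coprime {G : Type*} [Group G] (u : G) (m : ℕ) (hm : 1 < m)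
    (hu : u ^ m = 1) (P : ℕ) (hP : Nat.Coprime P m) : ∃ e : ℕ, (u ^ e) ^ P = u := by
  obtain ⟨e, -, he⟩ := Nat.exists_mul_mod_eq_one_of_coprime hP hm
  refine ⟨e, ?_⟩
  have h1 : e * P = m * (e * P / m) + 1 := by
    have h := Nat.div_add_mod (e * P) m
    rw [mul_comm P e] at he
    rw [he] at h
    exact h.symm
  rw [← pow_mul, h1, pow_succ, pow_mul, hu, one_pow, one_mul]

/-- `x² + x + 1` has no root modulo a prime `r ≡ 2 mod 3`. -/
theorem no_root_of_mod_three {r : ℕ} (hr : r.Prime) (h2 : r % 3 = 2) (x : ZMod r) :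
    x ^ 2 + x + 1 ≠ 0 := by
  haveI : Fact r.Prime := ⟨hr⟩
  intro h
  have h3 : x ^ 3 = 1 := by linear_combination (x - 1) * h
  have hx1 : x ≠ 1 := by
    rintro rfl
    have h30 : ((3 : ℕ) : ZMod r) = 0 := by
      push_cast
      linear_combination h
    rw [ZMod.natCast_eq_zero_iff] at h30
    have := (Nat.prime_dvd_prime_iff_eq hr Nat.prime_three).1 h30
    omega
  have hx0 : x ≠ 0 := by
    rintro rfl
    rw [zero_pow (by norm_num : (3 : ℕ) ≠ 0)] at h3
    exact zero_ne_one h3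
  have hu3 : (Units.mk0 x hx0) ^ 3 = 1 := by
    apply Units.ext
    rw [Units.val_pow_eq_pow_val, Units.val_mk0, h3, Units.val_one]
  have hu1 : Units.mk0 x hx0 ≠ 1 := by
    intro h'
    apply hx1
    have := congrArg Units.val h'
    rwa [Units.val_mk0, Units.val_one] at this
  have hord : orderOf (Units.mk0 x hx0) = 3 := by
    haveI : Fact (Nat.Prime 3) := ⟨Nat.prime_three⟩
    exact orderOf_eq_prime hu3 hu1
  have hdvd : 3 ∣ r - 1 := by
    have h := orderOf_dvd_card (x := Units.mk0 x hx0)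
    rw [ZMod.card_units_eq_totient, Nat.totient_prime hr, hord] at h
    exact h
  have := hr.two_le
  omega

/-- **UNRCOND with an auxiliary prime**, for every odd `p` and arbitrary exponents. -/
theorem unrCond_of_aux (p E : ℕ) (hp : p.Prime) (hp2 : p ≠ 2) (c M r : ℕ) (hsq : Squarefree c)
    (hcM : c ∣ M) (hrM : r ∣ M) (hr : ∀ x : ZMod r, x ^ 2 + x + 1 ≠ 0)
    (H : Subgroup (ZMod c)ˣ) (hH : ∀ x : (ZMod c)ˣ, x ^ (p ^ E) ∈ H) :
    Fermat.Agent.NEB.UnrCond M c H := by
  intro γ hγ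
  classical
  haveI : IsReduced (ZMod c) := isReduced_zmod.2 (Or.inl hsq)
  set A : Matrix (Fin 2) (Fin 2) ℤ := (((γ : SL(2, ℤ)) : Matrix (Fin 2) (Fin 2) ℤ)) with hA
  show ((A 0 0 : ℤ) : ZMod c) ∈ Fermat.Agent.NEB.cosetSet c H 1
  have hdet : A 0 0 * A 1 1 - A 0 1 * A 1 0 = 1 := by
    have h := (γ : SL(2, ℤ)).2
    rwa [Matrix.det_fin_two] at h
  have hM : (M : ℤ) ∣ A 1 0 := by
    have h := γ.2
    rw [CongruenceSubgroup.Gamma0_mem] at h
    exact (ZMod.intCast_zmod_eq_zero_iff_dvd _ _).mp h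
  have hcM' : ((c : ℕ) : ℤ) ∣ A 1 0 := (Int.natCast_dvd_natCast.mpr hcM).trans hM
  have hrM' : ((r : ℕ) : ℤ) ∣ A 1 0 := (Int.natCast_dvd_natCast.mpr hrM).trans hM
  have hrelc : ((A 0 0 : ℤ) : ZMod c) * ((A 1 1 : ℤ) : ZMod c) = 1 := by
    have h0 : ((A 1 0 : ℤ) : ZMod c) = 0 :=
      (ZMod.intCast_zmod_eq_zero_iff_dvd _ _).mpr hcM'
    have h1 := congrArg (fun z : ℤ => (z : ZMod c)) hdet
    simp only [Int.cast_sub, Int.cast_mul, Int.cast_one, h0, mul_zero, sub_zero] at h1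
    exact h1
  have hrelr : ((A 0 0 : ℤ) : ZMod r) * ((A 1 1 : ℤ) : ZMod r) = 1 := by
    have h0 : ((A 1 0 : ℤ) : ZMod r) = 0 :=
      (ZMod.intCast_zmod_eq_zero_iff_dvd _ _).mpr hrM'
    have h1 := congrArg (fun z : ℤ => (z : ZMod r)) hdet
    simp only [Int.cast_sub, Int.cast_mul, Int.cast_one, h0, mul_zero, sub_zero] at h1
    exact h1
  -- the trace
  have htr : (A 0 0 + A 1 1) ^ 2 = 4 ∨ |A 0 0 + A 1 1| ≤ 1 := by
    rcases hγ with h | h
    · refine Fermat.Agent.S59.Asm.H57.trace_of_finOrder (γ : SL(2, ℤ)) ?_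
      obtain ⟨k, hk, hγk⟩ := (isOfFinOrder_iff_pow_eq_one).mp h
      refine (isOfFinOrder_iff_pow_eq_one).mpr ⟨k, hk, ?_⟩
      have := congrArg Subtype.val hγk
      simpa using this
    · exact Or.inl h
  rcases htr with h4 | h1
  · -- parabolic or central: `a ≡ ±1`
    have hs : A 0 0 + A 1 1 = 2 ∨ A 0 0 + A 1 1 = -2 := by
      have : (A 0 0 + A 1 1 - 2) * (A 0 0 + A 1 1 + 2) = 0 := by linear_combination h4
      rcases mul_eq_zero.mp this with h | h
      · left; linarith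
      · right; linarith
    have key : ∀ s : ℤ, s ^ 2 = 1 → A 0 0 + A 1 1 = 2 * s →
        ((A 0 0 : ℤ) : ZMod c) = ((s : ℤ) : ZMod c) := by
      intro s hs2 hsum
      have hsum' : ((A 0 0 : ℤ) : ZMod c) + ((A 1 1 : ℤ) : ZMod c)
          = 2 * ((s : ℤ) : ZMod c) := by
        have := congrArg (fun z : ℤ => (z : ZMod c)) hsum
        simpa using this
      have hs2' : ((s : ℤ) : ZMod c) ^ 2 = 1 := by
        have := congrArg (fun z : ℤ => (z : ZMod c)) hs2
        simpa using this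
      have hsq' : (((A 0 0 : ℤ) : ZMod c) - ((s : ℤ) : ZMod c)) ^ 2 = 0 := by
        linear_combination (-1 : ZMod c) * hrelc
          + ((A 0 0 : ℤ) : ZMod c) * hsum' + hs2'
      exact sub_eq_zero.mp (pow_eq_zero_iff (two_ne_zero)|>.mp hsq')
    rcases hs with h | h
    · have h1 := key 1 (by norm_num) (by rw [h]; norm_num)
      refine ⟨1, H.one_mem, Or.inl ?_⟩
      rw [h1, mul_one, Units.val_one, Int.cast_one]
    · have h1 := key (-1) (by norm_num) (by rw [h]; norm_num)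
      refine ⟨1, H.one_mem, Or.inr ?_⟩
      rw [h1, mul_one, Units.val_one, Int.cast_neg, Int.cast_one]
  · -- elliptic: the trace is `0` (trace `±1` is excluded by the auxiliary prime)
    have ht' : A 0 0 + A 1 1 = -1 ∨ A 0 0 + A 1 1 = 0 ∨ A 0 0 + A 1 1 = 1 := by
      rw [abs_le] at h1
      omega
    have ht0 : A 0 0 + A 1 1 = 0 := by
      rcases ht' with h | h | h
      · exfalso
        have hsum : ((A 0 0 : ℤ) : ZMod r) + ((A 1 1 : ℤ) : ZMod r) = -1 := by
          have := congrArg (fun z : ℤ => (z : ZMod r)) h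
          simpa using this
        refine hr ((A 0 0 : ℤ) : ZMod r) ?_
        linear_combination ((A 0 0 : ℤ) : ZMod r) * hsum - hrelr
      · exact h
      · exfalso
        have hsum : ((A 0 0 : ℤ) : ZMod r) + ((A 1 1 : ℤ) : ZMod r) = 1 := by
          have := congrArg (fun z : ℤ => (z : ZMod r)) h
          simpa using this
        refine hr (-((A 0 0 : ℤ) : ZMod r)) ?_
        linear_combination ((A 0 0 : ℤ) : ZMod r) * hsum - hrelr
    have hsum0 : ((A 0 0 : ℤ) : ZMod c) + ((A 1 1 : ℤ) : ZMod c) = 0 := by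
      have := congrArg (fun z : ℤ => (z : ZMod c)) ht0
      simpa using this
    have h4 : ((A 0 0 : ℤ) : ZMod c) ^ 4 = 1 := by
      have h2 : ((A 0 0 : ℤ) : ZMod c) ^ 2 = -1 := by
        linear_combination (-1 : ZMod c) * hrelc + ((A 0 0 : ℤ) : ZMod c) * hsum0
      have : ((A 0 0 : ℤ) : ZMod c) ^ 4 = (((A 0 0 : ℤ) : ZMod c) ^ 2) ^ 2 := by ring
      rw [this, h2]
      ring
    have hunitA : IsUnit ((A 0 0 : ℤ) : ZMod c) := IsUnit.of_mul_eq_one _ hrelc
    obtain ⟨u, hu⟩ := hunitA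
    have hu4 : u ^ 4 = 1 := by
      apply Units.ext
      rw [Units.val_pow_eq_pow_val, hu, h4, Units.val_one]
    have hcop : Nat.Coprime (p ^ E) 4 := by
      apply Nat.Coprime.pow_left
      have h2 : Nat.Coprime p 2 := (Nat.coprime_primes hp Nat.prime_two).mpr hp2
      have e4 : (4 : ℕ) = 2 * 2 := by norm_num
      rw [e4]
      exact h2.mul_right h2
    obtain ⟨e, he⟩ := exists_pow_eq_of_coprime u 4 (by norm_num) hu4 (p ^ E) hcop
    refine ⟨u, ?_, Or.inl ?_⟩
    · rw [← he]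
      exact hH (u ^ e)
    · rw [one_mul, hu]

open ModularCurve AlgebraicCurve in
/-- **FH-UNR with an auxiliary prime**: `F_H(M) / F₀(M)` is unramified, for every odd `p`. -/
theorem fh_unr_of_aux (p E : ℕ) (hp : p.Prime) (hp2 : p ≠ 2) (c M r : ℕ) (hc2 : 2 ≤ c)
    (hM : M ≠ 0) (hsq : Squarefree c) (hcM : c ∣ M) (hrM : r ∣ M)
    (hr : ∀ x : ZMod r, x ^ 2 + x + 1 ≠ 0)
    (H : Subgroup (ZMod c)ˣ) (hH : ∀ x : (ZMod c)ˣ, x ^ (p ^ E) ∈ H) :
    ∀ w : Place Fermat.Agent.NEB.Kbar ↥(Fermat.Agent.NEB.FHbar M c H),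
      ∃ x : ↥(modularFunctionFieldBar M), w.ord (Fermat.Agent.NEB.inclBar M c H x) = 1 :=
  Fermat.Agent.NEB.H34.fh_unr c M H hc2 hcM hM
    (unrCond_of_aux p E hp hp2 c M r hsq hcM hrM hr H hH)

end Fermat.Agent.L.Pivot3.H9
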