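/-
helper9, PIVOT at `p = 3`: the combined form of `UnrCond` for the in-place generalisation
`h5 : 5 ≤ p  ⟶  hU : 5 ≤ p ∨ ∃ r, r.Prime ∧ r ∣ N1 ∧ r % 3 = 2` (helper59's plan):
one lemma for the three call sites of `H70.unrCond_of_five_le`.
-/
import Fermat.Agent.L.Pivot3.H9_UnrAux

set_option autoImplicit false

namespace Fermat.Agent.L.Pivot3.H9

/-- **UNRCOND**, `5 ≤ p` or an auxiliary prime `r ≡ 2 mod 3` dividing `N1 ∣ M`. -/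
theorem unrCond_of_hU (p E : ℕ) (hp : p.Prime) (hp2 : p ≠ 2) (c M N1 : ℕ) (hsq : Squarefree c)
    (hcM : c ∣ M) (hN1 : N1 ∣ M)
    (hU : 5 ≤ p ∨ ∃ r : ℕ, r.Prime ∧ r ∣ N1 ∧ r % 3 = 2)
    (H : Subgroup (ZMod c)ˣ) (hH : ∀ x : (ZMod c)ˣ, x ^ (p ^ E) ∈ H) :
    Fermat.Agent.NEB.UnrCond M c H := by
  rcases hU with h5 | ⟨r, hr, hrN, hr3⟩
  · exact Fermat.Agent.L.Pivot.Geom.H70.unrCond_of_five_le p E hp h5 c M hsq hcM H hH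
  · exact unrCond_of_aux p E hp hp2 c M r hsq hcM (hrN.trans hN1)
      (no_root_of_mod_three hr hr3) H hH

open ModularCurve AlgebraicCurve in
/-- **FH-UNR**, `5 ≤ p` or an auxiliary prime `r ≡ 2 mod 3` dividing `N1 ∣ M`. -/
theorem fh_unr_of_hU (p E : ℕ) (hp : p.Prime) (hp2 : p ≠ 2) (c M N1 : ℕ) (hc2 : 2 ≤ c)
    (hM : M ≠ 0) (hsq : Squarefree c) (hcM : c ∣ M) (hN1 : N1 ∣ M)
    (hU : 5 ≤ p ∨ ∃ r : ℕ, r.Prime ∧ r ∣ N1 ∧ r % 3 = 2)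
    (H : Subgroup (ZMod c)ˣ) (hH : ∀ x : (ZMod c)ˣ, x ^ (p ^ E) ∈ H) :
    ∀ w : Place Fermat.Agent.NEB.Kbar ↥(Fermat.Agent.NEB.FHbar M c H),
      ∃ x : ↥(modularFunctionFieldBar M), w.ord (Fermat.Agent.NEB.inclBar M c H x) = 1 :=
  Fermat.Agent.NEB.H34.fh_unr c M H hc2 hcM hM
    (unrCond_of_hU p E hp hp2 c M N1 hsq hcM hN1 hU H hH)

end Fermat.Agent.L.Pivot3.H9
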