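/-
PIVOT3 (PIVOT at `p = 3`, owner helper75): the INTERFACE of AUTO-UNR (helper24).

At `p = 3` the pivot needs an auxiliary prime `r ≡ 2 mod 3` IN THE LEVEL.  Every lift of `ρbar`
to a complete noetherian local ring is unramified at `r` (AUTO-UNR: `Ad(Φbar) - r` is invertible
on `M₂(k)`, so `ρ(τ) = 1 + X`, `Φ X Φ⁻¹ ≡ r X`, forces `X = 0`), hence the deformation condition
does not see `r`.

* `AuxAt p ρbar r` : the hypothesis on `ρbar` at the auxiliary prime `r`: unramified at `r`,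
  `r ≠ p`, `p ∤ r - 1`, and at every Frobenius `det = r`, `tr ^ 2 ≠ (r + 1) ^ 2` (the NEGATION of
  the level raising condition; with `α β = r` it says `α / β ∉ {r, 1 / r}`);
* `Stmt_AutoUnr` : AUTO-UNR (matrix core + inertia wiring helper34, datum form helper80).
-/
import Mathlib
import Fermat.Prelude.Def_GaloisRep_Adic
import Fermat.Prelude.Def_GaloisRep_ResidualEquiv
import Fermat.Prelude.Def_EllipticCurve_FrobeniusTrace

set_option autoImplicit false

open IsLocalRing

namespace Fermat.Agent.L.Pivot3.H24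

/-- **The hypothesis on `ρbar` at an auxiliary prime `r`.** -/
def AuxAt (p : ℕ) {k : Type} [Field k] (ρbar : ResidualGaloisRep k) (r : ℕ) : Prop :=
  r.Prime ∧ r ≠ p ∧ ¬ p ∣ r - 1 ∧ ρbar.IsUnramifiedAt r ∧
    ∀ P : ValuationSubring (AlgebraicClosure ℚ), P.LiesOverPrime r →
      ∀ σ : AlgebraicClosure ℚ ≃ₐ[ℚ] AlgebraicClosure ℚ, P.IsFrobeniusAt σ r →
        LinearMap.det (ρbar.ρ σ) = (r : k) ∧
          LinearMap.trace k ρbar.V (ρbar.ρ σ) ^ 2 ≠ ((r : k) + 1) ^ 2

/-- **AUTO-UNR**: every lift of `ρbar` to a complete noetherian local ring is unramified at an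
auxiliary prime. -/
def Stmt_AutoUnr : Prop :=
  ∀ (A : Type) [CommRing A] [IsLocalRing A] [IsNoetherianRing A]
    [IsAdicComplete (maximalIdeal A) A]
    (p : ℕ), p.Prime → (p : A) ∈ maximalIdeal A →
    ∀ (k : Type) [Field k] (ρbar : ResidualGaloisRep k) (φ : k →+* ResidueField A)
      (ρ : GaloisRepAdic A),
    ρ.residual.IsEquiv (ρbar.baseChangeAlong φ) →
    ∀ r : ℕ, AuxAt p ρbar r → ρ.IsUnramifiedAt r

end Fermat.Agent.L.Pivot3.H24
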