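/-
PIVOT3 (owner helper75; core clone by helper3): PIVOT with AUXILIARY PRIMES in the level, for
every odd `p` (needed at `p = 3` by the frozen S38, hence by S59-LL).

`L/Pivot/Asm.lean` is stated with `PVHyp` (`h5 : 5 ≤ p`, `hS : S = Smin ∪ Pv.set`).  For `p = 3`
the covering `X_{H'} → X₀(M1)` is ramified at the elliptic points of order `3`; the remedy is an
auxiliary prime `r ≡ 2 mod 3` in the level `N1` at which `ρbar` is unramified, not exceptional,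
and does not satisfy the level-raising condition (`AuxAt`, helper24): every lift is then
unramified at `r` (AUTO-UNR), so the Galois side is unchanged.

This file: the hypotheses `PVHypA` (`hU : 5 ≤ p ∨ ∃ r ≡ 2 mod 3, r ∣ N1`;
`hR : ∃ R, S = Smin ∪ Pv.set ∪ R ∧ ∀ r ∈ R, H24.AuxAt p ρbar r ∧ r ∣ N1`) and the
statements `Stmt_PVGeom2A`, `Stmt_PVUnipA` (B), `Stmt_PVNUA` (C), `Stmt_PVAsmA` (A),
`Stmt_PVLevelsBA`, `Stmt_PivotCoreBA` = the texts of `L/Pivot/Asm.lean` with `PVHypA` for `PVHyp`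
(`Stmt_PVGeom2A`: `5 ≤ p` replaced by `hU`, `S = Smin ∪ Pv.set` dropped), and
`pivotCoreBA_of` (the proof of `pivotCoreB_of`, verbatim).  The bridges from `PVHyp`
(`PVHypA.of_pvHyp`, `stmt_PivotCoreB_of_A`, …) are in `Asm3Bridge.lean`.  The structures
`PVGeom2`, `PVCtx`, `PivotLevel`, … are those of `L/Pivot`.
-/
import Fermat.Agent.L.Pivot.Asm
import Fermat.Agent.L.Pivot3.H24_AuxDefs

set_option autoImplicit false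

noncomputable section

namespace Fermat.Agent.L.Pivot3

open Polynomial IsLocalRing CuspForm Fermat.Agent.S56 Fermat.Agent.S59 Fermat.Agent.S59.Asm
  Fermat.Agent.L.Pivot

/-- The standing hypotheses of the assembly on the level and the pivot primes, with auxiliary
primes `R` in the level. -/
structure PVHypA {𝒪 : Type} [CommRing 𝒪] [IsLocalRing 𝒪] (p : ℕ)
    (ρbar : ResidualGaloisRep (ResidueField 𝒪)) (N1 : ℕ) (S Smin : Finset ℕ) {k : ℕ}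
    (Pv : PivotPrimes k) (eP : Fin k → ℕ) : Prop where
  hyp : Hyp 𝒪 p ρbar S Smin
  /-- no elliptic ramification in the pivot tower -/
  hU : 5 ≤ p ∨ ∃ r : ℕ, r.Prime ∧ r ∣ N1 ∧ r % 3 = 2
  /-- there is at least one pivot prime -/
  hk : 0 < k
  hsq : Squarefree N1
  hNS : ∀ q : ℕ, q.Prime → q ∣ N1 → q ∈ S
  hex : Pv.IsExceptional p ρbar
  hPvN : ∀ j, Pv.q j ∣ N1
  /-- the auxiliary primes -/
  hR : ∃ R : Finset ℕ, S = Smin ∪ Pv.set ∪ R ∧ ∀ r ∈ R, H24.AuxAt p ρbar r ∧ r ∣ N1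
  hSminN : ∀ q ∈ Smin, q ≠ p → q ∣ N1
  heP : ∀ j, p ^ eP j ∣ Pv.q j - 1 ∧ ¬ p ^ (eP j + 1) ∣ Pv.q j - 1

theorem PVHypA.pv_subset {𝒪 : Type} [CommRing 𝒪] [IsLocalRing 𝒪] {p : ℕ}
    {ρbar : ResidualGaloisRep (ResidueField 𝒪)} {N1 : ℕ} {S Smin : Finset ℕ} {k : ℕ}
    {Pv : PivotPrimes k} {eP : Fin k → ℕ} (h : PVHypA p ρbar N1 S Smin Pv eP) :
    Pv.set ⊆ S := by
  obtain ⟨R, hS, -⟩ := h.hR
  rw [hS]
  exact fun q hq => Finset.mem_union_left _ (Finset.mem_union_right _ hq)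

/-! ### The geometric datum -/

/-- **PV-GEOM with auxiliary primes**: `Stmt_PVGeom2` with `5 ≤ p` replaced by
`5 ≤ p ∨ ∃ r ≡ 2 mod 3, r ∣ N1` and WITHOUT the hypothesis `S = Smin ∪ Pv.set` (not used by the
geometry). -/
def Stmt_PVGeom2A : Prop :=
  ∀ (𝒪 : Type) [CommRing 𝒪] [IsDomain 𝒪] [IsDiscreteValuationRing 𝒪]
    [IsAdicComplete (maximalIdeal 𝒪) 𝒪] [Finite (ResidueField 𝒪)] [CharZero 𝒪]
    (p : ℕ) [Fact p.Prime] (ρbar : ResidualGaloisRep (ResidueField 𝒪)) (S Smin : Finset ℕ),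
    Hyp 𝒪 p ρbar S Smin →
    ∀ (N1 : ℕ) [NeZero N1] [Fact (CuspForm.HasIntegralStructure N1 2)],
    (∀ q : ℕ, q.Prime → q ∣ N1 → q ∈ S) → Squarefree N1 →
    (5 ≤ p ∨ ∃ r : ℕ, r.Prime ∧ r ∣ N1 ∧ r % 3 = 2) →
    ∀ (θ : CuspForm.heckeAlgebra N1 2 (↑S : Set ℕ) →+* ResidueField 𝒪),
      Fermat.Agent.S59.Datum.FrobHyp ρbar N1 S θ →
    ∀ (k : ℕ) (Pv : PivotPrimes k), 0 < k → Pv.IsExceptional p ρbar → (∀ j, Pv.q j ∣ N1) →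
    ∀ (eP : Fin k → ℕ), (∀ j, p ^ eP j ∣ Pv.q j - 1 ∧ ¬ p ^ (eP j + 1) ∣ Pv.q j - 1) →
    ∃ M : HMod 𝒪 N1 (↑S : Set ℕ) θ, Nontrivial M.V ∧
      ∀ (r n : ℕ) (qv : Fin r → ℕ), IsTWFamily ρbar p n S qv →
        ∀ [NeZero (twLevel N1 qv)] [NeZero (pvLevel N1 Pv.q qv)]
          [Fact (CuspForm.HasIntegralStructure (twLevel N1 qv) 2)]
          [Fact (CuspForm.HasIntegralStructure (pvLevel N1 Pv.q qv) 2)],
          Nonempty (PVGeom2 𝒪 p ρbar N1 S θ M Pv.q eP n qv)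

/-! ### Leaf B: the unipotent relations -/

/-- **PV-UNIP** (B).  `idealUnip` kills `W / ∑ (c_j - 1) W = G1.W`.
[`κ` intertwines `ηW` with the action of `TQ1` through the restriction `T'Q → TQ1` (RESLOC,
`intertwine_of_gen`); `TQ1` is reduced; at a minimal prime of `TQ1` the representation is
unipotent at `q_j` (`hunip`, from the frozen S34), so `H59.types_of_point` with `i_j = 0`
applies.] -/
def Stmt_PVUnipA : Prop :=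
  ∀ (𝒪 : Type) [CommRing 𝒪] [IsDomain 𝒪] [IsDiscreteValuationRing 𝒪]
    [IsAdicComplete (maximalIdeal 𝒪) 𝒪] [Finite (ResidueField 𝒪)] [CharZero 𝒪]
    (p : ℕ) [Fact p.Prime] (fl : Bool) (ρbar : ResidualGaloisRep (ResidueField 𝒪))
    (N1 : ℕ) [NeZero N1] (S Smin : Finset ℕ)
    (θ : CuspForm.heckeAlgebra N1 2 (↑S : Set ℕ) →+* ResidueField 𝒪)
    (M : HMod 𝒪 N1 (↑S : Set ℕ) θ) (k : ℕ) (Pv : PivotPrimes k) (eP : Fin k → ℕ),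
    PVHypA p ρbar N1 S Smin Pv eP →
    ∀ (g r n : ℕ) (qv : Fin r → ℕ), IsTWFamily ρbar p n S qv →
    ∀ [NeZero (twLevel N1 qv)] [NeZero (pvLevel N1 Pv.q qv)]
      [Fact (CuspForm.HasIntegralStructure (twLevel N1 qv) 2)]
      [Fact (CuspForm.HasIntegralStructure (pvLevel N1 Pv.q qv) 2)]
      (X : PVCtx 𝒪 p fl ρbar N1 S Smin θ M Pv eP g n qv)
      (HQ1 : CuspForm.HeckeGaloisRepDatum (twLevel N1 qv) (↑(twSet S qv) : Set ℕ) 𝒪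
        (θ.comp X.G.G1.rest)
        (CuspForm.heckeLocal (twLevel N1 qv) (↑(twSet S qv) : Set ℕ) 𝒪 (θ.comp X.G.G1.rest))),
    HQ1.π = CuspForm.heckeLocal.π (twLevel N1 qv) (↑(twSet S qv) : Set ℕ) 𝒪
      (θ.comp X.G.G1.rest) →
    HQ1.ρ.DetIsCyclotomic p →
    (∀ j, HQ1.ρ.IsUnipotentOnInertiaAt (Pv.q j)) →
    ∀ f ∈ idealUnip g (fun j => ((Pv.q j : ℕ) : 𝒪)), ∀ v : X.G.W.V,
      X.ηW (X.φQ (X.γ f)) v ∈ typeSub X.G.c (fun _ => (1 : 𝒪))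

/-! ### Leaf C: the ramified types -/

/-- **PV-NU** (C).  The intersection of the type ideals kills `W / ∑ (c_j - ψ_j) W` when all
`ψ_j ≠ 1`.
[`W / typeSub c ψ` is `𝒪`-free and `T'Q` is reduced, so it suffices to test at the points `x` of
`T'Q` which kill the annihilator of `W / typeSub c ψ`; by the field `new` of the geometric datum
`x ∘ π` does not occur at the level `pvLevel / q_j`, by `Stmt_PVNUPoint` the representation at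
`x` is not unipotent at `q_j`, so `i_j ≠ 0` in `H59.types_of_point`: `x ∘ φQ ∘ γ` is a point of
type `δ ∈ pvTypes`, killed by `𝔞 δ`.] -/
def Stmt_PVNUA : Prop :=
  ∀ (𝒪 : Type) [CommRing 𝒪] [IsDomain 𝒪] [IsDiscreteValuationRing 𝒪]
    [IsAdicComplete (maximalIdeal 𝒪) 𝒪] [Finite (ResidueField 𝒪)] [CharZero 𝒪]
    (p : ℕ) [Fact p.Prime] (fl : Bool) (ρbar : ResidualGaloisRep (ResidueField 𝒪))
    (N1 : ℕ) [NeZero N1] (S Smin : Finset ℕ)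
    (θ : CuspForm.heckeAlgebra N1 2 (↑S : Set ℕ) →+* ResidueField 𝒪)
    (M : HMod 𝒪 N1 (↑S : Set ℕ) θ) (k : ℕ) (Pv : PivotPrimes k) (eP : Fin k → ℕ),
    PVHypA p ρbar N1 S Smin Pv eP →
    ∀ (g r n : ℕ) (qv : Fin r → ℕ), IsTWFamily ρbar p n S qv →
    ∀ [NeZero (twLevel N1 qv)] [NeZero (pvLevel N1 Pv.q qv)]
      [Fact (CuspForm.HasIntegralStructure (pvLevel N1 Pv.q qv) 2)]
      (X : PVCtx 𝒪 p fl ρbar N1 S Smin θ M Pv eP g n qv)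
      (ζ : Fin k → 𝒪), (∀ j, IsPrimitiveRoot (ζ j) (p ^ eP j)) →
    ∀ (ψ : Fin k → 𝒪), (∀ j, ψ j ^ (p ^ eP j) = 1 ∧ ψ j ≠ 1) →
    ∀ (𝔞 : (Fin k → 𝒪) → Ideal (PRing 𝒪 k g)),
      (∀ δ ∈ pvTypes p eP ζ, KilledByType g δ (𝔞 δ)) →
    ∀ f ∈ (pvTypes p eP ζ).inf 𝔞, ∀ v : X.G.W.V,
      X.ηW (X.φQ (X.γ f)) v ∈ typeSub X.G.c ψ

/-! ### Leaf A: the assembly -/

/-- **PV-ASM** (A): the level of the patching datum at a Taylor–Wiles family.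
[As `Fermat.Agent.S59.Asm.H77.stmt_ASM`, with `H76.pvCore` instead of `twLevel_of_core`:
`V := W`, `fV := ηW ∘ φQ`, `π := G1.π ∘ κ`; `δ_i` from `exists_delta` on `W` (fields `Wα, …` of
`PVGeom2`); `res1 ∘ res' ∘ φQ = τ` by COMPAT; `Ξ ≤ (τ γ)(𝔵) T`: the ideal of the entries of
`H.ρ (τ_j) - 1` does not depend on the basis, and `a - 1 ∈ (a - d, b, c)` when `a d - b c = 1`,
`a ≡ 1` and `2` is a unit.] -/
def Stmt_PVAsmA : Prop :=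
  ∀ (𝒪 : Type) [CommRing 𝒪] [IsDomain 𝒪] [IsDiscreteValuationRing 𝒪]
    [IsAdicComplete (maximalIdeal 𝒪) 𝒪] [Finite (ResidueField 𝒪)] [CharZero 𝒪]
    (p : ℕ) [Fact p.Prime] (fl : Bool) (ρbar : ResidualGaloisRep (ResidueField 𝒪))
    (N1 : ℕ) [NeZero N1] [Fact (CuspForm.HasIntegralStructure N1 2)] (S Smin : Finset ℕ)
    (θ : CuspForm.heckeAlgebra N1 2 (↑S : Set ℕ) →+* ResidueField 𝒪)
    (M : HMod 𝒪 N1 (↑S : Set ℕ) θ) (k : ℕ) (Pv : PivotPrimes k) (eP : Fin k → ℕ),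
    PVHypA p ρbar N1 S Smin Pv eP →
    ∀ (H : CuspForm.HeckeGaloisRepDatum N1 (↑S : Set ℕ) 𝒪 θ
        (CuspForm.heckeLocal N1 (↑S : Set ℕ) 𝒪 θ)),
    H.π = CuspForm.heckeLocal.π N1 (↑S : Set ℕ) 𝒪 θ →
    cond 𝒪 p fl Smin Pv.set H.ρ →
    ∀ (ηM : CuspForm.heckeLocal N1 (↑S : Set ℕ) 𝒪 θ →ₐ[𝒪] Module.End 𝒪 M.V),
    (∀ t : CuspForm.heckeAlgebra N1 2 (↑S : Set ℕ),
      ηM (CuspForm.heckeLocal.π N1 (↑S : Set ℕ) 𝒪 θ t) = M.η t) →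
    ∀ (g r n : ℕ) (qv : Fin r → ℕ), IsTWFamily ρbar p n S qv →
    ∀ [NeZero (twLevel N1 qv)] [NeZero (pvLevel N1 Pv.q qv)]
      [Fact (CuspForm.HasIntegralStructure (twLevel N1 qv) 2)]
      [Fact (CuspForm.HasIntegralStructure (pvLevel N1 Pv.q qv) 2)]
      (X : PVCtx 𝒪 p fl ρbar N1 S Smin θ M Pv eP g n qv)
      (τ : X.DQ.R →ₐ[𝒪] CuspForm.heckeLocal N1 (↑S : Set ℕ) 𝒪 θ),
    Function.Surjective τ →
    ∀ (hτl : IsLocalHom (τ : X.DQ.R →+* CuspForm.heckeLocal N1 (↑S : Set ℕ) 𝒪 θ)),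
    (X.DQ.ρ.baseChangeAlong (τ : X.DQ.R →+* CuspForm.heckeLocal N1 (↑S : Set ℕ) 𝒪 θ)
      hτl).IsEquiv H.ρ →
    ∀ (ϖ : 𝒪), maximalIdeal 𝒪 = Ideal.span {ϖ} →
    ∀ (ψ : Fin k → 𝒪), (∀ j, ψ j ^ (p ^ eP j) = 1) → (∀ j, ψ j - 1 ∈ Ideal.span {ϖ}) →
    ∀ (I1 Iχ : Ideal (PRing 𝒪 k g)),
      (∀ f ∈ I1, ∀ v : X.G.W.V, X.ηW (X.φQ (X.γ f)) v ∈ typeSub X.G.c (fun _ => (1 : 𝒪))) →
      (∀ f ∈ Iχ, ∀ v : X.G.W.V, X.ηW (X.φQ (X.γ f)) v ∈ typeSub X.G.c ψ) →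
    ∀ (b : Module.Basis (Fin 2) (CuspForm.heckeLocal N1 (↑S : Set ℕ) 𝒪 θ) H.ρ.V),
      Nonempty (@PivotLevel 𝒪 _ r (6 * k + g) (CuspForm.heckeLocal N1 (↑S : Set ℕ) 𝒪 θ) _ _
        M.V _ (Module.compHom M.V
          ((ηM : CuspForm.heckeLocal N1 (↑S : Set ℕ) 𝒪 θ →ₐ[𝒪] Module.End 𝒪 M.V) :
            CuspForm.heckeLocal N1 (↑S : Set ℕ) 𝒪 θ →+* Module.End 𝒪 M.V))
        ϖ I1 Iχ (idealX 𝒪 k g) (pvXi H.ρ b Pv) (twIdealP 𝒪 r p n) X.G.rk)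

/-! ### The levels and the target, for both conditions at `p` -/

/-- **PV-ASM: the levels** (for `cond 𝒪 p fl`).  As `L.Pivot.Stmt_PVLevelsB`; `fl = true`: `p ∤ N1`,
`fl = false`: `p ∣ N1` and `ρbar` is not flat at `p`. -/
def Stmt_PVLevelsBA : Prop :=
  ∀ (𝒪 : Type) [CommRing 𝒪] [IsDomain 𝒪] [IsDiscreteValuationRing 𝒪]
    [IsAdicComplete (maximalIdeal 𝒪) 𝒪] [Finite (ResidueField 𝒪)] [CharZero 𝒪]
    (p : ℕ) [Fact p.Prime] (fl : Bool) (ρbar : ResidualGaloisRep (ResidueField 𝒪))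
    (S Smin : Finset ℕ),
    cond 𝒪 p fl Smin ∅ (GaloisRepAdic.ofResidualGaloisRep ρbar) →
    (fl = false → ¬ (GaloisRepAdic.ofResidualGaloisRep ρbar).IsFlatAt p) →
    ∀ (N1 : ℕ) [NeZero N1], (fl = true → ¬ p ∣ N1) → (fl = false → p ∣ N1) →
    ∀ (θ : CuspForm.heckeAlgebra N1 2 (↑S : Set ℕ) →+* ResidueField 𝒪),
      Fermat.Agent.S59.Datum.FrobHyp ρbar N1 S θ →
    ∀ (k : ℕ) (Pv : PivotPrimes k) (eP : Fin k → ℕ), PVHypA p ρbar N1 S Smin Pv eP →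
      (∀ j, ∃ ζ : 𝒪, IsPrimitiveRoot ζ (p ^ eP j)) →
    ∀ (ϖ : 𝒪), maximalIdeal 𝒪 = Ideal.span {ϖ} →
    ∃ (T : Type) (_ : CommRing T) (_ : IsLocalRing T) (_ : IsNoetherianRing T)
      (_ : IsAdicComplete (maximalIdeal T) T) (_ : Algebra 𝒪 T)
      (_ : IsLocalHom (algebraMap 𝒪 T)) (_ : Module.Finite 𝒪 T) (_ : Module.Free 𝒪 T)
      (H : CuspForm.HeckeGaloisRepDatum N1 (↑S : Set ℕ) 𝒪 θ T)
      (b : Module.Basis (Fin 2) T H.ρ.V)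
      (M : Type) (_ : AddCommGroup M) (_ : Module T M) (_ : Nontrivial M)
      (r g d : ℕ) (t : Finset (Fin k → 𝒪)),
      H.ρ.DetIsCyclotomic p ∧ (∀ j, H.ρ.residual.IsUnramifiedAt (Pv.q j)) ∧
      r + 1 = 1 + 3 * k + g ∧ (∀ δ ∈ t, ∀ j, δ j ≠ 0) ∧ (∀ δ ∈ t, ∀ j, δ j ∈ maximalIdeal 𝒪) ∧
      ∀ 𝔞 : (Fin k → 𝒪) → Ideal (PRing 𝒪 k g), (∀ δ ∈ t, KilledByType g δ (𝔞 δ)) →
        ∀ n : ℕ, Nonempty (PivotLevel 𝒪 r (6 * k + g) T M ϖ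
          (idealUnip g (fun j => ((Pv.q j : ℕ) : 𝒪))) (t.inf 𝔞)
          (idealX 𝒪 k g) (pvXi H.ρ b Pv) (twIdealP 𝒪 r p n) d)

/-- **PIVOT, Hecke–Galois form, for both conditions at `p`.** -/
def Stmt_PivotCoreBA : Prop :=
  ∀ (𝒪 : Type) [CommRing 𝒪] [IsDomain 𝒪] [IsDiscreteValuationRing 𝒪]
    [IsAdicComplete (maximalIdeal 𝒪) 𝒪] [Finite (ResidueField 𝒪)] [CharZero 𝒪]
    (p : ℕ) [Fact p.Prime] (fl : Bool) (ρbar : ResidualGaloisRep (ResidueField 𝒪))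
    (S Smin : Finset ℕ),
    cond 𝒪 p fl Smin ∅ (GaloisRepAdic.ofResidualGaloisRep ρbar) →
    (fl = false → ¬ (GaloisRepAdic.ofResidualGaloisRep ρbar).IsFlatAt p) →
    ∀ (N1 : ℕ) [NeZero N1], (fl = true → ¬ p ∣ N1) → (fl = false → p ∣ N1) →
    ∀ (θ : CuspForm.heckeAlgebra N1 2 (↑S : Set ℕ) →+* ResidueField 𝒪),
      Fermat.Agent.S59.Datum.FrobHyp ρbar N1 S θ →
    ∀ (k : ℕ) (Pv : PivotPrimes k) (eP : Fin k → ℕ), PVHypA p ρbar N1 S Smin Pv eP →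
      (∀ j, ∃ ζ : 𝒪, IsPrimitiveRoot ζ (p ^ eP j)) →
    ∀ (j : Fin k) [NeZero (N1 / Pv.q j)],
      ∃ θ' : CuspForm.heckeAlgebra (N1 / Pv.q j) 2 (↑S : Set ℕ) →+* ResidueField 𝒪,
        ∀ (ℓ : ℕ) (hℓ : ℓ.Prime) (hℓN : ¬ ℓ ∣ N1) (hℓS : ℓ ∉ (↑S : Set ℕ))
          (hℓN' : ¬ ℓ ∣ N1 / Pv.q j),
          θ' (CuspForm.heckeAlgebra.T hℓ hℓN' hℓS) = θ (CuspForm.heckeAlgebra.T hℓ hℓN hℓS)

/-- **PIVOT (Hecke–Galois form, both conditions) from the packages.** -/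
theorem pivotCoreBA_of (hType : Stmt_PVLoc_type) (hUnr : Stmt_PVLoc_unr)
    (hDim : Stmt_PVLoc_dimS) (hPatch : Stmt_PVPatch) (hLev : Stmt_PVLevelsBA)
    (hTame : Stmt_PVTame1) (hOld : Stmt_PVOld) : Stmt_PivotCoreBA := by
  intro 𝒪 _ _ _ _ _ _ p _ fl ρbar S Smin hcond hnfl N1 _ hpN hpN' θ hθ k Pv eP hPV hζ j _
  have hyp := hPV.hyp
  have hsq := hPV.hsq
  have hex := hPV.hex
  obtain ⟨ϖ, hϖirr⟩ := IsDiscreteValuationRing.exists_irreducible 𝒪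
  have hϖ' : maximalIdeal 𝒪 = Ideal.span {ϖ} :=
    (IsDiscreteValuationRing.irreducible_iff_uniformizer ϖ).mp hϖirr
  obtain ⟨T, _, _, _, _, _, _, _, _, H, b, M, _, _, _, r, g, d, t, hdet, hunr, hr, ht0, htm,
    hlev⟩ := hLev 𝒪 p fl ρbar S Smin hcond hnfl N1 hpN hpN' θ hθ k Pv eP hPV hζ ϖ hϖ'
  have hp𝒪 : (p : 𝒪) ∈ maximalIdeal 𝒪 := hyp.hp𝒪
  -- `2` is a unit
  have h2 : IsUnit (2 : 𝒪) := by
    by_contra h
    have h2m : (2 : 𝒪) ∈ maximalIdeal 𝒪 := (IsLocalRing.mem_maximalIdeal _).mpr h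
    have hodd : Odd p := (Fact.out : p.Prime).odd_of_ne_two hyp.hp2
    obtain ⟨m, hm⟩ := hodd
    have h1 : (1 : 𝒪) = (p : 𝒪) - 2 * (m : 𝒪) := by
      rw [hm]; push_cast; ring
    have : (1 : 𝒪) ∈ maximalIdeal 𝒪 := by
      rw [h1]
      exact Ideal.sub_mem _ hp𝒪 (Ideal.mul_mem_right _ _ h2m)
    exact (Ideal.ne_top_iff_one _).mp (IsLocalRing.maximalIdeal.isMaximal 𝒪).ne_top this
  -- `q ≡ 1`
  have hq₀ : ∀ i, ((Pv.q i : ℕ) : 𝒪) - 1 ∈ maximalIdeal 𝒪 := by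
    intro i
    obtain ⟨m, hm⟩ := (hex i).1
    have hq1 : 1 ≤ Pv.q i := (Pv.q_prime i).one_le
    have h1 : ((Pv.q i : ℕ) : 𝒪) - 1 = (p : 𝒪) * (m : 𝒪) := by
      have : Pv.q i = p * m + 1 := by omega
      rw [this]; push_cast; ring
    rw [h1]
    exact Ideal.mul_mem_right _ _ hp𝒪
  obtain ⟨𝔱, h𝔱, -, hϖ𝔱, hΞ⟩ := H3.pivot_of_levels hType hUnr hDim hPatch hp𝒪 hr
    H.residue_surjective hϖ' h2 (fun i => ((Pv.q i : ℕ) : 𝒪)) hq₀ t ht0 htm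
    (pvXi H.ρ b Pv) d hlev
  -- `p ∉ 𝔱`
  have hpT : (p : T) ∉ 𝔱 := by
    intro hp
    have hp0 : (p : 𝒪) ≠ 0 := by
      exact_mod_cast (Fact.out : p.Prime).ne_zero
    obtain ⟨e, u, hu⟩ := IsDiscreteValuationRing.eq_unit_mul_pow_irreducible hp0 hϖirr
    have h3 : (p : T) = algebraMap 𝒪 T (u : 𝒪) * (algebraMap 𝒪 T ϖ) ^ e := by
      rw [← map_pow, ← map_mul, ← hu, map_natCast]
    rw [h3] at hp
    rcases h𝔱.mem_or_mem hp with h | h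
    · have hu' : IsUnit (algebraMap 𝒪 T (u : 𝒪)) := (u.isUnit).map _
      exact h𝔱.ne_top (Ideal.eq_top_of_isUnit_mem _ h hu')
    · exact hϖ𝔱 (h𝔱.mem_of_pow_mem e h)
  -- unramified modulo `𝔱` at `q_j`
  have hτ : ∀ v : H.ρ.V, H.ρ.ρ (Pv.τ j) v - v ∈ (𝔱 • ⊤ : Submodule T H.ρ.V) := by
    intro v
    refine sub_mem_smul_top_of_entries b _ 𝔱 (fun a c => ?_) v
    exact hΞ (Ideal.subset_span ⟨j, a, c, rfl⟩)
  have hpTm : (p : T) ∈ maximalIdeal T := hdet.1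
  have hall := hTame T p hpTm H.ρ (Pv.q j) (Pv.q_prime j) (hex j).2.1 (hunr j) (Pv.P j)
    (Pv.P_over j) (Pv.τ j) (Pv.τ_gen j) 𝔱 hτ
  have hqN : ¬ (Pv.q j) ^ 2 ∣ N1 := by
    intro h
    have := Nat.squarefree_iff_prime_squarefree.mp hsq (Pv.q j) (Pv.q_prime j)
    exact this (by rwa [← pow_two])
  have hpS : p ∈ S := hyp.hSmin hyp.hpSmin
  exact hOld 𝒪 p hyp.hp2 hp𝒪 N1 S hpS hPV.hNS θ T H hdet (Pv.q j) (Pv.q_prime j) (hex j).2.1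
    (hPV.hPvN j) hqN 𝔱 h𝔱 hpT hall


end Fermat.Agent.L.Pivot3

end
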