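/-
PIVOT3 (PIVOT at `p = 3` with auxiliary primes, owner helper75), leaf A in unbundled form (helper60):

  `stmt_PVAsmG : Stmt_PVAsmG`.

`Stmt_PVAsmG` is the text of `L.Pivot.Stmt_PVAsm` (`L/Pivot/Asm.lean`) with the hypothesis
`PVHyp p ρbar N1 S Smin Pv eP` replaced by what the proof uses: `hyp`, `hex`, and the inclusion
`Smin ∪ Pv.set ⊆ S` (instead of the equality `S = Smin ∪ Pv.set`), so the statement applies with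
`S = Smin ∪ Pv.set ∪ R` (`R` = auxiliary primes).  The context `PVCtx` is unchanged.  The proof
is the proof of `H77.stmt_PVAsm` (helper77).
-/
import Fermat.Agent.L.Pivot.H77_Asm

set_option autoImplicit false
set_option linter.unusedSectionVars false
set_option linter.unusedVariables false

open Polynomial CuspForm IsLocalRing

namespace Fermat.Agent.L.Pivot3.H60

open Fermat.Agent.S56 Fermat.Agent.S59 Fermat.Agent.S59.TWGal Fermat.Agent.S59.Asm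
  Fermat.Agent.S59.Asm.H77 Fermat.Agent.L.Pivot Fermat.Agent.L.Pivot.H77

/-- **PV-ASM** (A), unbundled: the text of `L.Pivot.Stmt_PVAsm` with `PVHyp` replaced by `hyp`,
`hex` and `Smin ∪ Pv.set ⊆ S`. -/
def Stmt_PVAsmG : Prop :=
  ∀ (𝒪 : Type) [CommRing 𝒪] [IsDomain 𝒪] [IsDiscreteValuationRing 𝒪]
    [IsAdicComplete (maximalIdeal 𝒪) 𝒪] [Finite (ResidueField 𝒪)] [CharZero 𝒪]
    (p : ℕ) [Fact p.Prime] (fl : Bool) (ρbar : ResidualGaloisRep (ResidueField 𝒪))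
    (N1 : ℕ) [NeZero N1] [Fact (CuspForm.HasIntegralStructure N1 2)] (S Smin : Finset ℕ)
    (θ : CuspForm.heckeAlgebra N1 2 (↑S : Set ℕ) →+* ResidueField 𝒪)
    (M : HMod 𝒪 N1 (↑S : Set ℕ) θ) (k : ℕ) (Pv : PivotPrimes k) (eP : Fin k → ℕ),
    Hyp 𝒪 p ρbar S Smin → Pv.IsExceptional p ρbar → Smin ∪ Pv.set ⊆ S →
    ∀ (H : CuspForm.HeckeGaloisRepDatum N1 (↑S : Set ℕ) 𝒪 θ
        (CuspForm.heckeLocal N1 (↑S : Set ℕ) 𝒪 θ)),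
    H.π = CuspForm.heckeLocal.π N1 (↑S : Set ℕ) 𝒪 θ →
    cond 𝒪 p fl Smin Pv.set H.ρ →
    ∀ (ηM : CuspForm.heckeLocal N1 (↑S : Set ℕ) 𝒪 θ →ₐ[𝒪] Module.End 𝒪 M.V),
    (∀ t : CuspForm.heckeAlgebra N1 2 (↑S : Set ℕ),
      ηM (CuspForm.heckeLocal.π N1 (↑S : Set ℕ) 𝒪 θ t) = M.η t) →
    ∀ (g r n : ℕ) (qv : Fin r → ℕ), IsTWFamily ρbar p n S qv →
    ∀ [NeZero (twLevel N1 qv)] [NeZero (pvLevel N1 Pv.q qv)]
      [Fact (CuspForm.HasIntegralStructure (twLevel N1 qv) 2)]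
      [Fact (CuspForm.HasIntegralStructure (pvLevel N1 Pv.q qv) 2)]
      (X : PVCtx 𝒪 p fl ρbar N1 S Smin θ M Pv eP g n qv)
      (τ : X.DQ.R →ₐ[𝒪] CuspForm.heckeLocal N1 (↑S : Set ℕ) 𝒪 θ),
    Function.Surjective τ →
    ∀ (hτl : IsLocalHom (τ : X.DQ.R →+* CuspForm.heckeLocal N1 (↑S : Set ℕ) 𝒪 θ)),
    (X.DQ.ρ.baseChangeAlong (τ : X.DQ.R →+* CuspForm.heckeLocal N1 (↑S : Set ℕ) 𝒪 θ)
      hτl).IsEquiv H.ρ →
    ∀ (ϖ : 𝒪), maximalIdeal 𝒪 = Ideal.span {ϖ} →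
    ∀ (ψ : Fin k → 𝒪), (∀ j, ψ j ^ (p ^ eP j) = 1) → (∀ j, ψ j - 1 ∈ Ideal.span {ϖ}) →
    ∀ (I1 Iχ : Ideal (PRing 𝒪 k g)),
      (∀ f ∈ I1, ∀ v : X.G.W.V, X.ηW (X.φQ (X.γ f)) v ∈ typeSub X.G.c (fun _ => (1 : 𝒪))) →
      (∀ f ∈ Iχ, ∀ v : X.G.W.V, X.ηW (X.φQ (X.γ f)) v ∈ typeSub X.G.c ψ) →
    ∀ (b : Module.Basis (Fin 2) (CuspForm.heckeLocal N1 (↑S : Set ℕ) 𝒪 θ) H.ρ.V),
      Nonempty (@PivotLevel 𝒪 _ r (6 * k + g) (CuspForm.heckeLocal N1 (↑S : Set ℕ) 𝒪 θ) _ _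
        M.V _ (Module.compHom M.V
          ((ηM : CuspForm.heckeLocal N1 (↑S : Set ℕ) 𝒪 θ →ₐ[𝒪] Module.End 𝒪 M.V) :
            CuspForm.heckeLocal N1 (↑S : Set ℕ) 𝒪 θ →+* Module.End 𝒪 M.V))
        ϖ I1 Iχ (idealX 𝒪 k g) (pvXi H.ρ b Pv) (twIdealP 𝒪 r p n) X.G.rk)

set_option maxHeartbeats 1000000 in
set_option synthInstance.maxHeartbeats 400000 in
/-- **PV-ASM** (A), unbundled: the level of the patching datum at a Taylor–Wiles family. -/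
theorem stmt_PVAsmG : Stmt_PVAsmG := by
  intro 𝒪 _ _ _ _ _ _ p _ fl ρbar N1 _ _ S Smin θ M k Pv eP hyp hex hsub H hHπ hHcond ηM hηM g r n
    qv hTW
    _ _ _ _ X τ hτs hτl hτe ϖ hϖ ψ hψ hψϖ I1 Iχ h1 hχ b
  have hp : p.Prime := Fact.out
  have hp2 : p ≠ 2 := hyp.hp2
  have hp𝒪 : (p : 𝒪) ∈ maximalIdeal 𝒪 := hyp.hp𝒪
  -- Step 1: the restriction maps
  obtain ⟨res', hres'⟩ := H85.stmt_RESLOC 𝒪 (twLevel N1 qv) (pvLevel N1 Pv.q qv)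
    (↑(twSet S qv) : Set ℕ) (↑(twSet S qv) : Set ℕ) (θ.comp X.G.G1.rest) X.G.rest
  obtain ⟨res1, hres1⟩ := H85.stmt_RESLOC 𝒪 N1 (twLevel N1 qv) (↑S : Set ℕ)
    (↑(twSet S qv) : Set ℕ) θ X.G.G1.rest
  obtain ⟨res, hres⟩ : ∃ res : CuspForm.heckeLocal (pvLevel N1 Pv.q qv) (↑(twSet S qv) : Set ℕ) 𝒪
      ((θ.comp X.G.G1.rest).comp X.G.rest) →ₐ[𝒪] CuspForm.heckeLocal N1 (↑S : Set ℕ) 𝒪 θ,
      ∀ t, res (CuspForm.heckeLocal.π (pvLevel N1 Pv.q qv) (↑(twSet S qv) : Set ℕ) 𝒪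
        ((θ.comp X.G.G1.rest).comp X.G.rest) t) =
        CuspForm.heckeLocal.π N1 (↑S : Set ℕ) 𝒪 θ (X.G.G1.rest (X.G.rest t)) :=
    ⟨res1.comp res', fun t => by rw [AlgHom.comp_apply, hres', hres1]⟩
  -- Step 2: extension from generators
  have hgen : ∀ t, X.ηW (X.HQ.π t) = X.G.W.η t := fun t =>
    (congrArg (fun f => X.ηW (f t)) X.HQ_π).trans (X.ηW_π t)
  have hgη : ∀ (σ : GalQ) (x : CuspForm.heckeLocal (pvLevel N1 Pv.q qv) (↑(twSet S qv) : Set ℕ) 𝒪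
      ((θ.comp X.G.G1.rest).comp X.G.rest)), Commute (X.G.gal σ) (X.ηW x) := fun σ =>
    commute_of_gen X.HQ.adjoin_range_π X.ηW (X.G.gal σ) fun t =>
      (congrArg (Commute (X.G.gal σ)) (hgen t)).mpr (X.G.gal_η σ t)
  have hdη : ∀ (i : Fin r) (x : CuspForm.heckeLocal (pvLevel N1 Pv.q qv) (↑(twSet S qv) : Set ℕ) 𝒪
      ((θ.comp X.G.G1.rest).comp X.G.rest)), Commute (X.G.d i) (X.ηW x) := fun i =>
    commute_of_gen X.HQ.adjoin_range_π X.ηW (X.G.d i) fun t =>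
      (congrArg (Commute (X.G.d i)) (hgen t)).mpr (X.G.d_η i t)
  have hcη : ∀ (j : Fin k) (x : CuspForm.heckeLocal (pvLevel N1 Pv.q qv) (↑(twSet S qv) : Set ℕ) 𝒪
      ((θ.comp X.G.G1.rest).comp X.G.rest)), Commute (X.G.c j) (X.ηW x) := fun j =>
    commute_of_gen X.HQ.adjoin_range_π X.ηW (X.G.c j) fun t =>
      (congrArg (Commute (X.G.c j)) (hgen t)).mpr (X.G.c_η j t)
  have hWαη : ∀ (i : Fin r) (x : CuspForm.heckeLocal (pvLevel N1 Pv.q qv) (↑(twSet S qv) : Set ℕ) 𝒪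
      ((θ.comp X.G.G1.rest).comp X.G.rest)), ∀ v ∈ X.G.Wα i, X.ηW x v ∈ X.G.Wα i := fun i =>
    mem_of_gen X.HQ.adjoin_range_π X.ηW (X.G.Wα i) fun t v hv =>
      (congrArg (fun z : Module.End 𝒪 X.G.W.V => z v ∈ X.G.Wα i) (hgen t)).mpr
        (X.G.Wα_η i t v hv)
  have hπη : ∀ (x : CuspForm.heckeLocal (pvLevel N1 Pv.q qv) (↑(twSet S qv) : Set ℕ) 𝒪
      ((θ.comp X.G.G1.rest).comp X.G.rest)) (v : X.G.W.V),
      (X.G.G1.π.comp X.G.κ) (X.ηW x v) = ηM (res x) ((X.G.G1.π.comp X.G.κ) v) :=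
    intertwine_of_gen X.HQ.adjoin_range_π X.ηW ηM res (X.G.G1.π.comp X.G.κ) fun t v =>
      (congrArg (fun z : Module.End 𝒪 X.G.W.V => X.G.G1.π (X.G.κ (z v))) (hgen t)).trans
        ((congrArg X.G.G1.π (X.G.κ_η t v)).trans ((X.G.G1.π_η (X.G.rest t) (X.G.κ v)).trans
          (congrArg (fun z : Module.End 𝒪 M.V => z (X.G.G1.π (X.G.κ v)))
            ((congrArg (fun f => ηM (res (f t))) X.HQ_π).trans
              ((congrArg ηM (hres t)).trans (hηM _))).symm)))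
  -- the bad set
  have hbad : ∀ ℓ : ℕ, ℓ.Prime → ℓ ∉ twSet S qv ∪ (pvLevel N1 Pv.q qv).primeFactors →
      (¬ ℓ ∣ pvLevel N1 Pv.q qv) ∧ ℓ ∉ (↑(twSet S qv) : Set ℕ) ∧ (¬ ℓ ∣ twLevel N1 qv) ∧
        (¬ ℓ ∣ N1) ∧ ℓ ∉ (↑S : Set ℕ) := by
    intro ℓ hℓ hℓS
    have h1 : ¬ ℓ ∣ pvLevel N1 Pv.q qv := fun h => hℓS (Finset.mem_union_right _
      (Nat.mem_primeFactors.2 ⟨hℓ, h, NeZero.ne _⟩))
    have h2 : ℓ ∉ (↑(twSet S qv) : Set ℕ) := fun h => hℓS (Finset.mem_union_left _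
      (Finset.mem_coe.1 h))
    have h3 : ¬ ℓ ∣ twLevel N1 qv := fun h => h1 (h.trans (Dvd.intro _ rfl))
    exact ⟨h1, h2, h3, fun h => h3 (h.trans (H41.dvd_twLevel N1 qv)),
      fun h => h2 (H41.subset_twSet S qv h)⟩
  -- Step 3: Cayley–Hamilton
  have hCH : ∀ σ : GalQ, X.G.gal σ * X.G.gal σ - X.ηW (X.HQ.ρ.trace σ) * X.G.gal σ
      + X.ηW (LinearMap.det (X.HQ.ρ.ρ σ)) = 0 := by
    refine ch_of_es X.HQ.ρ X.ηW X.G.gal X.G.gal_cont hgη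
      (twSet S qv ∪ (pvLevel N1 Pv.q qv).primeFactors) ?_
    intro ℓ hℓ hℓS A hA σ hσ
    have hb := hbad ℓ hℓ hℓS
    obtain ⟨h1, h2, -, -, -⟩ := hb
    refine ⟨X.HQ.π (CuspForm.heckeAlgebra.T hℓ h1 h2),
      X.HQ.charpoly_frob ℓ hℓ h1 h2 A hA σ hσ, ?_⟩
    exact (congrArg (fun z : Module.End 𝒪 X.G.W.V => X.G.gal σ * X.G.gal σ - z * X.G.gal σ
      + (ℓ : 𝒪) • (1 : Module.End 𝒪 X.G.W.V)) (hgen _)).trans (X.G.es ℓ hℓ h1 h2 A hA σ hσ)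
  -- Step 5: `res ∘ φQ = τ`
  have hfrob : ∀ ℓ : ℕ, ℓ.Prime → ℓ ∉ twSet S qv ∪ (pvLevel N1 Pv.q qv).primeFactors →
      ∀ B : ValuationSubring (AlgebraicClosure ℚ), B.LiesOverPrime ℓ → ∀ σ : GalQ,
      B.IsFrobeniusAt σ ℓ →
        (LinearMap.charpoly (X.HQ.ρ.ρ σ)).map (res : CuspForm.heckeLocal (pvLevel N1 Pv.q qv)
          (↑(twSet S qv) : Set ℕ) 𝒪 ((θ.comp X.G.G1.rest).comp X.G.rest) →+*
            CuspForm.heckeLocal N1 (↑S : Set ℕ) 𝒪 θ) = LinearMap.charpoly (H.ρ.ρ σ) := by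
    intro ℓ hℓ hℓS B hB σ hσ
    have hb := hbad ℓ hℓ hℓS
    obtain ⟨h1, h2, h3, h4, h5⟩ := hb
    refine (map_charpoly_frob (res : CuspForm.heckeLocal (pvLevel N1 Pv.q qv)
      (↑(twSet S qv) : Set ℕ) 𝒪 ((θ.comp X.G.G1.rest).comp X.G.rest) →+*
        CuspForm.heckeLocal N1 (↑S : Set ℕ) 𝒪 θ)
      (X.HQ.π (CuspForm.heckeAlgebra.T hℓ h1 h2)) (H.π (CuspForm.heckeAlgebra.T hℓ h4 h5)) ℓ ?_ _
      (X.HQ.charpoly_frob ℓ hℓ h1 h2 B hB σ hσ)).trans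
      (H.charpoly_frob ℓ hℓ h4 h5 B hB σ hσ).symm
    exact (congrArg (fun f => res (f (CuspForm.heckeAlgebra.T hℓ h1 h2))) X.HQ_π).trans
      ((hres _).trans ((congrArg (CuspForm.heckeLocal.π N1 (↑S : Set ℕ) 𝒪 θ)
        ((congrArg X.G.G1.rest (X.G.rest_T ℓ hℓ h1 h2 h3)).trans
          (X.G.G1.rest_T ℓ hℓ h3 h2 h4 h5))).trans
        (congrArg (fun f => f (CuspForm.heckeAlgebra.T hℓ h4 h5)) hHπ).symm))
  have hHcond' : cond 𝒪 p fl Smin (Pv.set ∪ Finset.univ.image qv) H.ρ :=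
    cond_mono Finset.subset_union_left hHcond
  have hcompat : res.comp X.φQ = τ :=
    compat_tau (T := CuspForm.heckeLocal N1 (↑S : Set ℕ) 𝒪 θ)
      (TQ := CuspForm.heckeLocal (pvLevel N1 Pv.q qv) (↑(twSet S qv) : Set ℕ) 𝒪
        ((θ.comp X.G.G1.rest).comp X.G.rest))
      ρbar (cond 𝒪 p fl Smin (Pv.set ∪ Finset.univ.image qv)) X.DQ
      H.residue_surjective H.ρ hHcond' X.HQ.ρ
      τ hτl hτe X.φQ X.φQ_local X.φQ_equiv res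
      (twSet S qv ∪ (pvLevel N1 Pv.q qv).primeFactors) hfrob
  -- Step 4: the elements `δ_i`
  have hδ : ∀ i : Fin r, ∃ δ : X.DQ.R, δ - 1 ∈ maximalIdeal X.DQ.R ∧ τ δ = 1 ∧
      X.ηW (X.φQ δ) = X.G.d i := by
    intro i
    have hTWi := hTW.2.1 i
    obtain ⟨hq, hqS, hqp⟩ := hTWi
    have hqne : qv i ≠ p := fun h => hqS (h ▸ hyp.hSmin hyp.hpSmin)
    have hunr : ρbar.IsUnramifiedAt (qv i) := by
      by_contra h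
      exact hqS (hyp.hSmin ((hyp.hmin (qv i) hq hqne).2 h))
    have hunrH : H.ρ.IsUnramifiedAt (qv i) :=
      cond_unram hHcond (qv i) hq (fun h => hqS (hsub h))
    exact exists_delta hp hp2 hp𝒪 X.HQ.residue_surjective X.DQ.ρ H.ρ X.HQ.ρ
      X.HQ.residual_absIrr τ hτl hτe X.φQ X.φQ_local X.φQ_equiv (qv i) n hq hqp
      (X.G.G1.P i) (X.G.G1.P_over i)
      (hunrH (X.G.G1.P i) (X.G.G1.P_over i))
      (fun σ hσ => resid_eq_one_of_isEquiv ρbar X.DQ.ρ X.DQ.residual_isEquiv σ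
        (hunr (X.G.G1.P i) (X.G.G1.P_over i) σ hσ))
      (X.G.G1.frob i) (X.G.G1.frob_spec i) (X.G.G1.a i) (X.G.G1.a' i) (X.G.G1.a_ne i)
      (resid_charpoly_of_isEquiv ρbar X.DQ.ρ X.DQ.residual_isEquiv (X.G.G1.frob i)
        (X.G.G1.a i) (X.G.G1.a' i) (X.G.G1.charpoly_frob i))
      (X.G.G1.σ i) (X.G.G1.σ_mem i) X.ηW X.G.gal hgη hCH (X.G.d i) (X.G.d_pow i) (hdη i)
      (X.G.d_gal i) (X.G.Wα i) (X.G.Wβ i) (X.G.W_isCompl i) (hWαη i) (X.G.Wα_d i)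
      (X.G.Wα_frob i) (X.G.Wβ_frob i) (X.G.Wα_nil i) (X.G.Wβ_nil i) (X.G.W_lg i)
  choose δ hδm hτδ hδd using hδ
  -- Step 7: the ideal `Ξ`
  have hresT : H.ρ.residual.IsEquiv (ρbar.baseChangeAlong (ResidueField.map
      (algebraMap 𝒪 (CuspForm.heckeLocal N1 (↑S : Set ℕ) 𝒪 θ)))) :=
    resid_isEquiv_of_tau ρbar hyp.habs X.DQ.ρ H.ρ X.DQ.residual_isEquiv τ hτl hτe
  obtain ⟨b', hb'⟩ := stmt_TRANSPORT X.DQ.R (CuspForm.heckeLocal N1 (↑S : Set ℕ) 𝒪 θ)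
    (τ : X.DQ.R →+* CuspForm.heckeLocal N1 (↑S : Set ℕ) 𝒪 θ) hτl X.DQ.ρ H.ρ hτe X.bQ
  have hdetcyc : H.ρ.DetIsCyclotomic p := cond_det hHcond
  have h2 : IsUnit (2 : CuspForm.heckeLocal N1 (↑S : Set ℕ) 𝒪 θ) := by
    by_contra h
    exact two_notMem_maximalIdeal hp hp2 (natCast_mem_of_algebra (𝒪 := 𝒪) hp𝒪)
      ((mem_maximalIdeal _).2 h)
  have hΞ : pvXi H.ρ b Pv ≤ Ideal.map ((τ.comp X.γ : PRing 𝒪 k g →ₐ[𝒪]
      CuspForm.heckeLocal N1 (↑S : Set ℕ) 𝒪 θ) :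
        PRing 𝒪 k g →+* CuspForm.heckeLocal N1 (↑S : Set ℕ) 𝒪 θ) (idealX 𝒪 k g) :=
    H76.pvXi_le_map H.ρ X.DQ.ρ Pv X.γ τ b X.bQ b' (fun j i i' => hb' (Pv.τ j) i i') _
      X.γ_coord h2
      (fun j => H59.det_eq_one_of_mem_inertia p hp H.ρ hdetcyc (Pv.q j) (Pv.q_prime j)
        (hex j).2.1 (Pv.P j) (Pv.P_over j) (Pv.τ j) (Pv.τ_gen j).1)
      (fun j v => sub_mem_of_resid_unram ρbar H.ρ hresT b' (Pv.τ j)
        ((hex j).2.2.1 (Pv.P j) (Pv.P_over j) (Pv.τ j) (Pv.τ_gen j).1) v)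
  -- Step 8: the kernel
  have hker : LinearMap.ker (X.G.G1.π.comp X.G.κ) =
      typeSub X.G.c (fun _ => (1 : 𝒪)) ⊔ ⨆ i, LinearMap.range (X.G.d i - 1) :=
    (ker_comp_eq_sup X.G.κ X.G.κ_surjective X.G.G1.π X.G.d X.G.G1.d X.G.κ_d
      X.G.G1.ker_π).trans (congrArg (fun z : Submodule 𝒪 X.G.W.V =>
        z ⊔ ⨆ i, LinearMap.range (X.G.d i - 1)) X.G.ker_κ)
  -- Step 9
  let _ : Module (CuspForm.heckeLocal N1 (↑S : Set ℕ) 𝒪 θ) M.V := Module.compHom M.V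
    ((ηM : CuspForm.heckeLocal N1 (↑S : Set ℕ) 𝒪 θ →ₐ[𝒪] Module.End 𝒪 M.V) :
      CuspForm.heckeLocal N1 (↑S : Set ℕ) 𝒪 θ →+* Module.End 𝒪 M.V)
  refine H76.pvCore 𝒪 ϖ p r n k (6 * k + g) hp hp𝒪 (CuspForm.heckeLocal N1 (↑S : Set ℕ) 𝒪 θ) M.V
    I1 Iχ (idealX 𝒪 k g) (pvXi H.ρ b Pv) X.DQ.R X.γ X.γ_surjective τ hτs hΞ X.G.W.V
    (X.ηW.comp X.φQ) δ hδm hτδ X.G.d hδd X.G.d_pow eP X.G.c X.G.c_pow X.G.c_comm
    (fun j a => hcη j (X.φQ a)) ψ hψ hψϖ X.G.rk X.G.b X.G.b_basis (X.G.G1.π.comp X.G.κ)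
    (X.G.G1.π_surjective.comp X.G.κ_surjective) hker ?_ h1 hχ
  intro x v
  have h3 : res (X.φQ x) = τ x := congrArg (fun f : X.DQ.R →ₐ[𝒪] _ => f x) hcompat
  exact (hπη (X.φQ x) v).trans
    (congrArg (fun z => ηM z ((X.G.G1.π.comp X.G.κ) v)) h3)

end Fermat.Agent.L.Pivot3.H60
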