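/-
PIVOT3 (PIVOT at `p = 3` with auxiliary primes, owner helper75), leaf C in unbundled form (helper60):

  `stmt_PVNUG_of : Stmt_PVNUPoint → Stmt_PVNUG`.

`Stmt_PVNUG` is the text of `L.Pivot.Stmt_PVNU` (`L/Pivot/Asm.lean`) with the hypothesis
`PVHyp p ρbar N1 S Smin Pv eP` replaced by the fields which the proof uses:
`hyp`, `hsq`, `hNS`, `hex`, `hPvN`, `heP`.  In particular `S = Smin ∪ Pv.set` is NOT used, so the
statement applies with `S = Smin ∪ Pv.set ∪ R` (`R` = auxiliary primes).  The context `PVCtx` is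
unchanged.  The proof is the proof of `H72.stmt_PVNU_of` (helper72).
-/
import Fermat.Agent.L.Pivot.H72_PVNU

set_option autoImplicit false
set_option linter.style.haveILetI false
set_option linter.unusedSectionVars false

namespace Fermat.Agent.L.Pivot3.H60

open IsLocalRing Polynomial CuspForm Fermat.Agent.S56 Fermat.Agent.S59 Fermat.Agent.S59.Asm
  Fermat.Agent.L.Pivot Fermat.Agent.L.Pivot.H72
open scoped TensorProduct

/-- **PV-NU** (C), unbundled: the text of `L.Pivot.Stmt_PVNU` with `PVHyp` replaced by the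
fields `hyp`, `hsq`, `hNS`, `hex`, `hPvN`, `heP`. -/
def Stmt_PVNUG : Prop :=
  ∀ (𝒪 : Type) [CommRing 𝒪] [IsDomain 𝒪] [IsDiscreteValuationRing 𝒪]
    [IsAdicComplete (maximalIdeal 𝒪) 𝒪] [Finite (ResidueField 𝒪)] [CharZero 𝒪]
    (p : ℕ) [Fact p.Prime] (fl : Bool) (ρbar : ResidualGaloisRep (ResidueField 𝒪))
    (N1 : ℕ) [NeZero N1] (S Smin : Finset ℕ)
    (θ : CuspForm.heckeAlgebra N1 2 (↑S : Set ℕ) →+* ResidueField 𝒪)
    (M : HMod 𝒪 N1 (↑S : Set ℕ) θ) (k : ℕ) (Pv : PivotPrimes k) (eP : Fin k → ℕ),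
    Hyp 𝒪 p ρbar S Smin → Squarefree N1 → (∀ q : ℕ, q.Prime → q ∣ N1 → q ∈ S) →
    Pv.IsExceptional p ρbar → (∀ j, Pv.q j ∣ N1) →
    (∀ j, p ^ eP j ∣ Pv.q j - 1 ∧ ¬ p ^ (eP j + 1) ∣ Pv.q j - 1) →
    ∀ (g r n : ℕ) (qv : Fin r → ℕ), IsTWFamily ρbar p n S qv →
    ∀ [NeZero (twLevel N1 qv)] [NeZero (pvLevel N1 Pv.q qv)]
      [Fact (CuspForm.HasIntegralStructure (pvLevel N1 Pv.q qv) 2)]
      (X : PVCtx 𝒪 p fl ρbar N1 S Smin θ M Pv eP g n qv)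
      (ζ : Fin k → 𝒪), (∀ j, IsPrimitiveRoot (ζ j) (p ^ eP j)) →
    ∀ (ψ : Fin k → 𝒪), (∀ j, ψ j ^ (p ^ eP j) = 1 ∧ ψ j ≠ 1) →
    ∀ (𝔞 : (Fin k → 𝒪) → Ideal (PRing 𝒪 k g)),
      (∀ δ ∈ pvTypes p eP ζ, KilledByType g δ (𝔞 δ)) →
    ∀ f ∈ (pvTypes p eP ζ).inf 𝔞, ∀ v : X.G.W.V,
      X.ηW (X.φQ (X.γ f)) v ∈ typeSub X.G.c ψ

/-- **PV-NU** (C), unbundled, from **PV-NU-POINT** (C-pt). -/
theorem stmt_PVNUG_of (hpt : Stmt_PVNUPoint) : Stmt_PVNUG := by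
  intro 𝒪 _ _ _ _ _ _ p _ fl ρbar N1 _ S Smin θ M k Pv eP hyp hsq hNS hex hPvN heP g r n qv hqv _ _ _
    X ζ hζ ψ hψ
    𝔞 h𝔞
  have hp : p.Prime := Fact.out
  have hpS : p ∈ S := hyp.hSmin hyp.hpSmin
  -- the primes of the level
  have hPvS : ∀ j, Pv.q j ∈ S := fun j => hNS _ (Pv.q_prime j) (hPvN j)
  have hne : ∀ j i, qv i ≠ Pv.q j := fun j i h => (hqv.2.1 i).2.1 (h ▸ hPvS j)
  have hNS' : ∀ q' : ℕ, q'.Prime → q' ∣ pvLevel N1 Pv.q qv → q' ∈ twSet S qv := by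
    intro q' hq' hdiv
    unfold twSet
    rcases prime_dvd_pvLevel N1 Pv.q qv Pv.q_prime (fun i => (hqv.2.1 i).1) hq' hdiv with
      h | ⟨i, rfl⟩ | ⟨j, rfl⟩
    · exact Finset.mem_union_left _ (hNS q' hq' h)
    · exact Finset.mem_union_right _ (Finset.mem_image_of_mem _ (Finset.mem_univ i))
    · exact Finset.mem_union_left _ (hPvS j)
  have hNS'' : ∀ q' : ℕ, q'.Prime → q' ∣ pvLevel N1 Pv.q qv →
      q' ∈ (↑(twSet S qv) : Set ℕ) := fun q' hq' hdiv => Finset.mem_coe.2 (hNS' q' hq' hdiv)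
  -- the Hecke ring is reduced
  haveI : Module.Finite ℤ (heckeAlgebra (pvLevel N1 Pv.q qv) 2 (↑(twSet S qv) : Set ℕ)) :=
    Fermat.Agent.S22.result (pvLevel N1 Pv.q qv) 2 (↑(twSet S qv) : Set ℕ)
  haveI : IsReduced (heckeAlgebra (pvLevel N1 Pv.q qv) 2 (↑(twSet S qv) : Set ℕ)) :=
    Fermat.Agent.R.H58.stmt_HeckeReduced (pvLevel N1 Pv.q qv) (↑(twSet S qv) : Set ℕ) hNS''
  haveI : IsReduced (heckeLocal (pvLevel N1 Pv.q qv) (↑(twSet S qv) : Set ℕ) 𝒪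
      ((θ.comp X.G.G1.rest).comp X.G.rest)) :=
    Fermat.Agent.R.H2.isReduced_of_flat_of_adjoin_eq_top
      (heckeAlgebra (pvLevel N1 Pv.q qv) 2 (↑(twSet S qv) : Set ℕ)) 𝒪
      (heckeLocal (pvLevel N1 Pv.q qv) (↑(twSet S qv) : Set ℕ) 𝒪
        ((θ.comp X.G.G1.rest).comp X.G.rest)) X.HQ.π X.HQ.adjoin_range_π
  -- the universal deformation
  have hdetQ : X.DQ.ρ.DetIsCyclotomic p := detIsCyclotomic_of_cond fl Smin _ _ X.DQ.isOfType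
  have hresQ : ∀ j, X.DQ.ρ.residual.IsUnramifiedAt (Pv.q j) := fun j =>
    resid_unramified_of_isEquiv_baseChange _ ρbar _ X.DQ.residual_isEquiv _ (hex j).2.2.1
  -- saturation
  have hsat : ∀ c : 𝒪, c ≠ 0 → ∀ v : X.G.W.V, c • v ∈ typeSub X.G.c ψ → v ∈ typeSub X.G.c ψ :=
    fun c hc v hv => H76.typeSub_saturated hp.pos X.G.c_comm X.G.c_pow X.G.b_basis ψ
      (fun j => (hψ j).1) c hc v hv
  refine pvNU_mod p hp hyp.hp2 hyp.hp𝒪 g Pv (fun j => (hex j).1) eP heP ζ hζ X.DQ.R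
    X.DQ.residue_surjective X.DQ.ρ hdetQ hresQ X.bQ X.γ X.γ_coord
    (heckeLocal (pvLevel N1 Pv.q qv) (↑(twSet S qv) : Set ℕ) 𝒪
      ((θ.comp X.G.G1.rest).comp X.G.rest)) X.HQ.ρ X.φQ X.φQ_local X.φQ_equiv X.G.W.V X.ηW
    (typeSub X.G.c ψ) hsat ?_ 𝔞 h𝔞
  -- the points occurring in `W / typeSub c ψ` are not unipotent at the pivot primes
  intro O _ _ _ _ _ _ _ _ x hx hkill j
  obtain ⟨hN, hqM, hMq⟩ := pvLevel_split N1 Pv.q qv (NeZero.ne N1) hsq Pv.q_prime Pv.q_inj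
    (fun i => (hqv.2.1 i).1) j (hPvN j) (hne j)
  haveI hNq0 : NeZero (pvLevel N1 Pv.q qv / Pv.q j) := by
    refine ⟨fun h0 => ?_⟩
    rw [h0] at hMq
    rcases mul_eq_zero.1 hMq with h | h
    · rw [h, zero_mul] at hN
      exact (NeZero.ne (pvLevel N1 Pv.q qv)) hN
    · exact (Pv.q_prime j).ne_zero h
  refine not_unipotent_of_new hpt p hp hyp.hp2 (pvLevel N1 Pv.q qv) (twSet S qv) (Pv.q j)
    (Pv.q_prime j) (hex j).2.1 hN hqM hMq (Finset.mem_union_left _ hpS) hNS' _ X.HQ.π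
    X.HQ.ρ X.HQ.charpoly_frob X.HQ.residual_absIrr X.HQ_det.1 O _ hx ?_
  intro χ' hχ'
  refine X.G.new ψ hψ O ((x : _ →+* O).comp X.HQ.π) (fun t ht => ?_) j χ' hχ'
  refine hkill (X.HQ.π t) fun v => ?_
  rw [X.HQ_π, X.ηW_π]
  exact ht v

end Fermat.Agent.L.Pivot3.H60
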