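/-
PIVOT3 (PIVOT at `p = 3` with auxiliary primes, owner helper75), leaf B in unbundled form (helper60):

  `stmt_PVUnipG : Stmt_PVUnipG`.

`Stmt_PVUnipG` is the text of `L.Pivot.Stmt_PVUnip` (`L/Pivot/Asm.lean`) with the hypothesis
`PVHyp p ρbar N1 S Smin Pv eP` replaced by the two fields which the proof uses:
`Pv.IsExceptional p ρbar` and `∀ q, q.Prime → q ∣ N1 → q ∈ S`.  In particular `S = Smin ∪ Pv.set`
is NOT used, so the statement applies with `S = Smin ∪ Pv.set ∪ R` (`R` = auxiliary primes).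
The context `PVCtx` is unchanged.  The proof is the proof of `H76.stmt_PVUnip` (helper76).
-/
import Fermat.Agent.L.Pivot.H76_PVUnip

set_option autoImplicit false
set_option linter.style.haveILetI false
set_option linter.unusedSectionVars false
set_option linter.unusedVariables false

namespace Fermat.Agent.L.Pivot3.H60

open Polynomial IsLocalRing CuspForm Fermat.Agent.S56 Fermat.Agent.S59 Fermat.Agent.S59.Asm
  Fermat.Agent.S59.TWGal Fermat.Agent.R Fermat.Agent.L.Pivot Fermat.Agent.L.Pivot.H76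

/-- **PV-UNIP** (B), unbundled: the text of `L.Pivot.Stmt_PVUnip` with `PVHyp` replaced by the
fields `hex`, `hNS`. -/
def Stmt_PVUnipG : Prop :=
  ∀ (𝒪 : Type) [CommRing 𝒪] [IsDomain 𝒪] [IsDiscreteValuationRing 𝒪]
    [IsAdicComplete (maximalIdeal 𝒪) 𝒪] [Finite (ResidueField 𝒪)] [CharZero 𝒪]
    (p : ℕ) [Fact p.Prime] (fl : Bool) (ρbar : ResidualGaloisRep (ResidueField 𝒪))
    (N1 : ℕ) [NeZero N1] (S Smin : Finset ℕ)
    (θ : CuspForm.heckeAlgebra N1 2 (↑S : Set ℕ) →+* ResidueField 𝒪)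
    (M : HMod 𝒪 N1 (↑S : Set ℕ) θ) (k : ℕ) (Pv : PivotPrimes k) (eP : Fin k → ℕ),
    Pv.IsExceptional p ρbar → (∀ q : ℕ, q.Prime → q ∣ N1 → q ∈ S) →
    ∀ (g r n : ℕ) (qv : Fin r → ℕ), IsTWFamily ρbar p n S qv →
    ∀ [NeZero (twLevel N1 qv)] [NeZero (pvLevel N1 Pv.q qv)]
      [Fact (CuspForm.HasIntegralStructure (twLevel N1 qv) 2)]
      [Fact (CuspForm.HasIntegralStructure (pvLevel N1 Pv.q qv) 2)]
      (X : PVCtx 𝒪 p fl ρbar N1 S Smin θ M Pv eP g n qv)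
      (HQ1 : CuspForm.HeckeGaloisRepDatum (twLevel N1 qv) (↑(twSet S qv) : Set ℕ) 𝒪
        (θ.comp X.G.G1.rest)
        (CuspForm.heckeLocal (twLevel N1 qv) (↑(twSet S qv) : Set ℕ) 𝒪 (θ.comp X.G.G1.rest))),
    HQ1.π = CuspForm.heckeLocal.π (twLevel N1 qv) (↑(twSet S qv) : Set ℕ) 𝒪
      (θ.comp X.G.G1.rest) →
    HQ1.ρ.DetIsCyclotomic p →
    (∀ j, HQ1.ρ.IsUnipotentOnInertiaAt (Pv.q j)) →
    ∀ f ∈ idealUnip g (fun j => ((Pv.q j : ℕ) : 𝒪)), ∀ v : X.G.W.V,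
      X.ηW (X.φQ (X.γ f)) v ∈ typeSub X.G.c (fun _ => (1 : 𝒪))

set_option maxHeartbeats 1000000 in
set_option synthInstance.maxHeartbeats 400000 in
/-- **PV-UNIP** (B), unbundled. -/
theorem stmt_PVUnipG : Stmt_PVUnipG := by
  intro 𝒪 _ _ _ _ _ _ p _ fl ρbar N1 _ S Smin θ M k Pv eP hex hNS g r n qv hTW _ _ _ _ X HQ1 hHQ1π
    hdet1 hU f hf v
  have hp : p.Prime := Fact.out
  have hqp : ∀ j, Pv.q j ≠ p := fun j => (hex j).2.1
  -- Step 1: the action on `G1.W` and the restriction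
  obtain ⟨ηW1, hηW1⟩ := H85.stmt_LOCMOD 𝒪 (twLevel N1 qv) (↑(twSet S qv) : Set ℕ)
    (θ.comp X.G.G1.rest) X.G.G1.W
  obtain ⟨res, hres⟩ := H85.stmt_RESLOC 𝒪 (twLevel N1 qv) (pvLevel N1 Pv.q qv)
    (↑(twSet S qv) : Set ℕ) (↑(twSet S qv) : Set ℕ) (θ.comp X.G.G1.rest) X.G.rest
  -- Step 2: `κ` intertwines
  have hκ : ∀ (t : CuspForm.heckeLocal (pvLevel N1 Pv.q qv) (↑(twSet S qv) : Set ℕ) 𝒪
      ((θ.comp X.G.G1.rest).comp X.G.rest)) (v : X.G.W.V),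
      X.G.κ (X.ηW t v) = ηW1 (res t) (X.G.κ v) :=
    H77.intertwine_of_gen X.HQ.adjoin_range_π X.ηW ηW1 res X.G.κ fun t v => by
      rw [X.HQ_π, X.ηW_π, X.G.κ_η, hres, hηW1]
  -- Step 3: the composite `res ∘ φQ` is local and carries `DQ.ρ` to `HQ1.ρ`
  have hresl : IsLocalHom (res : CuspForm.heckeLocal (pvLevel N1 Pv.q qv)
      (↑(twSet S qv) : Set ℕ) 𝒪 ((θ.comp X.G.G1.rest).comp X.G.rest) →+*
      CuspForm.heckeLocal (twLevel N1 qv) (↑(twSet S qv) : Set ℕ) 𝒪 (θ.comp X.G.G1.rest)) :=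
    isLocalHom_of_finite (𝒪 := 𝒪) res
  have hf1 := H77.isLocalHom_comp_algHom res X.φQ hresl X.φQ_local
  have hD : X.DQ.ρ.residual.IsAbsolutelyIrreducible :=
    Fermat.Agent.S59.Datum.H57.absIrr_of_isEquiv X.DQ.residual_isEquiv
      (Fermat.Agent.S59.Datum.H57.absIrr_baseChangeAlong _ ρbar X.DQ.absIrr)
  have hirr := Fermat.Agent.R.H86.residual_absIrr_baseChangeAlong _ hf1 X.DQ.ρ hD
  have hdvd : twLevel N1 qv ∣ pvLevel N1 Pv.q qv := Dvd.intro _ rfl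
  have he : (X.DQ.ρ.baseChangeAlong ((res.comp X.φQ : X.DQ.R →ₐ[𝒪] _) : X.DQ.R →+* _)
      hf1).IsEquiv HQ1.ρ := by
    refine H57.isEquiv_of_frobenius _ HQ1.ρ hirr
      (twSet S qv ∪ (pvLevel N1 Pv.q qv).primeFactors) ?_
    intro ℓ hℓ hℓS B hB σ hσ
    have h1 : ¬ ℓ ∣ pvLevel N1 Pv.q qv := fun h => hℓS (Finset.mem_union_right _
      (Nat.mem_primeFactors.2 ⟨hℓ, h, NeZero.ne _⟩))
    have h2 : ℓ ∉ (↑(twSet S qv) : Set ℕ) := fun h => hℓS (Finset.mem_union_left _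
      (Finset.mem_coe.1 h))
    have h3 : ¬ ℓ ∣ twLevel N1 qv := fun h => h1 (h.trans hdvd)
    rw [charpoly_bcAlong, HQ1.charpoly_frob ℓ hℓ h3 h2 B hB σ hσ]
    have h4 : (LinearMap.charpoly (X.DQ.ρ.ρ σ)).map
        ((res.comp X.φQ : X.DQ.R →ₐ[𝒪] _) : X.DQ.R →+* _) =
        ((LinearMap.charpoly (X.DQ.ρ.ρ σ)).map (X.φQ : X.DQ.R →+*
          CuspForm.heckeLocal (pvLevel N1 Pv.q qv) (↑(twSet S qv) : Set ℕ) 𝒪
            ((θ.comp X.G.G1.rest).comp X.G.rest))).map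
          (res : CuspForm.heckeLocal (pvLevel N1 Pv.q qv) (↑(twSet S qv) : Set ℕ) 𝒪
            ((θ.comp X.G.G1.rest).comp X.G.rest) →+*
            CuspForm.heckeLocal (twLevel N1 qv) (↑(twSet S qv) : Set ℕ) 𝒪
              (θ.comp X.G.G1.rest)) := by
      rw [Polynomial.map_map]
      rfl
    have h5 : LinearMap.charpoly ((X.DQ.ρ.baseChangeAlong (X.φQ : X.DQ.R →+*
        CuspForm.heckeLocal (pvLevel N1 Pv.q qv) (↑(twSet S qv) : Set ℕ) 𝒪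
          ((θ.comp X.G.G1.rest).comp X.G.rest)) X.φQ_local).ρ σ) =
        (LinearMap.charpoly (X.DQ.ρ.ρ σ)).map (X.φQ : X.DQ.R →+*
          CuspForm.heckeLocal (pvLevel N1 Pv.q qv) (↑(twSet S qv) : Set ℕ) 𝒪
            ((θ.comp X.G.G1.rest).comp X.G.rest)) :=
      charpoly_bcAlong _ X.φQ_local X.DQ.ρ σ
    rw [h4, ← h5, charpoly_of_isEquiv X.φQ_equiv σ]
    refine H77.map_charpoly_frob _ (X.HQ.π (CuspForm.heckeAlgebra.T hℓ h1 h2)) _ ℓ ?_ _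
      (X.HQ.charpoly_frob ℓ hℓ h1 h2 B hB σ hσ)
    have e1 := RingHom.congr_fun X.HQ_π (CuspForm.heckeAlgebra.T hℓ h1 h2)
    have e2 := RingHom.congr_fun hHQ1π (CuspForm.heckeAlgebra.T hℓ h3 h2)
    have e3 := hres (CuspForm.heckeAlgebra.T hℓ h1 h2)
    have e4 := X.G.rest_T ℓ hℓ h1 h2 h3
    exact (congrArg res e1).trans (e3.trans ((congrArg _ e4).trans e2.symm))
  -- Step 4: `TQ1` is reduced
  have hNS1 : ∀ q : ℕ, q.Prime → q ∣ twLevel N1 qv → q ∈ (↑(twSet S qv) : Set ℕ) := by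
    intro q hq hqN
    by_cases hqN1 : q ∣ N1
    · exact H41.subset_twSet S qv (Finset.mem_coe.2 (hNS q hq hqN1))
    · exact H41.new_prime_mem_twSet N1 S qv (fun j => (hTW.2.1 j).1) q hq hqN hqN1
  haveI : Module.Finite ℤ (CuspForm.heckeAlgebra (twLevel N1 qv) 2 (↑(twSet S qv) : Set ℕ)) :=
    Fermat.Agent.S22.result (twLevel N1 qv) 2 (↑(twSet S qv) : Set ℕ)
  haveI : IsReduced (CuspForm.heckeAlgebra (twLevel N1 qv) 2 (↑(twSet S qv) : Set ℕ)) :=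
    H58.stmt_HeckeReduced (twLevel N1 qv) (↑(twSet S qv) : Set ℕ) hNS1
  have hadj : Algebra.adjoin 𝒪 (Set.range (CuspForm.heckeLocal.π (twLevel N1 qv)
      (↑(twSet S qv) : Set ℕ) 𝒪 (θ.comp X.G.G1.rest))) = ⊤ := by
    rw [← hHQ1π]
    exact HQ1.adjoin_range_π
  haveI : IsReduced (CuspForm.heckeLocal (twLevel N1 qv) (↑(twSet S qv) : Set ℕ) 𝒪
      (θ.comp X.G.G1.rest)) :=
    H2.isReduced_of_flat_of_adjoin_eq_top
      (CuspForm.heckeAlgebra (twLevel N1 qv) 2 (↑(twSet S qv) : Set ℕ)) 𝒪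
      (CuspForm.heckeLocal (twLevel N1 qv) (↑(twSet S qv) : Set ℕ) 𝒪 (θ.comp X.G.G1.rest))
      (CuspForm.heckeLocal.π (twLevel N1 qv) (↑(twSet S qv) : Set ℕ) 𝒪 (θ.comp X.G.G1.rest))
      hadj
  -- Step 5: the universal deformation is residually unramified at the pivot primes
  have hresQ : ∀ j, ∀ σ ∈ (Pv.P j).inertiaSubgroupIn ℚ, X.DQ.ρ.residual.ρ σ = 1 :=
    fun j σ hσ => H77.resid_eq_one_of_isEquiv ρbar X.DQ.ρ X.DQ.residual_isEquiv σ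
      ((hex j).2.2.1 (Pv.P j) (Pv.P_over j) σ hσ)
  exact pvUnip_modQ p hp g Pv hqp X.DQ.R X.DQ.ρ hresQ X.bQ X.γ X.γ_coord
    (CuspForm.heckeLocal (twLevel N1 qv) (↑(twSet S qv) : Set ℕ) 𝒪 (θ.comp X.G.G1.rest))
    HQ1.ρ hdet1 hU _ X.φQ res hf1 he X.G.W.V X.G.G1.W.V X.G.c X.G.κ X.G.ker_κ X.ηW ηW1 hκ
    f hf v

end Fermat.Agent.L.Pivot3.H60
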