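/-
PIVOT3 (PIVOT at `p = 3` with auxiliary primes, owner helper75), leaves B3, C3, A3 (helper60):

* `stmt_PVUnipA : Stmt_PVUnipA`                      (B3, unconditional),
* `stmt_PVNUA_of : Stmt_PVNUPoint → Stmt_PVNUA`      (C3, from C-pt),
* `stmt_PVAsmA : Stmt_PVAsmA`                        (A3, unconditional),

for the hypotheses `PVHypA` of `L/Pivot3/Asm3.lean` (helper3).  They are special cases of the
unbundled forms `stmt_PVUnipG`, `stmt_PVNUG_of`, `stmt_PVAsmG` (`H60_PVUnipG.lean`,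
`H60_PVNUG.lean`, `H60_PVAsmG.lean`), whose proofs are those of helper76, helper72, helper77.
-/
import Fermat.Agent.L.Pivot3.Asm3
import Fermat.Agent.L.Pivot3.H60_PVUnipG
import Fermat.Agent.L.Pivot3.H60_PVNUG
import Fermat.Agent.L.Pivot3.H60_PVAsmG

set_option autoImplicit false

namespace Fermat.Agent.L.Pivot3.H60

open Polynomial IsLocalRing CuspForm Fermat.Agent.S56 Fermat.Agent.S59 Fermat.Agent.S59.Asm
  Fermat.Agent.L.Pivot

/-- `Smin ∪ Pv.set ⊆ S` under `PVHypA`. -/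
theorem PVHypA_union_subset {𝒪 : Type} [CommRing 𝒪] [IsLocalRing 𝒪] {p : ℕ}
    {ρbar : ResidualGaloisRep (ResidueField 𝒪)} {N1 : ℕ} {S Smin : Finset ℕ} {k : ℕ}
    {Pv : PivotPrimes k} {eP : Fin k → ℕ} (h : PVHypA p ρbar N1 S Smin Pv eP) :
    Smin ∪ Pv.set ⊆ S := by
  obtain ⟨R, hS, -⟩ := h.hR
  rw [hS]
  exact Finset.subset_union_left

/-- **B3 = PV-UNIP for `PVHypA`.** -/
theorem stmt_PVUnipA : Stmt_PVUnipA := by
  intro 𝒪 _ _ _ _ _ _ p _ fl ρbar N1 _ S Smin θ M k Pv eP hPV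
  exact stmt_PVUnipG 𝒪 p fl ρbar N1 S Smin θ M k Pv eP hPV.hex hPV.hNS

/-- **C3 = PV-NU for `PVHypA`**, from PV-NU-POINT. -/
theorem stmt_PVNUA_of (hpt : Stmt_PVNUPoint) : Stmt_PVNUA := by
  intro 𝒪 _ _ _ _ _ _ p _ fl ρbar N1 _ S Smin θ M k Pv eP hPV
  exact stmt_PVNUG_of hpt 𝒪 p fl ρbar N1 S Smin θ M k Pv eP hPV.hyp hPV.hsq hPV.hNS hPV.hex
    hPV.hPvN hPV.heP

/-- **A3 = PV-ASM for `PVHypA`.** -/
theorem stmt_PVAsmA : Stmt_PVAsmA := by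
  intro 𝒪 _ _ _ _ _ _ p _ fl ρbar N1 _ _ S Smin θ M k Pv eP hPV
  exact stmt_PVAsmG 𝒪 p fl ρbar N1 S Smin θ M k Pv eP hPV.hyp hPV.hex (PVHypA_union_subset hPV)

end Fermat.Agent.L.Pivot3.H60
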