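/-
PIVOT3 (PIVOT at `p = 3` with auxiliary primes; owner helper75, core interface helper3):
the CHAIN (helper11), part 1: everything plugged but PV-GAL, PV-NU-POINT, PV-GEOM, COND-aux.

* `pivotCoreBA_of_levels : Stmt_PVLevelsBA → Stmt_PivotCoreBA`
                                            (LOC, PATCH, TAME, OLD plugged),
* `pvLevelsBA_of_open : Stmt_PVGalB → Stmt_PVNUPoint → Stmt_PVGeom2A → Stmt_CONDauxD →
    Stmt_PVLevelsBA`                        (S23, DATUM and the leaves A3, B3, C3 plugged),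
* `pivotCoreBA_of_open : Stmt_PVGalB → Stmt_PVNUPoint → Stmt_PVGeom2A → Stmt_CONDauxD →
    Stmt_PivotCoreBA`.

`Stmt_PVGalB` and `Stmt_PVNUPoint` are plugged in `H11_ChainAClosed.lean` (heavy imports: the
S55/S56 islands and the S36 core).
-/
import Fermat.Agent.L.Pivot3.H11_Wire1A
import Fermat.Agent.L.Pivot3.H60_PVA
import Fermat.Agent.L.Pivot.H52_LocType
import Fermat.Agent.L.Pivot.H52_LocUnr
import Fermat.Agent.L.Pivot.H52_LocDimS
import Fermat.Agent.L.Pivot.H76_Patch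
import Fermat.Agent.L.Pivot.H59_Tame1
import Fermat.Agent.L.Pivot.H50_StIFinal
import Fermat.Agent.S59.Datum.Final
import Fermat.Agent.S23

set_option autoImplicit false

namespace Fermat.Agent.L.Pivot3.H11

open Fermat.Agent.L.Pivot Fermat.Agent.L.Pivot3

/-- **PIVOT3 core from the levels** (LOC, PATCH, TAME, OLD plugged). -/
theorem pivotCoreBA_of_levels (hLev : Stmt_PVLevelsBA) : Stmt_PivotCoreBA :=
  pivotCoreBA_of Fermat.Agent.L.Pivot.H52.stmt_PVLoc_type
    Fermat.Agent.L.Pivot.H52.stmt_PVLoc_unr Fermat.Agent.L.Pivot.H52.stmt_PVLoc_dimS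
    Fermat.Agent.L.Pivot.H76.stmt_PVPatch hLev Fermat.Agent.L.Pivot.H59.stmt_PVTame1
    Fermat.Agent.L.Pivot.H50.stmt_PVOld

/-- **The levels of PIVOT3** from PV-GAL, PV-NU-POINT, PV-GEOM with auxiliary primes and COND-aux
(S23, DATUM and the leaves A3, B3, C3 plugged). -/
theorem pvLevelsBA_of_open (hGal : Stmt_PVGalB) (hpt : Stmt_PVNUPoint)
    (hGeom : Stmt_PVGeom2A) (hCond : Stmt_CONDauxD) : Stmt_PVLevelsBA :=
  pvLevelsBA_of (fun N _ => Fermat.Agent.S23.result N) hGal hGeom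
    Fermat.Agent.S59.Datum.stmt_DATUM hCond Fermat.Agent.L.Pivot3.H60.stmt_PVAsmA
    Fermat.Agent.L.Pivot3.H60.stmt_PVUnipA (Fermat.Agent.L.Pivot3.H60.stmt_PVNUA_of hpt)

/-- **PIVOT3, Hecke–Galois form**, from PV-GAL, PV-NU-POINT, PV-GEOM with auxiliary primes and
COND-aux. -/
theorem pivotCoreBA_of_open (hGal : Stmt_PVGalB) (hpt : Stmt_PVNUPoint)
    (hGeom : Stmt_PVGeom2A) (hCond : Stmt_CONDauxD) : Stmt_PivotCoreBA :=
  pivotCoreBA_of_levels (pvLevelsBA_of_open hGal hpt hGeom hCond)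

end Fermat.Agent.L.Pivot3.H11
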