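import Fermat.Agent.L.Pivot3.H80_AutoUnrFinal
import Fermat.Agent.L.Pivot3.H24_AuxDefs

/-!
# PIVOT at `p = 3` (package PIVOT3), leaf AUTO-UNR: helper24's interface, unconditional (helper80)

`stmt_AutoUnr24 : H24.Stmt_AutoUnr` — every lift of `ρbar` to a complete noetherian local ring
is unramified at an auxiliary prime `r` (`H24.AuxAt p ρbar r`).
-/

set_option autoImplicit false

noncomputable section

open IsLocalRing

namespace Fermat.Agent.L.Pivot3.H80

/-- **AUTO-UNR** in helper24's interface (`L/Pivot3/H24_AuxDefs.lean`), unconditional. -/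
theorem stmt_AutoUnr24 : Fermat.Agent.L.Pivot3.H24.Stmt_AutoUnr := by
  intro A _ _ _ _ p hp hpA k _ ρbar φ ρ hres r haux
  exact autoUnr A p hp hpA k ρbar φ ρ hres r haux.1 haux.2.1 haux.2.2.1 haux.2.2.2.1
    haux.2.2.2.2

end Fermat.Agent.L.Pivot3.H80
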