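/-
PIVOT3 (PIVOT at `p = 3`, owner helper75), leaf COND-aux (helper24).

At `p = 3` the pivot needs an auxiliary prime `r ≡ 2 mod 3` IN THE LEVEL (no elliptic element of
order `3`).  The Hecke–Galois datum of a level `N'` divisible by `r` still satisfies the SAME
deformation condition `cond 𝒪 p fl Smin Q` (so the Galois side is unchanged), because every lift
of `ρbar` is unramified at `r` (AUTO-UNR: `Ad(Φbar) - r` is invertible).

* `AuxAt p ρbar r`, `Stmt_AutoUnr` : the interface of AUTO-UNR (`H24_AuxDefs.lean`);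
* `Stmt_CONDaux` : `S59.Asm.Stmt_COND` with `S' = Smin ∪ Q ∪ R`, `R` a set of auxiliary primes;
* `stmt_CONDaux_core`, `stmt_CONDaux_of : Stmt_AutoUnr → Stmt_CONDaux`;
* `stmt_CONDaux : Stmt_CONDaux`, UNCONDITIONAL (with `H80.stmt_AutoUnr24`, helper34 + helper80).
-/
import Fermat.Agent.L.Pivot3.H24_AuxDefs
import Fermat.Agent.L.Pivot3.H80_AutoUnr24
import Fermat.Agent.S59.Asm.H7_CondUncond

set_option autoImplicit false
set_option linter.style.haveILetI false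
set_option linter.unusedSectionVars false

open Polynomial IsLocalRing CuspForm

namespace Fermat.Agent.L.Pivot3.H24

open Fermat.Agent.R Fermat.Agent.S59 Fermat.Agent.S59.Datum Fermat.Agent.S59.Asm
  Fermat.Agent.S59.Asm.H7

/-- **AUTO-UNR for the datum over the full local Hecke ring** (what COND-aux uses). -/
def Stmt_AutoUnrDatum : Prop :=
  ∀ (𝒪 : Type) [CommRing 𝒪] [IsDomain 𝒪] [IsDiscreteValuationRing 𝒪]
    [IsAdicComplete (maximalIdeal 𝒪) 𝒪] [Finite (ResidueField 𝒪)] [CharZero 𝒪]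
    (p : ℕ), p.Prime → (p : 𝒪) ∈ maximalIdeal 𝒪 →
    ∀ (ρbar : ResidualGaloisRep (ResidueField 𝒪))
      (N : ℕ) [NeZero N] [Fact (CuspForm.HasIntegralStructure N 2)] (S : Finset ℕ),
    ∀ (θ : CuspForm.heckeAlgebra N 2 (↑S : Set ℕ) →+* ResidueField 𝒪)
      (H : CuspForm.HeckeGaloisRepDatum N (↑S : Set ℕ) 𝒪 θ
        (CuspForm.heckeLocal N (↑S : Set ℕ) 𝒪 θ)),
    H.ρ.residual.IsEquiv (ρbar.baseChangeAlong
      (ResidueField.map (algebraMap 𝒪 (CuspForm.heckeLocal N (↑S : Set ℕ) 𝒪 θ)))) →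
    ∀ r : ℕ, AuxAt p ρbar r → H.ρ.IsUnramifiedAt r

/-- **COND with auxiliary primes in the level.** -/
def Stmt_CONDaux : Prop :=
  ∀ (𝒪 : Type) [CommRing 𝒪] [IsDomain 𝒪] [IsDiscreteValuationRing 𝒪]
    [IsAdicComplete (maximalIdeal 𝒪) 𝒪] [Finite (ResidueField 𝒪)] [CharZero 𝒪]
    (p : ℕ) [Fact p.Prime], p ≠ 2 → (p : 𝒪) ∈ maximalIdeal 𝒪 →
    ∀ (fl : Bool) (ρbar : ResidualGaloisRep (ResidueField 𝒪)) (Smin : Finset ℕ),
    ResHyp p ρbar Smin →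
    cond 𝒪 p fl Smin ∅ (GaloisRepAdic.ofResidualGaloisRep ρbar) →
    (fl = false → ¬ (GaloisRepAdic.ofResidualGaloisRep ρbar).IsFlatAt p) →
    ∀ (Q R : Finset ℕ) (N' : ℕ) [NeZero N'] [Fact (CuspForm.HasIntegralStructure N' 2)]
      (S' : Finset ℕ),
    S' = Smin ∪ Q ∪ R →
    (∀ r ∈ R, AuxAt p ρbar r) →
    (∀ q : ℕ, q.Prime → q ∣ N' → q ∈ S') →
    (∀ q ∈ Smin, q ≠ p → q ∣ N' ∧ ¬ q ^ 2 ∣ N') →
    (fl = true → ¬ p ∣ N') → (fl = false → p ∣ N' ∧ ¬ p ^ 2 ∣ N') →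
    ∀ (θ : CuspForm.heckeAlgebra N' 2 (↑S' : Set ℕ) →+* ResidueField 𝒪),
    Fermat.Agent.S59.Datum.FrobHyp ρbar N' S' θ →
    ∀ (H : CuspForm.HeckeGaloisRepDatum N' (↑S' : Set ℕ) 𝒪 θ
        (CuspForm.heckeLocal N' (↑S' : Set ℕ) 𝒪 θ)),
    H.π = CuspForm.heckeLocal.π N' (↑S' : Set ℕ) 𝒪 θ →
    H.ρ.DetIsCyclotomic p →
    H.ρ.residual.IsEquiv (ρbar.baseChangeAlong
      (ResidueField.map (algebraMap 𝒪 (CuspForm.heckeLocal N' (↑S' : Set ℕ) 𝒪 θ)))) →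
    cond 𝒪 p fl Smin Q H.ρ

/-- **COND-aux**, core (the proof of `H7.stmt_COND_core`, with AUTO-UNR at the primes of `R`). -/
theorem stmt_CONDaux_core (hAU : Stmt_AutoUnrDatum)
    (hUnr : Stmt_UnrDatum) (hUnip : Stmt_UnipDatum) (hFlat : Stmt_FlatDatum)
    (hS30 : Stmt_S30) (hFP : Stmt_FlatPoint) (hONS : Stmt_OrdNewStrict)
    (hResIrr : Stmt_ResIrr) (hFD : Stmt_FlatDesc) : Stmt_CONDaux := by
  intro 𝒪 _ _ _ _ _ _ p _ hp2 hp𝒪 fl ρbar Smin hyp _ hnf Q R N' _ _ S' hS' hR hNS hSmin hfl hso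
    θ hθ H _ hcyc hres
  have hp : p.Prime := Fact.out
  have hpS : p ∈ S' := by
    rw [hS']
    exact Finset.mem_union_left _ (Finset.mem_union_left _ hyp.hpSmin)
  have hunr : ∀ q : ℕ, q.Prime → q ∉ Smin ∪ Q → H.ρ.IsUnramifiedAt q := by
    intro q hq hqS
    by_cases hqR : q ∈ R
    · exact hAU 𝒪 p hp hp𝒪 ρbar N' S' θ H hres q (hR q hqR)
    · refine hUnr 𝒪 p hp hp𝒪 N' S' hpS hNS θ H q hq ?_
      rw [hS']
      intro hmem
      rcases Finset.mem_union.mp hmem with h | h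
      · exact hqS h
      · exact hqR h
  have hunip : ∀ q ∈ Smin, q.Prime → q ≠ p → H.ρ.IsUnipotentOnInertiaAt q := fun q hqS hq hqp =>
    hUnip 𝒪 p hp hp𝒪 N' S' hpS hNS θ H q hq hqp (hSmin q hqS hqp).1 (hSmin q hqS hqp).2
  cases fl
  · -- strictly ordinary
    haveI : Module.Finite ℤ (CuspForm.heckeAlgebra N' 2 (↑S' : Set ℕ)) :=
      Fermat.Agent.S22.result N' 2 (↑S' : Set ℕ)
    haveI : IsReduced (CuspForm.heckeAlgebra N' 2 (↑S' : Set ℕ)) :=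
      H58.stmt_HeckeReduced N' (↑S' : Set ℕ) hNS
    haveI : IsReduced (CuspForm.heckeLocal N' (↑S' : Set ℕ) 𝒪 θ) :=
      H2.isReduced_of_flat_of_adjoin_eq_top (CuspForm.heckeAlgebra N' 2 (↑S' : Set ℕ)) 𝒪
        (CuspForm.heckeLocal N' (↑S' : Set ℕ) 𝒪 θ) H.π H.adjoin_range_π
    have hso' := strictOrd_of 𝒪 p N' S' (CuspForm.heckeLocal N' (↑S' : Set ℕ) 𝒪 θ) hS30 hFP hONS
      hResIrr hFD hp2 hp𝒪 hpS hNS (hso rfl) θ H ρbar hyp.habs hθ (hnf rfl)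
    exact ⟨⟨hcyc, hso', hunr⟩, hunip⟩
  · -- flat
    have hfl' := hFlat 𝒪 p hp hp2 hp𝒪 N' S' (hfl rfl) hpS hNS θ H
    exact ⟨⟨hcyc, hfl', hunr⟩, hunip⟩

/-- AUTO-UNR for the datum over the full local Hecke ring, from the general form. -/
theorem stmt_AutoUnrDatum_of (hAU : Stmt_AutoUnr) : Stmt_AutoUnrDatum := by
  intro 𝒪 _ _ _ _ _ _ p hp hp𝒪 ρbar N _ _ S θ H hres r hr
  have hpT : (p : CuspForm.heckeLocal N (↑S : Set ℕ) 𝒪 θ)
      ∈ maximalIdeal (CuspForm.heckeLocal N (↑S : Set ℕ) 𝒪 θ) := by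
    have h1 : (p : CuspForm.heckeLocal N (↑S : Set ℕ) 𝒪 θ)
        = algebraMap 𝒪 (CuspForm.heckeLocal N (↑S : Set ℕ) 𝒪 θ) (p : 𝒪) := by
      rw [map_natCast]
    rw [h1, mem_maximalIdeal, mem_nonunits_iff]
    intro hu
    have hu' : IsUnit (p : 𝒪) := isUnit_of_map_unit
      (algebraMap 𝒪 (CuspForm.heckeLocal N (↑S : Set ℕ) 𝒪 θ)) _ hu
    exact (mem_nonunits_iff.mp ((mem_maximalIdeal _).mp hp𝒪)) hu'
  exact hAU (CuspForm.heckeLocal N (↑S : Set ℕ) 𝒪 θ) p hp hpT (ResidueField 𝒪) ρbar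
    (ResidueField.map (algebraMap 𝒪 (CuspForm.heckeLocal N (↑S : Set ℕ) 𝒪 θ))) H.ρ hres r hr

/-- **COND-aux** from AUTO-UNR (everything else is landed: frozen S31, S34, S32 at the points,
S30, `Stmt_OrdNewStrict`, RES-IRR, FLAT-DESC). -/
theorem stmt_CONDaux_of (hAU : Stmt_AutoUnr) : Stmt_CONDaux :=
  stmt_CONDaux_core (stmt_AutoUnrDatum_of hAU) H7.stmt_UnrDatum H7.stmt_UnipDatum
    (H7.stmt_FlatDatum_of Fermat.Agent.S59.NonMin.H7.stmt_FlatPoint)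
    Fermat.Agent.R.H33.stmt_S30 Fermat.Agent.S59.NonMin.H7.stmt_FlatPoint
    Fermat.Agent.S33.New.H36.stmt_OrdNewStrict Fermat.Agent.S59.Datum.H57.stmt_ResIrr
    Fermat.Agent.S59.Datum.H78.stmt_FlatDesc

/-- **COND-aux**, unconditional (AUTO-UNR: helper34's inertia form, helper80's datum form). -/
theorem stmt_CONDaux : Stmt_CONDaux :=
  stmt_CONDaux_of Fermat.Agent.L.Pivot3.H80.stmt_AutoUnr24

/-- `Stmt_COND` is the case `R = ∅` (sanity check of the shape). -/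
theorem stmt_COND_of_aux (h : Stmt_CONDaux) : Fermat.Agent.S59.Asm.Stmt_COND := by
  intro 𝒪 _ _ _ _ _ _ p _ hp2 hp𝒪 fl ρbar Smin hyp hbar hnf Q N' _ _ S' hS' hNS hSmin hfl hso θ hθ
    H hπ hcyc hres
  exact h 𝒪 p hp2 hp𝒪 fl ρbar Smin hyp hbar hnf Q ∅ N' S' (by rw [hS', Finset.union_empty])
    (fun r hr => absurd hr (Finset.notMem_empty r)) hNS hSmin hfl hso θ hθ H hπ hcyc hres

end Fermat.Agent.L.Pivot3.H24
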