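/-
PIVOT3 (PIVOT at `p = 3` with auxiliary primes; owner helper75, core interface helper3):
the CHAIN (helper11), part 2: COND-aux (helper24, unconditional) plugged, and the bridge from
the core statement `L.Pivot.Stmt_PVGeom2` (in the `hU` form, helper70) to `Stmt_PVGeom2A`.

* `stmt_CONDauxD      : Stmt_CONDauxD`                              (= `H24.stmt_CONDaux`),
* `stmt_PVGeom2A_of   : L.Pivot.Stmt_PVGeom2 → Stmt_PVGeom2A`       (the two texts agree),
* `pivotCoreBA_of_gal : Stmt_PVGalB → Stmt_PVNUPoint → Stmt_PVGeom2A → Stmt_PivotCoreBA`,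
* `pivotCoreBA_of_gal2 : Stmt_PVGalB → Stmt_PVNUPoint → L.Pivot.Stmt_PVGeom2 → Stmt_PivotCoreBA`.
-/
import Fermat.Agent.L.Pivot3.H11_ChainA
import Fermat.Agent.L.Pivot3.H24_CondAux

set_option autoImplicit false

namespace Fermat.Agent.L.Pivot3.H11

open Fermat.Agent.L.Pivot Fermat.Agent.L.Pivot3

/-- **COND-aux**, unconditional (helper24). -/
theorem stmt_CONDauxD : Stmt_CONDauxD :=
  Fermat.Agent.L.Pivot3.H24.stmt_CONDaux

/-- **PV-GEOM with auxiliary primes from the core statement** (in the `hU` form). -/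
theorem stmt_PVGeom2A_of (h : Fermat.Agent.L.Pivot.Stmt_PVGeom2) : Stmt_PVGeom2A :=
  h

/-- **PIVOT3, Hecke–Galois form**, from PV-GAL, PV-NU-POINT and PV-GEOM with auxiliary primes. -/
theorem pivotCoreBA_of_gal (hGal : Stmt_PVGalB) (hpt : Stmt_PVNUPoint)
    (hGeom : Stmt_PVGeom2A) : Stmt_PivotCoreBA :=
  pivotCoreBA_of_open hGal hpt hGeom stmt_CONDauxD

/-- **PIVOT3, Hecke–Galois form**, from PV-GAL, PV-NU-POINT and the core PV-GEOM. -/
theorem pivotCoreBA_of_gal2 (hGal : Stmt_PVGalB) (hpt : Stmt_PVNUPoint)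
    (hGeom : Fermat.Agent.L.Pivot.Stmt_PVGeom2) : Stmt_PivotCoreBA :=
  pivotCoreBA_of_gal hGal hpt (stmt_PVGeom2A_of hGeom)

end Fermat.Agent.L.Pivot3.H11
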