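/-
PIVOT3 (PIVOT at `p = 3` with auxiliary primes; owner helper75, core interface helper3):
the CLOSED CHAIN (helper11), part 2.

* `stmt_PVGalB_closed    : Stmt_PVGalB`      (S55 GS island + S56 EC, as in `Fermat.Agent.S56`),
* `stmt_PVNUPoint_closed : Stmt_PVNUPoint`   (from S36: `S36.NU.H10.nuCoreTame`),
* `pvLevelsBA_closed     : Stmt_PVGeom2A → Stmt_PVLevelsBA`,
* `pivotCoreBA_closed    : Stmt_PVGeom2A → Stmt_PivotCoreBA`,
* `pivotCoreBA_closed2   : L.Pivot.Stmt_PVGeom2 → Stmt_PivotCoreBA`.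

The only input left of `Stmt_PivotCoreBA` is PV-GEOM (`L.Pivot.Stmt_PVGeom2` in the `hU` form,
which is `Stmt_PVGeom2A`).
-/
import Fermat.Agent.L.Pivot3.H11_ChainACond
import Fermat.Agent.L.Pivot.H4_GalNBFinal
import Fermat.Agent.L.Pivot.H72_PVGalAB
import Fermat.Agent.L.Pivot.H4_NUPoint
import Fermat.Agent.S58.H81_Chain
import Fermat.Agent.S36.NU.H10_Core
import Fermat.Agent.S55.CFT.GS.H24_GSFinal
import Fermat.Agent.S55.H48_AssemblyGS
import Fermat.Agent.S56.EC.H47_ECTop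

set_option autoImplicit false

namespace Fermat.Agent.L.Pivot3.H11

open Fermat.Agent.L.Pivot Fermat.Agent.L.Pivot3

/-- **PV-GAL for `cond 𝒪 p fl`**, unconditional. -/
theorem stmt_PVGalB_closed : Stmt_PVGalB :=
  stmt_PVGalB_of
    (Fermat.Agent.L.Pivot.H4.stmt_PVGalNB_of_open
      (Fermat.Agent.S55.H48.stmt_TopQ0_of_I4 Fermat.Agent.S55.CFT.GS.H24.stmt_I4)
      Fermat.Agent.S55.CFT.GS.H24.stmt_I2 Fermat.Agent.S55.CFT.GS.H24.stmt_I3
      Fermat.Agent.S55.CFT.GS.H24.stmt_I4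
      (Fermat.Agent.S56.EC.H47T.stmt_EC_top Fermat.Agent.S55.CFT.GS.H24.stmt_I2
        Fermat.Agent.S55.CFT.GS.H24.stmt_I3 Fermat.Agent.S55.CFT.GS.H24.stmt_I4))
    Fermat.Agent.L.Pivot.H72.stmt_PVGalAB

/-- **PV-NU-POINT**, unconditional (from S36). -/
theorem stmt_PVNUPoint_closed : Stmt_PVNUPoint :=
  Fermat.Agent.L.Pivot.H4.stmt_PVNUPoint_of
    (Fermat.Agent.S58.H81.stmt_S36_of_nuCoreTame Fermat.Agent.S36.NU.H10.nuCoreTame)

/-- **The levels of PIVOT3 from PV-GEOM with auxiliary primes.** -/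
theorem pvLevelsBA_closed (hGeom : Stmt_PVGeom2A) : Stmt_PVLevelsBA :=
  pvLevelsBA_of_open stmt_PVGalB_closed stmt_PVNUPoint_closed hGeom stmt_CONDauxD

/-- **PIVOT3, closed chain**: the Hecke–Galois form of PIVOT with auxiliary primes from PV-GEOM
with auxiliary primes. -/
theorem pivotCoreBA_closed (hGeom : Stmt_PVGeom2A) : Stmt_PivotCoreBA :=
  pivotCoreBA_of_gal stmt_PVGalB_closed stmt_PVNUPoint_closed hGeom

/-- **PIVOT3, closed chain**, from the core PV-GEOM (`hU` form). -/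
theorem pivotCoreBA_closed2 (hGeom : Fermat.Agent.L.Pivot.Stmt_PVGeom2) : Stmt_PivotCoreBA :=
  pivotCoreBA_closed (stmt_PVGeom2A_of hGeom)

end Fermat.Agent.L.Pivot3.H11
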