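/-
PIVOT3 (PIVOT at `p = 3`, owner helper75): the INTERFACE of the Galois layer and of the curve
layer with an auxiliary prime in the level.

At `p = 3` the geometric part of PIVOT needs a prime `r ≡ 2 mod 3` IN THE LEVEL (then `Γ₀` has
no elliptic element of order `3`).  The auxiliary primes `r ∈ R` satisfy
`L.Pivot3.H24.AuxAt p ρbar r` (unramified, `p ∤ r - 1`, `tr ρbar(Frob_r)² ≠ (r + 1)²`), so every
lift of `ρbar` is unramified at `r` (AUTO-UNR, helper34/helper80) and the Galois side of PIVOT does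
not see `r`.

* `Stmt_PivotGalAux`     : `L.Pivot.H76.Stmt_PivotGal` with a set `R` of auxiliary primes of the
                           level; the primes of `R` need not be exceptional, and `q ∉ R`;
* `Stmt_PivotWCoreAux3`  : curve form at `p = 3`, level prime to `3`, one auxiliary prime
                           `r ≡ 2 mod 3`, `r ∣ N`, `W` good at `r`, `a_r(W) ≢ 0 mod 3`;
* `Stmt_PivotWCoreSOAux3`: the same with `3 ∥ N`, `3 ∣ Δ`, `E[3]` not peu ramifiée at `3`.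

Wiring (files `H75_Top.lean`, `H75_WAux.lean`, `H75_GAux.lean`):
`Stmt_PivotWCoreAux3 → S38.H37.Stmt_NonExcW → S38.P3.Stmt_PivotWCore3`,
`Stmt_CYC → Stmt_PivotGalAux → Stmt_PivotWCoreAux3`,
`THETAMIN → EXACTb → Stmt_PivotCoreBA (helper3) → Stmt_PivotGalAux`.
-/
import Fermat.Agent.L.Pivot3.H24_AuxDefs
import Fermat.Agent.L.Pivot.H76_Wire2WDefs
import Fermat.Agent.S59.Wiring

set_option autoImplicit false

open Polynomial IsLocalRing CuspForm CongruenceSubgroup ModularFormClass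
open WeierstrassCurve WeierstrassCurve.Affine WeierstrassCurve.Affine.Point
open scoped WeierstrassCurve.Affine

namespace Fermat.Agent.L.Pivot3.H75

open Fermat.Agent.S59 Fermat.Agent.S44 Fermat.Agent.S43 Fermat.Agent.L.Pivot.H76
  Fermat.Agent.L.Pivot3.H24

/-- **PIVOT, Galois form with an eigenform and auxiliary primes `R` in the level.** -/
def Stmt_PivotGalAux : Prop :=
  ∀ (𝒪 : Type) [CommRing 𝒪] [IsDomain 𝒪] [IsDiscreteValuationRing 𝒪]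
    [IsAdicComplete (maximalIdeal 𝒪) 𝒪] [Finite (ResidueField 𝒪)] [CharZero 𝒪]
    (p : ℕ) [Fact p.Prime], p ≠ 2 → (p : 𝒪) ∈ maximalIdeal 𝒪 →
    ∀ (fl : Bool) (ρbar : ResidualGaloisRep (ResidueField 𝒪)),
    ρbar.IsAbsolutelyIrreducible →
    (GaloisRepAdic.ofResidualGaloisRep ρbar).DetIsCyclotomic p →
    (∀ σ : AlgebraicClosure ℚ ≃ₐ[ℚ] AlgebraicClosure ℚ,
      ∃ α β : ResidueField 𝒪, LinearMap.charpoly (ρbar.ρ σ) = (X - C α) * (X - C β)) →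
    TWCond ρbar →
    ∀ (N : ℕ), Squarefree N →
    (fl = true → ¬ p ∣ N) →
    (fl = false → p ∣ N ∧ (GaloisRepAdic.ofResidualGaloisRep ρbar).IsStrictOrdinaryAt p ∧
      ¬ (GaloisRepAdic.ofResidualGaloisRep ρbar).IsFlatAt p) →
    ∀ (R : Finset ℕ), (∀ r ∈ R, AuxAt p ρbar r ∧ r ∣ N) →
    (5 ≤ p ∨ ∃ r : ℕ, r.Prime ∧ r ∣ N ∧ r % 3 = 2) →
    (∀ q' : ℕ, q'.Prime → q' ∣ N → q' ≠ p →
      (GaloisRepAdic.ofResidualGaloisRep ρbar).IsUnipotentOnInertiaAt q') →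
    (∀ q' : ℕ, q'.Prime → q' ∣ N → q' ≠ p → q' ∉ R → ρbar.IsUnramifiedAt q' → p ∣ q' - 1 ∧
      ∃ A : ValuationSubring (AlgebraicClosure ℚ), A.LiesOverPrime q' ∧
        ∀ σ : AlgebraicClosure ℚ ≃ₐ[ℚ] AlgebraicClosure ℚ, A.IsFrobeniusAt σ q' →
          ∃ c : ResidueField 𝒪, ρbar.ρ σ = c • (1 : Module.End (ResidueField 𝒪) ρbar.V)) →
    (∀ q' : ℕ, q'.Prime → q' ∣ N → ∀ e : ℕ, p ^ e ∣ q' - 1 →
      ∃ ζ : 𝒪, IsPrimitiveRoot ζ (p ^ e)) →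
    ∀ (f : CuspForm (Gamma0 N) 2) (𝔪 : Ideal (integralClosure ℤ ℂ)) (a : ℕ → ℤ)
      (Sig : Finset ℕ),
    f.IsNormalizedEigenform → 𝔪.IsMaximal → (p : integralClosure ℤ ℂ) ∈ 𝔪 →
    (∀ ℓ : ℕ, ℓ.Prime → ℓ ∉ Sig → ¬ ℓ ∣ N → ℓ ≠ p →
      ∃ b : integralClosure ℤ ℂ, (b : ℂ) = qCoeff f ℓ ∧
        b - ((a ℓ : ℤ) : integralClosure ℤ ℂ) ∈ 𝔪) →
    (∀ ℓ : ℕ, ℓ.Prime → ℓ ∉ Sig → ℓ ≠ p →
      ∀ A : ValuationSubring (AlgebraicClosure ℚ), A.LiesOverPrime ℓ →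
        ∀ σ : AlgebraicClosure ℚ ≃ₐ[ℚ] AlgebraicClosure ℚ, A.IsFrobeniusAt σ ℓ →
          LinearMap.charpoly (ρbar.ρ σ)
            = X ^ 2 - C (((a ℓ : ℤ) : ResidueField 𝒪)) * X + C ((ℓ : ResidueField 𝒪))) →
    ∀ q : ℕ, q.Prime → q ∣ N → q ≠ p → q ∉ R → ρbar.IsUnramifiedAt q →
    ∃ (g : CuspForm (Gamma0 (N / q)) 2) (𝔪' : Ideal (integralClosure ℤ ℂ)) (S : Finset ℕ),
      g.IsNormalizedEigenform ∧ 𝔪'.IsMaximal ∧ (p : integralClosure ℤ ℂ) ∈ 𝔪' ∧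
      ∀ ℓ : ℕ, ℓ.Prime → ℓ ∉ S → ¬ ℓ ∣ N → ℓ ≠ p →
        ∃ b : integralClosure ℤ ℂ, (b : ℂ) = qCoeff g ℓ ∧
          b - ((a ℓ : ℤ) : integralClosure ℤ ℂ) ∈ 𝔪'

/-- **PIVOT at `p = 3` with an auxiliary prime `r` in the level, curve form, level prime to
`3`.**  Every prime `q' ≠ r` of `N` at which `E[3]` is unramified is exceptional; `r ≡ 2 mod 3`
is a prime of `N` of good reduction with `a_r ≢ 0 mod 3`. -/
def Stmt_PivotWCoreAux3 : Prop :=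
  ∀ (W : WeierstrassCurve ℤ), W.Δ ≠ 0 → W.IsSemistableModel →
    GaloisRepIsIrreducible (K := AlgebraicClosure ℚ) ℚ (W.map (Int.castRingHom ℚ)).toAffine 3 →
    ∀ (N q r : ℕ), Squarefree N → ¬ 3 ∣ N → q.Prime → q ∣ N → UnrW W 3 q →
    r.Prime → r ∣ N → r ≠ q → r % 3 = 2 → W.IsGoodPrimeFor r → UnrW W 3 r →
    ((W.apOfModel r : ℤ) : ZMod 3) ≠ 0 →
    (∀ q' : ℕ, q'.Prime → q' ∣ N → q' ≠ r → UnrW W 3 q' → IsExcW W 3 q') →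
    ∀ (f : CuspForm (CongruenceSubgroup.Gamma0 N) 2) (𝔪 : Ideal (integralClosure ℤ ℂ))
      (S : Finset ℕ),
    f.IsNormalizedEigenform → 𝔪.IsMaximal → ((3 : ℕ) : integralClosure ℤ ℂ) ∈ 𝔪 →
    (∀ ℓ : ℕ, ℓ.Prime → ℓ ∉ S → W.IsGoodPrimeFor ℓ → ¬ ℓ ∣ N → ℓ ≠ 3 →
      ∃ a : integralClosure ℤ ℂ, (a : ℂ) = ModularFormClass.qCoeff f ℓ ∧
        a - ((W.apOfModel ℓ : ℤ) : integralClosure ℤ ℂ) ∈ 𝔪) →
    LowerConcl 3 N q W

/-- **PIVOT at `p = 3` with an auxiliary prime `r` in the level, curve form, `3 ∥ N` and `E[3]`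
très ramifiée at `3`.** -/
def Stmt_PivotWCoreSOAux3 : Prop :=
  ∀ (W : WeierstrassCurve ℤ), W.Δ ≠ 0 → W.IsSemistableModel →
    GaloisRepIsIrreducible (K := AlgebraicClosure ℚ) ℚ (W.map (Int.castRingHom ℚ)).toAffine 3 →
    ∀ (N q r : ℕ), Squarefree N → 3 ∣ N → (3 : ℤ) ∣ W.Δ →
    ¬ (W.map (Int.castRingHom ℚ)).IsPeuRamifieeAt 3 3 →
    q.Prime → q ≠ 3 → q ∣ N → UnrW W 3 q →
    r.Prime → r ∣ N → r ≠ q → r % 3 = 2 → W.IsGoodPrimeFor r → UnrW W 3 r →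
    ((W.apOfModel r : ℤ) : ZMod 3) ≠ 0 →
    (∀ q' : ℕ, q'.Prime → q' ≠ 3 → q' ∣ N → q' ≠ r → UnrW W 3 q' → IsExcW W 3 q') →
    ∀ (f : CuspForm (CongruenceSubgroup.Gamma0 N) 2) (𝔪 : Ideal (integralClosure ℤ ℂ))
      (S : Finset ℕ),
    f.IsNormalizedEigenform → 𝔪.IsMaximal → ((3 : ℕ) : integralClosure ℤ ℂ) ∈ 𝔪 →
    (∀ ℓ : ℕ, ℓ.Prime → ℓ ∉ S → W.IsGoodPrimeFor ℓ → ¬ ℓ ∣ N → ℓ ≠ 3 →
      ∃ a : integralClosure ℤ ℂ, (a : ℂ) = ModularFormClass.qCoeff f ℓ ∧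
        a - ((W.apOfModel ℓ : ℤ) : integralClosure ℤ ℂ) ∈ 𝔪) →
    LowerConcl 3 N q W

end Fermat.Agent.L.Pivot3.H75
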