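/-
PIVOT3 (PIVOT at `p = 3`, owner helper75), leaf G3 (helper13): the Galois form with an eigenform
and auxiliary primes `R` in the level.

`pivotGalAux_of : Stmt_THETAMIN → Stmt_EXACTb → Stmt_PivotCoreBA → H75.Stmt_PivotGalAux`.

Clone of `L.Pivot.H76.pivotGal_of` on helper3's `L/Pivot3/Asm3.lean`: the pivot primes are the
primes `q' ≠ p` of `N` at which `ρbar` is unramified and which are NOT in `R`;
`S := Smin ∪ Pv.set ∪ R`.
-/
import Fermat.Agent.L.Pivot3.Asm3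
import Fermat.Agent.L.Pivot3.H75_Defs
import Fermat.Agent.L.Pivot.H76_Wire2G

set_option autoImplicit false
set_option linter.style.haveILetI false
set_option linter.unusedVariables false

open Polynomial IsLocalRing CuspForm CongruenceSubgroup ModularFormClass

namespace Fermat.Agent.L.Pivot3.H13

open Fermat.Agent.L.Pivot Fermat.Agent.S56 Fermat.Agent.S59 Fermat.Agent.S59.Asm
  Fermat.Agent.L.Pivot.H76 Fermat.Agent.L.Pivot3 Fermat.Agent.L.Pivot3.H24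
  Fermat.Agent.L.Pivot3.H75

set_option maxHeartbeats 1000000 in
set_option synthInstance.maxHeartbeats 400000 in
/-- **Layer G of PIVOT3**: the Galois form with auxiliary primes from the Hecke–Galois form. -/
theorem pivotGalAux_of (hTM : Stmt_THETAMIN) (hEX : Stmt_EXACTb) (hPC : Stmt_PivotCoreBA) :
    Stmt_PivotGalAux := by
  classical
  intro 𝒪 _ _ _ _ _ _ p _ hp2 hp𝒪 fl ρbar habs hdet hsplit hTW N hsq hflT hflF R hR hU hunip
    hexc hζ f 𝔪 a Sig hf h𝔪 hp𝔪 hcong hfrob q hq hqN hqp hqR hunrq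
  have hpp : p.Prime := Fact.out
  have hN0 : N ≠ 0 := hsq.ne_zero
  haveI : NeZero N := ⟨hN0⟩
  -- the residue field has characteristic `p`
  haveI hchar : CharP (ResidueField 𝒪) p := by
    refine (CharP.charP_iff_prime_eq_zero hpp).mpr ?_
    have : residue 𝒪 (p : 𝒪) = 0 := (residue_eq_zero_iff _).mpr hp𝒪
    rwa [map_natCast] at this
  -- THETA-MIN
  obtain ⟨hunrout, hθex⟩ := hTM p hp2 (ResidueField 𝒪) ρbar habs N f 𝔪 hf h𝔪 hp𝔪 a Sig hcong
    hfrob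
  -- the sets
  set Smin : Finset ℕ := insert p (N.primeFactors.filter (fun q' => ¬ ρbar.IsUnramifiedAt q'))
    with hSmin
  set Sg : Finset ℕ :=
    N.primeFactors.filter (fun q' => q' ≠ p ∧ ρbar.IsUnramifiedAt q' ∧ q' ∉ R) with hSg
  have hSgmem : ∀ q', q' ∈ Sg ↔
      q'.Prime ∧ q' ∣ N ∧ q' ≠ p ∧ ρbar.IsUnramifiedAt q' ∧ q' ∉ R := by
    intro q'
    rw [hSg, Finset.mem_filter, Nat.mem_primeFactors]
    constructor
    · rintro ⟨⟨h1, h2, -⟩, h3, h4, h5⟩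
      exact ⟨h1, h2, h3, h4, h5⟩
    · rintro ⟨h1, h2, h3, h4, h5⟩
      exact ⟨⟨h1, h2, hN0⟩, h3, h4, h5⟩
  have hSminmem : ∀ q', q' ∈ Smin ↔ q' = p ∨ (q'.Prime ∧ q' ∣ N ∧ ¬ ρbar.IsUnramifiedAt q') := by
    intro q'
    rw [hSmin, Finset.mem_insert, Finset.mem_filter, Nat.mem_primeFactors]
    constructor
    · rintro (h | ⟨⟨h1, h2, -⟩, h3⟩)
      · exact Or.inl h
      · exact Or.inr ⟨h1, h2, h3⟩
    · rintro (h | ⟨h1, h2, h3⟩)
      · exact Or.inl h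
      · exact Or.inr ⟨⟨h1, h2, hN0⟩, h3⟩
  -- the pivot primes
  obtain ⟨Pv, hPvset, hPvmem, hPvsurj, hPvC⟩ := exists_pivotPrimes_finset Sg
    (fun q' hq' => ((hSgmem q').mp hq').1)
    (fun q' A σ => ∃ c : ResidueField 𝒪,
      ρbar.ρ σ = c • (1 : Module.End (ResidueField 𝒪) ρbar.V))
    (fun q' hq' => by
      obtain ⟨h1, h2, h3, h4, h5⟩ := (hSgmem q').mp hq'
      exact (hexc q' h1 h2 h3 h5 h4).2)
  set S : Finset ℕ := Smin ∪ Pv.set ∪ R with hS
  have hpSmin : p ∈ Smin := (hSminmem p).mpr (Or.inl rfl)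
  have hpS : p ∈ S := Finset.mem_union_left _ (Finset.mem_union_left _ hpSmin)
  have hNS : ∀ q' : ℕ, q'.Prime → q' ∣ N → q' ∈ S := by
    intro q' hq' hq'N
    by_cases hq'p : q' = p
    · rw [hq'p]; exact hpS
    by_cases hu : ρbar.IsUnramifiedAt q'
    · by_cases hq'R : q' ∈ R
      · exact Finset.mem_union_right _ hq'R
      · refine Finset.mem_union_left _ (Finset.mem_union_right _ ?_)
        rw [hPvset]
        exact (hSgmem q').mpr ⟨hq', hq'N, hq'p, hu, hq'R⟩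
    · exact Finset.mem_union_left _ (Finset.mem_union_left _
        ((hSminmem q').mpr (Or.inr ⟨hq', hq'N, hu⟩)))
  have hSprime : ∀ q' ∈ S, q'.Prime := by
    intro q' hq'
    rcases Finset.mem_union.mp hq' with h | h
    · rcases Finset.mem_union.mp h with h | h
      · rcases (hSminmem q').mp h with h1 | h1
        · rw [h1]; exact hpp
        · exact h1.1
      · rw [hPvset] at h
        exact ((hSgmem q').mp h).1
    · exact (hR q' h).1.1
  -- `θ`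
  obtain ⟨θ, hθ⟩ := hθex S hpS hNS
  -- the exponents
  set eP : Fin Sg.card → ℕ := fun j => padicValNat p (Pv.q j - 1) with heP
  have hq1 : ∀ j, Pv.q j - 1 ≠ 0 := by
    intro j
    have := (Pv.q_prime j).two_le
    omega
  have hePspec : ∀ j, p ^ eP j ∣ Pv.q j - 1 ∧ ¬ p ^ (eP j + 1) ∣ Pv.q j - 1 := by
    intro j
    exact ⟨pow_padicValNat_dvd, pow_succ_padicValNat_not_dvd (hq1 j)⟩
  -- the standing hypotheses
  have hmin : ∀ q' : ℕ, q'.Prime → q' ≠ p → (q' ∈ Smin ↔ ¬ ρbar.IsUnramifiedAt q') := by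
    intro q' hq' hq'p
    rw [hSminmem]
    constructor
    · rintro (h | h)
      · exact absurd h hq'p
      · exact h.2.2
    · intro hram
      refine Or.inr ⟨hq', ?_, hram⟩
      by_contra hq'N
      exact hram (hunrout q' hq' hq'N hq'p)
  have hyp : Hyp 𝒪 p ρbar S Smin :=
    { hp2 := hp2
      hp𝒪 := hp𝒪
      habs := habs
      hdet := hdet
      hsplit := hsplit
      hTW := hTW
      hpSmin := hpSmin
      hSmin := fun x hx => Finset.mem_union_left _ (Finset.mem_union_left _ hx)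
      hS := hSprime
      hmin := hmin }
  have hqSg : q ∈ Sg := (hSgmem q).mpr ⟨hq, hqN, hqp, hunrq, hqR⟩
  have hPV : PVHypA p ρbar N S Smin Pv eP :=
    { hyp := hyp
      hU := hU
      hk := Finset.card_pos.mpr ⟨q, hqSg⟩
      hsq := hsq
      hNS := hNS
      hex := fun j => by
        obtain ⟨h1, h2, h3, h4, h5⟩ := (hSgmem (Pv.q j)).mp (hPvmem j)
        exact ⟨(hexc (Pv.q j) h1 h2 h3 h5 h4).1, h3, h4, hPvC j⟩
      hPvN := fun j => ((hSgmem (Pv.q j)).mp (hPvmem j)).2.1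
      hR := ⟨R, rfl, hR⟩
      hSminN := fun q' hq' hq'p => by
        rcases (hSminmem q').mp hq' with h | h
        · exact absurd h hq'p
        · exact h.2.1
      heP := hePspec }
  -- unramified outside `Smin`
  have hunrS : ∀ q' : ℕ, q'.Prime → q' ∉ Smin ∪ ∅ →
      (GaloisRepAdic.ofResidualGaloisRep ρbar).IsUnramifiedAt q' := by
    intro q' hq' hq'S
    have hq'S' : q' ∉ Smin := fun h => hq'S (Finset.mem_union_left _ h)
    have hq'p : q' ≠ p := fun h => hq'S' (h ▸ hpSmin)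
    by_contra hram
    exact hq'S' ((hmin q' hq' hq'p).mpr hram)
  have hunipS : ∀ q' ∈ Smin, q'.Prime → q' ≠ p →
      (GaloisRepAdic.ofResidualGaloisRep ρbar).IsUnipotentOnInertiaAt q' := by
    intro q' hq' hq'pr hq'p
    rcases (hSminmem q').mp hq' with h | h
    · exact absurd h hq'p
    · exact hunip q' hq'pr h.2.1 hq'p
  -- the condition at `p`
  have hcond : cond 𝒪 p fl Smin ∅ (GaloisRepAdic.ofResidualGaloisRep ρbar) := by
    cases fl with
    | true =>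
      have hflat := hEX 𝒪 p hp2 hp𝒪 ρbar habs N S hpS hNS (hflT rfl) θ hθ
      exact ⟨⟨hdet, hflat, hunrS⟩, hunipS⟩
    | false =>
      exact ⟨⟨hdet, (hflF rfl).2.1, hunrS⟩, hunipS⟩
  have hnfl : fl = false → ¬ (GaloisRepAdic.ofResidualGaloisRep ρbar).IsFlatAt p :=
    fun h => (hflF h).2.2
  have hζ' : ∀ j, ∃ ζ : 𝒪, IsPrimitiveRoot ζ (p ^ eP j) := fun j =>
    hζ (Pv.q j) (Pv.q_prime j) ((hSgmem (Pv.q j)).mp (hPvmem j)).2.1 (eP j) (hePspec j).1
  -- the index of `q`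
  obtain ⟨j, hj⟩ := hPvsurj q hqSg
  subst hj
  have hNq0 : N / Pv.q j ≠ 0 := by
    intro h0
    have h1 : N / Pv.q j * Pv.q j = N := Nat.div_mul_cancel hqN
    rw [h0, zero_mul] at h1
    exact hN0 h1.symm
  haveI : NeZero (N / Pv.q j) := ⟨hNq0⟩
  obtain ⟨θ', hθ'⟩ := hPC 𝒪 p fl ρbar S Smin hcond hnfl N hflT (fun h => (hflF h).1) θ hθ
    Sg.card Pv eP hPV hζ' j
  -- `θ (T_ℓ) = a ℓ`
  have hθa : ∀ (ℓ : ℕ) (hℓ : ℓ.Prime) (hℓN : ¬ ℓ ∣ N) (hℓS : ℓ ∉ (↑S : Set ℕ)), ℓ ∉ Sig →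
      θ (heckeAlgebra.T hℓ hℓN hℓS) = ((a ℓ : ℤ) : ResidueField 𝒪) := by
    intro ℓ hℓ hℓN hℓS hℓSig
    have hℓp : ℓ ≠ p := fun h => hℓS (Finset.mem_coe.mpr (h ▸ hpS))
    obtain ⟨A, σ, hA, hσ⟩ := Fermat.Agent.Lib.FrobExists.exists_place_and_frobenius ℓ hℓ
    have h1 := hθ ℓ hℓ hℓN hℓS A hA σ hσ
    have h2 := hfrob ℓ hℓ hℓSig hℓp A hA σ hσ
    exact eq_of_quadratic_eq (h1.symm.trans h2)
  -- lifting
  have hdiv : N / Pv.q j ∣ N := Nat.div_dvd_of_dvd hqN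
  obtain ⟨g, 𝔪', hg, h𝔪', hp𝔪', hgc⟩ := exists_eigenform_of_residual_point (N / Pv.q j) hpp
    (↑S : Set ℕ) θ' a (↑Sig : Set ℕ) (fun ℓ hℓ hℓM hℓS hℓSig => by
      have hℓN : ¬ ℓ ∣ N := fun h => hℓS (Finset.mem_coe.mpr (hNS ℓ hℓ h))
      rw [hθ' ℓ hℓ hℓN hℓS hℓM]
      exact hθa ℓ hℓ hℓN hℓS (fun h => hℓSig (Finset.mem_coe.mpr h)))
  refine ⟨g, 𝔪', S ∪ Sig, hg, h𝔪', hp𝔪', fun ℓ hℓ hℓS hℓN hℓp => ?_⟩
  have h1 : ℓ ∉ (↑S : Set ℕ) := fun h => hℓS (Finset.mem_union_left _ (Finset.mem_coe.mp h))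
  have h2 : ℓ ∉ (↑Sig : Set ℕ) := fun h => hℓS (Finset.mem_union_right _ (Finset.mem_coe.mp h))
  exact hgc ℓ hℓ (fun h => hℓN (h.trans hdiv)) h1 h2

end Fermat.Agent.L.Pivot3.H13
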