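/-
PIVOT3 (PIVOT at `p = 3`, owner helper75): how to get `AuxAt` (helper24).

* `auxAt_of_charpoly` : `ρbar` unramified at `r`, `r ≠ p`, `p ∤ r - 1`, and at every Frobenius at
  `r` the characteristic polynomial is `X² - a X + r` with `a² ≠ (r + 1)²`  ⟹  `AuxAt p ρbar r`;
* `auxAt_of_charpoly_neg_one` : the case `p ∣ r + 1` (`r ≡ 2 mod 3` for `p = 3`), `p` odd: it is
  enough that `a ≠ 0`;
* `auxAt_of_charpoly_int` : the same with `a = (t : k)`, `t : ℤ`, `¬ (p : ℤ) ∣ t` (the shape of the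
  strong witness `P3.StrongAt`: `((t r : ℤ) : ZMod 3) ≠ 0`).
-/
import Fermat.Agent.L.Pivot3.H24_AuxDefs
import Fermat.Agent.R.H91_Lucas

set_option autoImplicit false
set_option linter.unusedSectionVars false
set_option linter.style.haveILetI false

open Polynomial

namespace Fermat.Agent.L.Pivot3.H24

variable {k : Type} [Field k]

/-- Trace and determinant from the characteristic polynomial in rank 2. -/
theorem trace_det_of_charpoly_aux {V : Type} [AddCommGroup V] [Module k V]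
    [Module.Finite k V] (hV : Module.finrank k V = 2) (f : Module.End k V)
    {t d : k} (h : f.charpoly = X ^ 2 - C t * X + C d) :
    LinearMap.trace k V f = t ∧ LinearMap.det f = d := by
  rw [Fermat.Agent.R.H91.charpoly_eq_of_finrank_two hV f] at h
  have h0 := congrArg (fun q : k[X] => q.coeff 0) h
  have h1 := congrArg (fun q : k[X] => q.coeff 1) h
  simp only [coeff_add, coeff_sub, coeff_X_pow, coeff_C_mul, coeff_X_zero, coeff_X_one,
    coeff_C_zero, coeff_C_succ, mul_zero, mul_one, sub_zero, add_zero] at h0 h1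
  norm_num at h0 h1
  exact ⟨h1, h0⟩

/-- **`AuxAt` from the characteristic polynomials of the Frobenius elements.** -/
theorem auxAt_of_charpoly {p r : ℕ} (ρbar : ResidualGaloisRep k) (hr : r.Prime) (hrp : r ≠ p)
    (hpr : ¬ p ∣ r - 1) (hunr : ρbar.IsUnramifiedAt r) (a : k)
    (ha : a ^ 2 ≠ ((r : k) + 1) ^ 2)
    (hfrob : ∀ P : ValuationSubring (AlgebraicClosure ℚ), P.LiesOverPrime r →
      ∀ σ : AlgebraicClosure ℚ ≃ₐ[ℚ] AlgebraicClosure ℚ, P.IsFrobeniusAt σ r →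
        LinearMap.charpoly (ρbar.ρ σ) = X ^ 2 - C a * X + C (r : k)) :
    AuxAt p ρbar r := by
  refine ⟨hr, hrp, hpr, hunr, fun P hP σ hσ => ?_⟩
  obtain ⟨h1, h2⟩ := trace_det_of_charpoly_aux ρbar.finrank_eq (ρbar.ρ σ) (hfrob P hP σ hσ)
  exact ⟨h2, by rw [h1]; exact ha⟩

/-- In characteristic `p`, `p ∣ r + 1` gives `(r : k) + 1 = 0`. -/
theorem cast_add_one_eq_zero {p r : ℕ} (hpk : (p : k) = 0) (h : p ∣ r + 1) :
    (r : k) + 1 = 0 := by
  obtain ⟨c, hc⟩ := h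
  have h1 : ((r + 1 : ℕ) : k) = 0 := by
    rw [hc, Nat.cast_mul, hpk, zero_mul]
  rwa [Nat.cast_add, Nat.cast_one] at h1

/-- `p ∣ r + 1`, `p` odd ⟹ `p ∤ r - 1`. -/
theorem not_dvd_sub_one_of_dvd_add_one {p r : ℕ} (hp : p.Prime) (hp2 : p ≠ 2) (hr : r.Prime)
    (h : p ∣ r + 1) : ¬ p ∣ r - 1 := by
  intro h'
  have h1 : p ∣ (r + 1) - (r - 1) := Nat.dvd_sub h h'
  have h2 : (r + 1) - (r - 1) = 2 := by
    have := hr.two_le
    omega
  rw [h2] at h1
  exact hp2 ((Nat.prime_dvd_prime_iff_eq hp Nat.prime_two).mp h1)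

/-- **`AuxAt` at a prime `r ≡ -1 mod p`**: it is enough that the trace of Frobenius is not `0`. -/
theorem auxAt_of_charpoly_neg_one {p r : ℕ} (hp : p.Prime) (hp2 : p ≠ 2) (hpk : (p : k) = 0)
    (ρbar : ResidualGaloisRep k) (hr : r.Prime) (hrp : r ≠ p) (hr1 : p ∣ r + 1)
    (hunr : ρbar.IsUnramifiedAt r) (a : k) (ha : a ≠ 0)
    (hfrob : ∀ P : ValuationSubring (AlgebraicClosure ℚ), P.LiesOverPrime r →
      ∀ σ : AlgebraicClosure ℚ ≃ₐ[ℚ] AlgebraicClosure ℚ, P.IsFrobeniusAt σ r →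
        LinearMap.charpoly (ρbar.ρ σ) = X ^ 2 - C a * X + C (r : k)) :
    AuxAt p ρbar r := by
  refine auxAt_of_charpoly ρbar hr hrp (not_dvd_sub_one_of_dvd_add_one hp hp2 hr hr1) hunr a ?_
    hfrob
  rw [cast_add_one_eq_zero hpk hr1, zero_pow two_ne_zero]
  exact pow_ne_zero 2 ha

/-- In characteristic `p`, an integer not divisible by `p` is not `0`. -/
theorem intCast_ne_zero_of_not_dvd {p : ℕ} (hp : p.Prime) (hpk : (p : k) = 0) {t : ℤ}
    (ht : ¬ (p : ℤ) ∣ t) : ((t : ℤ) : k) ≠ 0 := by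
  haveI : Fact p.Prime := ⟨hp⟩
  haveI : CharP k p := (CharP.charP_iff_prime_eq_zero hp).mpr hpk
  intro h
  exact ht ((CharP.intCast_eq_zero_iff k p t).mp h)

/-- **`AuxAt` at a prime `r ≡ -1 mod p`**, integral trace `t` with `p ∤ t`. -/
theorem auxAt_of_charpoly_int {p r : ℕ} (hp : p.Prime) (hp2 : p ≠ 2) (hpk : (p : k) = 0)
    (ρbar : ResidualGaloisRep k) (hr : r.Prime) (hrp : r ≠ p) (hr1 : p ∣ r + 1)
    (hunr : ρbar.IsUnramifiedAt r) (t : ℤ) (ht : ¬ (p : ℤ) ∣ t)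
    (hfrob : ∀ P : ValuationSubring (AlgebraicClosure ℚ), P.LiesOverPrime r →
      ∀ σ : AlgebraicClosure ℚ ≃ₐ[ℚ] AlgebraicClosure ℚ, P.IsFrobeniusAt σ r →
        LinearMap.charpoly (ρbar.ρ σ) = X ^ 2 - C ((t : ℤ) : k) * X + C (r : k)) :
    AuxAt p ρbar r :=
  auxAt_of_charpoly_neg_one hp hp2 hpk ρbar hr hrp hr1 hunr _
    (intCast_ne_zero_of_not_dvd hp hpk ht) hfrob

end Fermat.Agent.L.Pivot3.H24
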