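/-
PIVOT3 (owner helper75), leaf AUTO-UNR, matrix core + Galois wiring (helper34).

At an auxiliary prime `r` (`r ≠ p`, `r ≢ 1 mod p`, residual Frobenius `Φ̄` with
`(1 + r)² det Φ̄ ≠ r (tr Φ̄)²`, i.e. the ratio of its eigenvalues is not `r^{±1}`) every lift of an
unramified residual representation to a noetherian local ring is UNRAMIFIED at `r`.

* `adj_identity` : the explicit inverse of `X ↦ Φ X - q X Φ` on `M₂(A)`:
  `(1 - q) D ((1 + q)² D - q T²) • X = G(C)`, `C = Φ X - q X Φ`, `T = tr Φ`, `D = det Φ`.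
* `matTriv`      : `Y ≡ 1 mod I`, `Φ Y ≡ Y ^ q Φ mod I ^ N`, the scalar above a unit
  ⟹ `Y ≡ 1 mod I ^ N`.
* `autoUnr_at`   : the Galois statement at one place `P ∣ q` (hypotheses on `ρ.ρ φ`).
* `autoUnr_main` : the same with hypotheses on the residual representation `ρ.residual`.
* `isUnramifiedAt_of_residual` : global form, conclusion `ρ.IsUnramifiedAt q`.
-/
import Fermat.Agent.S59.TWGal.G1
import Fermat.Agent.S59.TWGal.H01_MatUnip
import Fermat.Agent.S59.TWGal.H59_Tame
import Fermat.Agent.S59.TWGal.H4_Res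
import Fermat.Agent.Lib.FrobExists

set_option autoImplicit false

open Polynomial IsLocalRing

namespace Fermat.Agent.L.Pivot3.H34

open Fermat.Agent.S59.TWGal Fermat.Agent.S59.TWGal.H01

/-! ### The matrix core -/

section matrix

variable {A : Type} [CommRing A]

/-- The scalar by which `X ↦ Φ X - q X Φ` is invertible on `M₂(A)`. -/
def adScalar (q : A) (Φ : Matrix (Fin 2) (Fin 2) A) : A :=
  (1 - q) * Φ.det * ((1 + q) ^ 2 * Φ.det - q * Φ.trace ^ 2)

/-- First step of the inverse: `C ↦ T C - Φ C - q C Φ`. -/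
def adStep (q : A) (Φ C : Matrix (Fin 2) (Fin 2) A) : Matrix (Fin 2) (Fin 2) A :=
  Φ.trace • C - Φ * C - q • (C * Φ)

/-- The inverse of `X ↦ Φ X - q X Φ` up to the scalar `adScalar q Φ`. -/
def adInv (q : A) (Φ C : Matrix (Fin 2) (Fin 2) A) : Matrix (Fin 2) (Fin 2) A :=
  (Φ.det * (1 + q) - q * Φ.trace ^ 2) • adStep q Φ C + (q * Φ.trace) • (adStep q Φ C * Φ)

/-- **The explicit inverse of `Ad`.** -/
theorem adj_identity (q : A) (Φ X : Matrix (Fin 2) (Fin 2) A) :
    adScalar q Φ • X = adInv q Φ (Φ * X - q • (X * Φ)) := by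
  ext i j
  fin_cases i <;> fin_cases j <;>
  · simp only [adScalar, adInv, adStep, Matrix.det_fin_two, Matrix.trace_fin_two,
      Matrix.smul_apply, Matrix.add_apply, Matrix.sub_apply, Matrix.mul_apply, Fin.sum_univ_two,
      smul_eq_mul, Fin.zero_eta, Fin.mk_one, Fin.isValue]
    ring

theorem EntriesIn.smul' {J : Ideal A} {M : Matrix (Fin 2) (Fin 2) A} (h : EntriesIn J M)
    (c : A) : EntriesIn J (c • M) := fun i j => by
  rw [Matrix.smul_apply, smul_eq_mul]
  exact J.mul_mem_left _ (h i j)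

theorem entriesIn_adInv {J : Ideal A} (q : A) (Φ : Matrix (Fin 2) (Fin 2) A)
    {C : Matrix (Fin 2) (Fin 2) A} (h : EntriesIn J C) : EntriesIn J (adInv q Φ C) := by
  have h1 : EntriesIn J (adStep q Φ C) :=
    ((EntriesIn.smul' h _).sub (h.mul_left Φ)).sub (EntriesIn.smul' (h.mul_right Φ) _)
  exact (EntriesIn.smul' h1 _).add (EntriesIn.smul' (h1.mul_right Φ) _)

/-- **MatTriv**: the tame relation `Φ Y Φ⁻¹ = Y ^ q` forces `Y ≡ 1 mod I` to be trivial, when
`Ad Φ - q` is invertible. -/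
theorem matTriv (I : Ideal A) (N q : ℕ) (Φ : Matrix (Fin 2) (Fin 2) A)
    (hu : IsUnit (adScalar (q : A) Φ)) (Y : Matrix (Fin 2) (Fin 2) A)
    (hY : ∀ i j, (Y - 1) i j ∈ I) (hrel : ∀ i j, (Φ * Y - Y ^ q * Φ) i j ∈ I ^ N) :
    ∀ i j, (Y - 1) i j ∈ I ^ N := by
  have hY' : EntriesIn I (Y - 1) := hY
  have hrel' : EntriesIn (I ^ N) (Φ * Y - Y ^ q * Φ) := hrel
  have key : ∀ k : ℕ, k ≤ N → EntriesIn (I ^ k) (Y - 1) := by
    intro k
    induction k with
    | zero =>
      intro _ i j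
      rw [pow_zero, Ideal.one_eq_top]
      exact Submodule.mem_top
    | succ k ih =>
      intro hk
      have hX := ih (by omega)
      rcases Nat.eq_zero_or_pos k with rfl | hkpos
      · rw [zero_add, pow_one]
        exact hY'
      -- `Y ^ q = 1 + q X + E`, `E ∈ I ^ (k + 1)`
      have h1 : EntriesIn (I ^ (k + 1)) (Y ^ q - 1 - q • (Y - 1)) := by
        refine (entriesIn_pow_sub hX q).mono ?_
        rw [← pow_add]
        exact Ideal.pow_le_pow_right (by omega)
      have h2 : EntriesIn (I ^ (k + 1)) (Φ * Y - Y ^ q * Φ) :=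
        hrel'.mono (Ideal.pow_le_pow_right hk)
      -- `C = Φ X - q X Φ ∈ I ^ (k + 1)`
      have h3 : EntriesIn (I ^ (k + 1)) (Φ * (Y - 1) - (q : A) • ((Y - 1) * Φ)) := by
        have e : Φ * (Y - 1) - (q : A) • ((Y - 1) * Φ)
            = (Φ * Y - Y ^ q * Φ) + (Y ^ q - 1 - q • (Y - 1)) * Φ := by
          have e1 : (Y ^ q - 1 - q • (Y - 1)) * Φ
              = Y ^ q * Φ - Φ - (q : A) • ((Y - 1) * Φ) := by
            rw [← Nat.cast_smul_eq_nsmul A q (Y - 1), sub_mul, sub_mul, one_mul, smul_mul_assoc]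
          rw [e1, mul_sub, mul_one]
          abel
        rw [e]
        exact h2.add (h1.mul_right Φ)
      have h4 := entriesIn_adInv (q : A) Φ h3
      rw [← adj_identity] at h4
      intro i j
      have h5 := h4 i j
      rw [Matrix.smul_apply, smul_eq_mul] at h5
      obtain ⟨u, hu'⟩ := hu
      have h6 : (Y - 1) i j = (↑u⁻¹ : A) * (adScalar (q : A) Φ * (Y - 1) i j) := by
        rw [← mul_assoc, ← hu', Units.inv_mul, one_mul]
      rw [h6]
      exact Ideal.mul_mem_left _ _ h5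
  exact key N le_rfl

end matrix

end Fermat.Agent.L.Pivot3.H34
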