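/-
PIVOT3 (owner helper75), leaf AUTO-UNR: interface between the inertia wiring (helper34,
`H34_AutoUnr.lean`: `stmt_AutoUnrMain`) and the datum form (helper80).
-/
import Fermat.Agent.S59.TWGal.Defs

set_option autoImplicit false

open Polynomial IsLocalRing

namespace Fermat.Agent.L.Pivot3.H34

open Fermat.Agent.S59.TWGal

/-- **AUTO-UNR at one place.**  `A` noetherian local with `p ∈ 𝔪`, `ρ` a representation over `A`,
`q ≠ p` a prime, `P ∣ q` a place at which the residual representation is unramified, `φ` a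
Frobenius at `P` such that `(1 - q) d ((1 + q)² d - q t²) ≠ 0` in the residue field, where
`d = det ρ̄(φ)`, `t = tr ρ̄(φ)`.  Then `ρ` is unramified at `P`. -/
def Stmt_AutoUnrMain : Prop :=
  ∀ (A : Type) [CommRing A] [IsLocalRing A] [IsNoetherianRing A]
    (p : ℕ), p.Prime → (p : A) ∈ maximalIdeal A →
  ∀ (ρ : GaloisRepAdic A) (q : ℕ), q.Prime → q ≠ p →
  ∀ (P : ValuationSubring Qb), P.LiesOverPrime q →
    (∀ σ ∈ P.inertiaSubgroupIn ℚ, ρ.residual.ρ σ = 1) →
  ∀ (φ : GQ), P.IsFrobeniusAt φ q →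
    (1 - (q : ResidueField A)) * LinearMap.det (ρ.residual.ρ φ) *
      ((1 + (q : ResidueField A)) ^ 2 * LinearMap.det (ρ.residual.ρ φ) -
        (q : ResidueField A) *
          LinearMap.trace (ResidueField A) ρ.residual.V (ρ.residual.ρ φ) ^ 2) ≠ 0 →
    ∀ σ ∈ P.inertiaSubgroupIn ℚ, ρ.ρ σ = 1

end Fermat.Agent.L.Pivot3.H34
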