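/-
PIVOT3 (owner helper75), leaf AUTO-UNR, the inertia wiring (helper34):
`stmt_AutoUnrMain : Stmt_AutoUnrMain`.

Clone of the assembly `TWGal.stmt_G1_of` with `matTriv` in place of `MatDiag`: modulo `𝔪 ^ N` the
representation factors through a finite extension `L`; the image of inertia in `Gal(L/ℚ)` is
generated by `τ₀` modulo elements of `q`-power order (trivial in `1 + M₂(𝔪)` by `MatUnip`), and
`φ τ₀ φ⁻¹ = τ₀ ^ q`; `matTriv` gives `ρ(τ₀) ≡ 1 mod 𝔪 ^ N`; Krull.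
-/
import Fermat.Agent.L.Pivot3.H34_AutoUnrCore
import Fermat.Agent.L.Pivot3.H34_AutoUnrDefs

set_option autoImplicit false

open Polynomial IsLocalRing

namespace Fermat.Agent.L.Pivot3.H34

open Fermat.Agent.S59.TWGal

/-- **AUTO-UNR at one place**, hypotheses on the matrix of `ρ(φ)` in a basis. -/
theorem autoUnr_at (A : Type) [CommRing A] [IsLocalRing A] [IsNoetherianRing A]
    (p : ℕ) (hp : p.Prime) (hpA : (p : A) ∈ maximalIdeal A)
    (ρ : GaloisRepAdic A) (q : ℕ) (hq : q.Prime) (hqp : q ≠ p)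
    (P : ValuationSubring Qb) (hP : P.LiesOverPrime q)
    (hI : ∀ σ ∈ P.inertiaSubgroupIn ℚ, ∀ v : ρ.V,
      ρ.ρ σ v - v ∈ maximalIdeal A • (⊤ : Submodule A ρ.V))
    (φ : GQ) (hφ : P.IsFrobeniusAt φ q)
    (b : Module.Basis (Fin 2) A ρ.V)
    (hu : IsUnit (adScalar (q : A) (mat b (ρ.ρ φ)))) :
    ∀ σ ∈ P.inertiaSubgroupIn ℚ, ρ.ρ σ = 1 := by
  have hcop : ∀ e : ℕ, (q ^ e).Coprime p :=
    fun e => Nat.Coprime.pow_left e ((Nat.coprime_primes hq hp).2 hqp)
  -- the matrix representation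
  let μ : GQ →* Matrix (Fin 2) (Fin 2) A :=
    ((LinearMap.toMatrixAlgEquiv b : Module.End A ρ.V ≃ₐ[A] _) : Module.End A ρ.V →* _).comp ρ.ρ
  have hμ : ∀ g, μ g = mat b (ρ.ρ g) := fun _ => rfl
  -- the key claim: `μ σ` is trivial modulo `𝔪 ^ N` for `σ ∈ I_P`
  have key : ∀ N : ℕ, ∀ σ ∈ P.inertiaSubgroupIn ℚ, red (maximalIdeal A ^ N) (μ σ) = 1 := by
    intro N σ hσ
    obtain ⟨L, hL, hcont⟩ := ρ.isAdicContinuous N
    -- elements fixing `L` are trivial modulo `𝔪 ^ N`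
    have hfix : ∀ u ∈ L.fixingSubgroup, red (maximalIdeal A ^ N) (μ u) = 1 := by
      intro u hu
      rw [red_eq_one_iff]
      exact mat_sub_one_mem b _ _
        (hcont u (fun x hx => (IntermediateField.mem_fixingSubgroup_iff L u).1 hu x hx))
    obtain ⟨τ₀, hτ₀, hcyc, ⟨e₀, hconj⟩, -⟩ := H59.stmt_TAME q hq P hP φ hφ L hL
    -- inertia elements of `q`-power order modulo `G_L` are trivial modulo `𝔪 ^ N`
    have hwild : ∀ w ∈ P.inertiaSubgroupIn ℚ, ∀ e : ℕ, w ^ (q ^ e) ∈ L.fixingSubgroup →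
        red (maximalIdeal A ^ N) (μ w) = 1 := by
      intro w hw e hwe
      rw [red_eq_one_iff]
      refine H01.stmt_MatUnip A (maximalIdeal A) p (q ^ e) N hpA (hcop e) (μ w) ?_ ?_
      · exact mat_sub_one_mem b _ _ (hI w hw)
      · rw [← map_pow, ← red_eq_one_iff]
        exact hfix _ hwe
    have hφD : φ ∈ P.decompositionSubgroup ℚ := hφ.mem_decompositionSubgroup
    have hnormal : ∀ {τ σ : GQ}, τ ∈ P.decompositionSubgroup ℚ → σ ∈ P.inertiaSubgroupIn ℚ →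
        τ * σ * τ⁻¹ ∈ P.inertiaSubgroupIn ℚ := by
      intro τ σ hτ hσ
      obtain ⟨s, hs, rfl⟩ := hσ
      refine ⟨⟨τ, hτ⟩ * s * ⟨τ, hτ⟩⁻¹, ?_, rfl⟩
      have hn : (P.inertiaSubgroup ℚ).Normal := by
        unfold ValuationSubring.inertiaSubgroup
        infer_instance
      exact hn.conj_mem s hs ⟨τ, hτ⟩
    -- the tame relation modulo `𝔪 ^ N`
    have hw₀ : (τ₀ ^ q)⁻¹ * (φ * τ₀ * φ⁻¹) ∈ P.inertiaSubgroupIn ℚ :=
      mul_mem (inv_mem (pow_mem hτ₀ q)) (hnormal hφD hτ₀)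
    have hrel : red (maximalIdeal A ^ N) (μ φ) * red (maximalIdeal A ^ N) (μ τ₀) =
        red (maximalIdeal A ^ N) (μ τ₀) ^ q * red (maximalIdeal A ^ N) (μ φ) := by
      have h1 := hwild _ hw₀ e₀ hconj
      have h2 : φ * τ₀ = τ₀ ^ q * ((τ₀ ^ q)⁻¹ * (φ * τ₀ * φ⁻¹)) * φ := by group
      calc red (maximalIdeal A ^ N) (μ φ) * red (maximalIdeal A ^ N) (μ τ₀)
          = red (maximalIdeal A ^ N) (μ (φ * τ₀)) := by rw [map_mul, map_mul]
        _ = red (maximalIdeal A ^ N) (μ (τ₀ ^ q * ((τ₀ ^ q)⁻¹ * (φ * τ₀ * φ⁻¹)) * φ)) := by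
            rw [← h2]
        _ = red (maximalIdeal A ^ N) (μ τ₀) ^ q * red (maximalIdeal A ^ N) (μ φ) := by
            rw [map_mul, map_mul, map_mul, map_mul, h1, mul_one, map_pow, map_pow]
    -- `μ τ₀` is trivial modulo `𝔪 ^ N`
    have hτ : red (maximalIdeal A ^ N) (μ τ₀) = 1 := by
      rw [red_eq_one_iff]
      refine matTriv (maximalIdeal A) N q (μ φ) hu (μ τ₀)
        (mat_sub_one_mem b _ _ (hI τ₀ hτ₀)) ?_
      intro i j
      rw [← red_apply_eq_zero_iff, map_sub, map_mul, map_mul, map_pow, hrel, sub_self,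
        Matrix.zero_apply]
    obtain ⟨j, e, hje⟩ := hcyc σ hσ
    have h1 := hwild _ (mul_mem (inv_mem (pow_mem hτ₀ j)) hσ) e hje
    have h2 : σ = τ₀ ^ j * ((τ₀ ^ j)⁻¹ * σ) := by group
    rw [h2, map_mul, map_mul, h1, mul_one, map_pow, map_pow, hτ, one_pow]
  -- Krull
  have hkrull : ∀ x : A, (∀ N : ℕ, x ∈ maximalIdeal A ^ N) → x = 0 := by
    intro x hx
    have h := Ideal.iInf_pow_eq_bot_of_isLocalRing (maximalIdeal A)
      (maximalIdeal.isMaximal A).ne_top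
    have hmem : x ∈ ⨅ i : ℕ, maximalIdeal A ^ i := by
      rw [Ideal.mem_iInf]; exact hx
    rw [h] at hmem
    exact (Submodule.mem_bot A).1 hmem
  intro σ hσ
  have h1 : μ σ = 1 := by
    ext i j
    have h2 : (μ σ - 1) i j = 0 :=
      hkrull _ fun N => (red_eq_one_iff _ _).1 (key N σ hσ) i j
    rw [Matrix.sub_apply, sub_eq_zero] at h2
    exact h2
  apply (LinearMap.toMatrixAlgEquiv b).injective
  rw [map_one]
  exact h1

/-- The scalar `adScalar` of the matrix of an endomorphism, in terms of determinant and trace. -/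
theorem adScalar_mat {A : Type} [CommRing A] {V : Type} [AddCommGroup V] [Module A V]
    (b : Module.Basis (Fin 2) A V) (q : A) (f : Module.End A V) :
    adScalar q (mat b f) = (1 - q) * LinearMap.det f *
      ((1 + q) ^ 2 * LinearMap.det f - q * LinearMap.trace A V f ^ 2) := by
  have h1 : (mat b f).det = LinearMap.det f := by
    rw [← LinearMap.det_toMatrix b f]
    rfl
  have h2 : (mat b f).trace = LinearMap.trace A V f := by
    rw [LinearMap.trace_eq_matrix_trace A b f]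
    rfl
  rw [adScalar, h1, h2]

/-- **AUTO-UNR at one place**, hypotheses on determinant and trace of `ρ(φ)`. -/
theorem autoUnr_at' (A : Type) [CommRing A] [IsLocalRing A] [IsNoetherianRing A]
    (p : ℕ) (hp : p.Prime) (hpA : (p : A) ∈ maximalIdeal A)
    (ρ : GaloisRepAdic A) (q : ℕ) (hq : q.Prime) (hqp : q ≠ p)
    (P : ValuationSubring Qb) (hP : P.LiesOverPrime q)
    (hI : ∀ σ ∈ P.inertiaSubgroupIn ℚ, ∀ v : ρ.V,
      ρ.ρ σ v - v ∈ maximalIdeal A • (⊤ : Submodule A ρ.V))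
    (φ : GQ) (hφ : P.IsFrobeniusAt φ q)
    (hu : IsUnit ((1 - (q : A)) * LinearMap.det (ρ.ρ φ) *
      ((1 + (q : A)) ^ 2 * LinearMap.det (ρ.ρ φ) -
        (q : A) * LinearMap.trace A ρ.V (ρ.ρ φ) ^ 2))) :
    ∀ σ ∈ P.inertiaSubgroupIn ℚ, ρ.ρ σ = 1 := by
  have b : Module.Basis (Fin 2) A ρ.V := Module.finBasisOfFinrankEq A ρ.V ρ.finrank_eq
  refine autoUnr_at A p hp hpA ρ q hq hqp P hP hI φ hφ b ?_
  rw [adScalar_mat]
  exact hu

/-- **AUTO-UNR at one place**, hypotheses on the residual representation. -/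
theorem stmt_AutoUnrMain : Stmt_AutoUnrMain := by
  intro A _ _ _ p hp hpA ρ q hq hqp P hP hur φ hφ hne
  obtain ⟨hres1, -⟩ := H4.stmt_RES A ρ
  refine autoUnr_at' A p hp hpA ρ q hq hqp P hP (fun σ hσ => hres1 σ (hur σ hσ)) φ hφ ?_
  have hdet : LinearMap.det (ρ.residual.ρ φ) = residue A (LinearMap.det (ρ.ρ φ)) := by
    show LinearMap.det ((ρ.ρ φ).baseChange (ResidueField A)) = _
    rw [LinearMap.det_baseChange]
    rfl
  have htr : LinearMap.trace (ResidueField A) ρ.residual.V (ρ.residual.ρ φ) =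
      residue A (LinearMap.trace A ρ.V (ρ.ρ φ)) := by
    show LinearMap.trace (ResidueField A) _ ((ρ.ρ φ).baseChange (ResidueField A)) = _
    rw [LinearMap.trace_baseChange]
    rfl
  rw [hdet, htr] at hne
  rw [← isUnit_map_iff (residue A)]
  simp only [map_mul, map_sub, map_add, map_pow, map_one, map_natCast]
  exact hne.isUnit

end Fermat.Agent.L.Pivot3.H34
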