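/-
PIVOT3 (owner helper75), leaf WSO3 (helper34): the curve form at `p = 3`, `3 ∥ N`, `E[3]` très
ramifiée at `3`, with an auxiliary prime `r ≡ 2 mod 3` in the level.

* `det_trace_of_charpoly` : determinant and trace from a characteristic polynomial
  `X² - t X + d` in rank `2`.
* `auxAt_residual_of_charpoly` : `AuxAt 3 ρ.residual r` from the Frobenius characteristic
  polynomials `X² - a_r X + r`, `r ≡ 2 mod 3`, `a_r ≢ 0 mod 3`.
* `pivotWCoreSOAux3_of : Stmt_CYC → Stmt_TRES → Stmt_PivotGalAux → Stmt_PivotWCoreSOAux3`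
  (clone of `L.Pivot.H76.pivotWCoreSO_of`).
-/
import Fermat.Agent.L.Pivot.H76_Wire2SO
import Fermat.Agent.L.Pivot3.H75_Defs

set_option autoImplicit false
set_option linter.style.haveILetI false
set_option linter.unusedVariables false
set_option linter.unusedSectionVars false

open Polynomial IsLocalRing CuspForm CongruenceSubgroup ModularFormClass
open WeierstrassCurve WeierstrassCurve.Affine WeierstrassCurve.Affine.Point
open scoped WeierstrassCurve.Affine TensorProduct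

namespace Fermat.Agent.L.Pivot3.H34

open Fermat.Agent.L.Pivot Fermat.Agent.S59 Fermat.Agent.S59.Asm Fermat.Agent.S44
  Fermat.Agent.S43 Fermat.Agent.L.Pivot.H76 Fermat.Agent.L.Pivot3.H24
  Fermat.Agent.L.Pivot3.H75

/-- Determinant and trace of an endomorphism of a free module of rank `2` from its
characteristic polynomial. -/
theorem det_trace_of_charpoly {k : Type} [Field k] {V : Type} [AddCommGroup V] [Module k V]
    [Module.Finite k V] (hV : Module.finrank k V = 2) (f : Module.End k V) (t d : k)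
    (h : LinearMap.charpoly f = X ^ 2 - C t * X + C d) :
    LinearMap.det f = d ∧ LinearMap.trace k V f = t := by
  have b : Module.Basis (Fin 2) k V := Module.finBasisOfFinrankEq k V hV
  have h1 : (LinearMap.toMatrix b b f).charpoly = X ^ 2 - C t * X + C d := by
    rw [LinearMap.charpoly_toMatrix f b, h]
  rw [Matrix.charpoly_fin_two] at h1
  have hd : (LinearMap.toMatrix b b f).det = d := by
    have := congrArg (fun P : k[X] => P.coeff 0) h1
    simpa using this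
  have ht : (LinearMap.toMatrix b b f).trace = t := by
    have := congrArg (fun P : k[X] => P.coeff 1) h1
    simpa using this
  refine ⟨?_, ?_⟩
  · rw [← LinearMap.det_toMatrix b f, hd]
  · rw [LinearMap.trace_eq_matrix_trace k b f, ht]

/-- **`AuxAt` at `p = 3`** from the Frobenius characteristic polynomials. -/
theorem auxAt_residual_of_charpoly {k : Type} [Field k] [CharP k 3]
    (ρbar : ResidualGaloisRep k) (r : ℕ) (hr : r.Prime) (hr2 : r % 3 = 2) (a : ℤ)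
    (ha : ((a : ℤ) : ZMod 3) ≠ 0) (hunr : ρbar.IsUnramifiedAt r)
    (hchar : ∀ P : ValuationSubring (AlgebraicClosure ℚ), P.LiesOverPrime r →
      ∀ σ : AlgebraicClosure ℚ ≃ₐ[ℚ] AlgebraicClosure ℚ, P.IsFrobeniusAt σ r →
        LinearMap.charpoly (ρbar.ρ σ) = X ^ 2 - C ((a : ℤ) : k) * X + C ((r : k))) :
    AuxAt 3 ρbar r := by
  refine ⟨hr, ?_, ?_, hunr, fun P hP σ hσ => ?_⟩
  · rintro rfl
    omega
  · intro h
    omega
  · obtain ⟨hd, ht⟩ := det_trace_of_charpoly ρbar.finrank_eq (ρbar.ρ σ) _ _ (hchar P hP σ hσ)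
    refine ⟨hd, ?_⟩
    rw [ht]
    have h1 : ((r : k) + 1) = 0 := by
      have h2 : ((r + 1 : ℕ) : k) = 0 := by
        rw [CharP.cast_eq_zero_iff k 3]
        omega
      rw [← h2]
      push_cast
      rfl
    rw [h1]
    have h3 : ((a : ℤ) : k) ≠ 0 := by
      intro h0
      apply ha
      rw [CharP.intCast_eq_zero_iff k 3] at h0
      rw [ZMod.intCast_zmod_eq_zero_iff_dvd]
      exact_mod_cast h0
    intro h4
    rw [zero_pow (by norm_num)] at h4
    exact h3 (pow_eq_zero_iff (by norm_num) |>.mp h4)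

set_option maxHeartbeats 1000000 in
set_option synthInstance.maxHeartbeats 400000 in
/-- **Leaf WSO3 of PIVOT3** (`3 ∥ N`, `E[3]` très ramifiée at `3`, auxiliary prime `r`). -/
theorem pivotWCoreSOAux3_of (hCYC : Stmt_CYC) (hTRES : Stmt_TRES) (hG : Stmt_PivotGalAux) :
    Stmt_PivotWCoreSOAux3 := by
  classical
  intro W hΔ hss hirr N q r hsq hpN hpΔ hpeu hq hqp hqN hunrq hr hrN hrq hr2 hgoodr hunrr
    har hexc f 𝔪 S hf h𝔪 hp𝔪 hcong
  have hp : (3 : ℕ).Prime := Nat.prime_three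
  have hp2 : (3 : ℕ) ≠ 2 := by norm_num
  haveI : Fact (3 : ℕ).Prime := ⟨hp⟩
  have hN0 : 0 < N := Nat.pos_of_ne_zero hsq.ne_zero
  have hr3 : r ≠ 3 := by
    rintro rfl
    omega
  obtain ⟨𝒪, _, _, _, _, _, _, ρ, hdet, hunip, hSO, hfrob, habs, hTW, hsplit, ζ, hζ⟩ :=
    exists_coeff_rep hCYC 3 hp2 W hΔ hss hirr N
  have hp𝒪 : ((3 : ℕ) : 𝒪) ∈ maximalIdeal 𝒪 := hdet.1
  haveI hchar : CharP (ResidueField 𝒪) 3 := by
    refine (CharP.charP_iff_prime_eq_zero hp).mpr ?_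
    have : residue 𝒪 ((3 : ℕ) : 𝒪) = 0 := (residue_eq_zero_iff _).mpr hp𝒪
    rwa [map_natCast] at this
  let j : ZMod 3 →+* ResidueField 𝒪 := ZMod.castHom (dvd_refl 3) (ResidueField 𝒪)
  have hbr : ((torsRes W hΔ 3).baseChangeAlong j).IsEquiv ρ.residual :=
    Fermat.Agent.S59.LL.H77.bridgeRes W hΔ 3 _ _ j ρ ∅
      (fun ℓ hℓ hℓp _ hg A hA σ hσ => hfrob ℓ hℓ hℓp hg A hA σ hσ) habs
  have hunr_iff : ∀ q' : ℕ, ρ.residual.IsUnramifiedAt q' ↔ UnrW W 3 q' := fun q' =>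
    (Fermat.Agent.S59.LL.H77.unramified_iff_of_isEquiv j _ _ hbr q').trans
      (torsRes_isUnramifiedAt_iff W hΔ 3 q')
  have hbad : ¬ W.IsGoodPrimeFor 3 := fun h => h hpΔ
  have hnflat : ¬ (GaloisRepAdic.ofResidualGaloisRep ρ.residual).IsFlatAt 3 :=
    hTRES 3 hp2 W hΔ hss hirr hpeu 𝒪 ρ hdet habs hfrob
  have hgoodS : ∀ ℓ : ℕ, ℓ.Prime → ℓ ∉ S ∪ W.Δ.natAbs.primeFactors → W.IsGoodPrimeFor ℓ := by
    intro ℓ hℓ hℓS hdvd
    refine hℓS (Finset.mem_union_right _ (Nat.mem_primeFactors.2 ⟨hℓ, ?_, ?_⟩))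
    · exact Int.natCast_dvd.1 hdvd
    · exact Int.natAbs_ne_zero.2 hΔ
  -- the auxiliary prime
  have haux : AuxAt 3 ρ.residual r :=
    auxAt_residual_of_charpoly ρ.residual r hr hr2 (W.apOfModel r) har ((hunr_iff r).mpr hunrr)
      (fun P hP σ hσ => charpoly_frob_residual ρ σ _ r (hfrob r hr hr3 hgoodr P hP σ hσ))
  obtain ⟨g, 𝔪', S', hg, h𝔪', hp𝔪', hgc⟩ := hG 𝒪 3 hp2 hp𝒪 false ρ.residual habs
    (detIsCyclotomic_residual ρ 3 hdet) hsplit hTW N hsq (fun h => by cases h)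
    (fun _ => ⟨hpN, isStrictOrdinaryAt_residual ρ 3 (hSO hbad), hnflat⟩)
    {r} (fun r' hr' => by
      rw [Finset.mem_singleton] at hr'
      subst hr'
      exact ⟨haux, hrN⟩)
    (Or.inr ⟨r, hr, hrN, hr2⟩)
    (fun q' hq' _ hq'p => isUnipotentOnInertiaAt_residual ρ q' (hunip q' hq' hq'p))
    (fun q' hq' hq'N hq'p hq'R hu => by
      have hq'r : q' ≠ r := fun h => hq'R (Finset.mem_singleton.mpr h)
      obtain ⟨hdvd, A, hA, c, hc⟩ := hexc q' hq' hq'p hq'N hq'r ((hunr_iff q').mp hu)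
      refine ⟨hdvd, A, hA, fun σ hσ => ⟨j c, ?_⟩⟩
      have h1 : (torsRes W hΔ 3).ρ σ = c • (1 : Module.End (ZMod 3) (torsRes W hΔ 3).V) :=
        LinearMap.ext fun v => hc σ hσ v
      exact scalar_of_isEquiv_resid hbr σ (j c) (scalar_bcAlong_resid j _ σ c h1))
    (fun q' hq' hq'N e he => by
      have h1 : 0 < q' - 1 := by have := hq'.two_le; omega
      have h2 : q' - 1 ≤ N := by
        have := Nat.le_of_dvd hN0 hq'N
        omega
      exact exists_primitiveRoot_of_le hp hζ (le_of_pow_dvd hp he h1 h2))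
    f 𝔪 (fun ℓ => W.apOfModel ℓ) (S ∪ W.Δ.natAbs.primeFactors) hf h𝔪 hp𝔪
    (fun ℓ hℓ hℓS hℓN hℓp =>
      hcong ℓ hℓ (fun h => hℓS (Finset.mem_union_left _ h)) (hgoodS ℓ hℓ hℓS) hℓN hℓp)
    (fun ℓ hℓ hℓS hℓp A hA σ hσ =>
      charpoly_frob_residual ρ σ _ ℓ (hfrob ℓ hℓ hℓp (hgoodS ℓ hℓ hℓS) A hA σ hσ))
    q hq hqN hqp (fun h => hrq (Finset.mem_singleton.mp h).symm) ((hunr_iff q).mpr hunrq)
  exact ⟨g, 𝔪', S', hg, h𝔪', hp𝔪', fun ℓ hℓ hℓS hℓN hℓp _ => hgc ℓ hℓ hℓS hℓN hℓp⟩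

end Fermat.Agent.L.Pivot3.H34
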