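/-
PIVOT3 (PIVOT at `p = 3`, owner helper75), the TOP of the curve wiring.

The leaves `S38.P3.Stmt_PivotWCore3`, `Stmt_PivotWCoreSO3` (PIVOT at `p = 3`, curve form) from the
curve form with an auxiliary prime in the level (`H75.Stmt_PivotWCoreAux3`, `…SOAux3`) and the
Mazur step at a prime which is not exceptional (`S38.H37.Stmt_NonExcW`):

* the auxiliary prime `r ≡ 2 mod 3`, `r ∤ 3 N Δ`, `a_r(W) ≢ 0 mod 3` is given by
  `S38.P3.H57.stmt_Strong`;
* the system of `W` occurs at the level `N r` (`S38.H75.raise_level`, COMPLETE);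
* PIVOT with the auxiliary prime `r` removes `q` from `N r`;
* `E[3]` is unramified at `r` (`unrW_of_good`) and `r` is not exceptional (`3 ∤ r - 1`), so the
  Mazur step removes `r` from `N r / q`;  `(N r / q) / r = N / q`.

* `unrW_of_good` : `E[p]` is unramified at a prime `r ≠ p` of good reduction;
* `pivotWCore3_of_aux   : Stmt_PivotWCoreAux3 → Stmt_NonExcW → S38.P3.Stmt_PivotWCore3`;
* `pivotWCoreSO3_of_aux : Stmt_PivotWCoreSOAux3 → Stmt_NonExcW → S38.P3.Stmt_PivotWCoreSO3`.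
-/
import Fermat.Agent.L.Pivot3.H75_Defs
import Fermat.Agent.S38.H37_Wire3
import Fermat.Agent.S38.P3.H57_StrongFinal
import Fermat.Agent.L.Pivot.H76_Wire2W

set_option autoImplicit false
set_option linter.style.haveILetI false
set_option linter.unusedVariables false
set_option synthInstance.maxHeartbeats 400000
set_option maxHeartbeats 1000000

open Polynomial IsLocalRing CuspForm CongruenceSubgroup ModularFormClass
open WeierstrassCurve WeierstrassCurve.Affine WeierstrassCurve.Affine.Point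
open scoped WeierstrassCurve.Affine

namespace Fermat.Agent.L.Pivot3.H75

open Fermat.Agent.S59 Fermat.Agent.S44 Fermat.Agent.S43 Fermat.Agent.L.Pivot.H76
  Fermat.Agent.L.Pivot3.H24 Fermat.Agent.S38

/-- `E[p]` is unramified at a prime `r ≠ p` of good reduction (semistable model, `E[p]`
irreducible: through the Tate module). -/
theorem unrW_of_good (p : ℕ) (hp : p.Prime) (hp2 : p ≠ 2) (W : WeierstrassCurve ℤ)
    (hΔ : W.Δ ≠ 0) (hss : W.IsSemistableModel) (hirr : W.ModRepIsIrreducible p)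
    (r : ℕ) (hr : r.Prime) (hrp : r ≠ p) (hgood : W.IsGoodPrimeFor r) : UnrW W p r := by
  haveI : Fact p.Prime := ⟨hp⟩
  obtain ⟨𝒪₀, i1, i2, i3, i4, i5, i6, ρ₀, hdet₀, hunr₀, hunip₀, hflat₀, hord₀, hfrob₀, hres₀⟩ :=
    Fermat.Agent.Tate.stmt_Tate p hp2 W hΔ hss
  obtain ⟨habs₀, hTW₀⟩ := hres₀ hirr
  have hp𝒪 : (p : 𝒪₀) ∈ maximalIdeal 𝒪₀ := hdet₀.1
  haveI hchar : CharP (ResidueField 𝒪₀) p := by
    refine (CharP.charP_iff_prime_eq_zero hp).mpr ?_
    have : residue 𝒪₀ (p : 𝒪₀) = 0 := (residue_eq_zero_iff _).mpr hp𝒪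
    rwa [map_natCast] at this
  let j : ZMod p →+* ResidueField 𝒪₀ := ZMod.castHom (dvd_refl p) (ResidueField 𝒪₀)
  have hbr : ((torsRes W hΔ p).baseChangeAlong j).IsEquiv ρ₀.residual :=
    Fermat.Agent.S59.LL.H77.bridgeRes W hΔ p _ _ j ρ₀ ∅
      (fun ℓ hℓ hℓp _ hg A hA σ hσ => hfrob₀ ℓ hℓ hℓp hg A hA σ hσ) habs₀
  have hunr_iff : ρ₀.residual.IsUnramifiedAt r ↔ UnrW W p r :=
    (Fermat.Agent.S59.LL.H77.unramified_iff_of_isEquiv j _ _ hbr r).trans
      (torsRes_isUnramifiedAt_iff W hΔ p r)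
  refine hunr_iff.mp ?_
  intro P hP σ hσ
  have h1 : ρ₀.residual.ρ σ = (ρ₀.ρ σ).baseChange (ResidueField 𝒪₀) := rfl
  rw [h1, hunr₀ r hr hrp hgood P hP σ hσ]
  exact LinearMap.baseChange_one (R := 𝒪₀) (A := ResidueField 𝒪₀) (M := ρ₀.V)

/-- A prime `r ≡ 2 mod 3` is not exceptional for `E[3]`. -/
theorem not_isExcW_of_mod (W : WeierstrassCurve ℤ) {r : ℕ} (hr3 : r % 3 = 2) :
    ¬ IsExcW W 3 r := by
  rintro ⟨hdvd, -⟩
  omega

/-- The arithmetic of the levels: `(N r / q) / r = N / q`. -/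
theorem level_div_div {N q r : ℕ} (hq : q ∣ N) (hr : 0 < r) : N * r / q / r = N / q := by
  obtain ⟨m, rfl⟩ := hq
  rcases Nat.eq_zero_or_pos q with h0 | hq0
  · subst h0
    simp
  · rw [Nat.mul_div_cancel_left m hq0, mul_assoc, Nat.mul_div_cancel_left (m * r) hq0,
      Nat.mul_div_cancel m hr]

/-- The arithmetic of the levels: `r ∣ N r / q` when `q ∣ N`. -/
theorem dvd_level_div {N q r : ℕ} (hq : q ∣ N) (hq0 : 0 < q) : r ∣ N * r / q := by
  obtain ⟨m, rfl⟩ := hq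
  rw [mul_assoc, Nat.mul_div_cancel_left (m * r) hq0]
  exact dvd_mul_left r m

/-- Residual modularity of the level `N / q` gives the conclusion of the core. -/
theorem lowerConcl_of_resMod (p N q : ℕ) (W : WeierstrassCurve ℤ) (hq : q ∣ N)
    (h : W.IsResiduallyModularOfLevel p (N / q)) : LowerConcl p N q W := by
  obtain ⟨g, 𝔪, hg, h𝔪, hp𝔪, hgc⟩ := h
  refine ⟨g, 𝔪, ∅, hg, h𝔪, hp𝔪, fun ℓ hℓ _ hℓN hℓp hgood => ?_⟩
  exact hgc ℓ hℓ hgood (fun hd => hℓN (hd.trans (Nat.div_dvd_of_dvd hq))) hℓp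

/-- **The common part of the two wirings**: from the system of `W` at the squarefree level `N`,
an auxiliary prime `r` and the pivot at the level `N r`, the level `N / q`. -/
theorem lowerConcl_of_aux_step (hNE : Fermat.Agent.S38.H37.Stmt_NonExcW)
    (W : WeierstrassCurve ℤ) (hΔ : W.Δ ≠ 0) (hW : W.IsSemistableModel)
    (hirr : GaloisRepIsIrreducible (K := AlgebraicClosure ℚ) ℚ
      (W.map (Int.castRingHom ℚ)).toAffine 3)
    (N q r : ℕ) (hsq : Squarefree N) (hq : q.Prime) (hqN : q ∣ N)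
    (hr : r.Prime) (hrN : ¬ r ∣ N) (hr3 : r % 3 = 2) (hgood : W.IsGoodPrimeFor r)
    (hLC : LowerConcl 3 (N * r) q W) : LowerConcl 3 N q W := by
  have h3 : Nat.Prime 3 := Nat.prime_three
  have hr3' : r ≠ 3 := by
    rintro rfl
    omega
  have hsqNr : Squarefree (N * r) := by
    refine (Nat.squarefree_mul ((Nat.Coprime.symm
      ((Nat.Prime.coprime_iff_not_dvd hr).2 hrN)))).2 ⟨hsq, hr.squarefree⟩
  have hqNr : q ∣ N * r := hqN.mul_right r
  -- the level `N r / q`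
  have hres2 : W.IsResiduallyModularOfLevel 3 (N * r / q) :=
    isResiduallyModular_of_lowerConcl Fermat.Agent.S38.H49.stmt_Complete 3 h3 W hΔ (N * r) q
      hsqNr hq hqNr hLC
  obtain ⟨g, 𝔫, hg, h𝔫, h3𝔫, hgc⟩ := hres2
  have hsq2 : Squarefree (N * r / q) := hsqNr.squarefree_of_dvd (Nat.div_dvd_of_dvd hqNr)
  have hr2 : r ∣ N * r / q := dvd_level_div hqN hq.pos
  -- the Mazur step at `r`
  have hunr : UnrW W 3 r := unrW_of_good 3 h3 (by decide) W hΔ hW hirr r hr hr3' hgood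
  have hLC2 : LowerConcl 3 (N * r / q) r W :=
    hNE 3 h3 (by decide) W hΔ hW hirr (N * r / q) r hsq2 hr hr3' hr2 hunr
      (not_isExcW_of_mod W hr3) g 𝔫 hg h𝔫 h3𝔫 hgc
  have hres3 : W.IsResiduallyModularOfLevel 3 (N * r / q / r) :=
    isResiduallyModular_of_lowerConcl Fermat.Agent.S38.H49.stmt_Complete 3 h3 W hΔ (N * r / q) r
      hsq2 hr hr2 hLC2
  rw [level_div_div hqN hr.pos] at hres3
  exact lowerConcl_of_resMod 3 N q W hqN hres3

/-- The auxiliary prime: `r ≡ 2 mod 3`, `r ∤ N`, `r ≠ 3`, `W` good at `r`, `a_r ≢ 0 mod 3`. -/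
theorem exists_aux_prime (W : WeierstrassCurve ℤ) (hΔ : W.Δ ≠ 0) (hW : W.IsSemistableModel)
    (hirr : GaloisRepIsIrreducible (K := AlgebraicClosure ℚ) ℚ
      (W.map (Int.castRingHom ℚ)).toAffine 3) (N : ℕ) (hN : N ≠ 0) :
    ∃ r : ℕ, r.Prime ∧ ¬ r ∣ N ∧ r % 3 = 2 ∧ W.IsGoodPrimeFor r ∧
      ((W.apOfModel r : ℤ) : ZMod 3) ≠ 0 := by
  obtain ⟨r, hr, hrS, hr3, hra⟩ := Fermat.Agent.S38.P3.H57.stmt_Strong W hΔ hW hirr
    (N.primeFactors ∪ W.Δ.natAbs.primeFactors)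
  simp only [Finset.mem_union, Nat.mem_primeFactors, not_or] at hrS
  refine ⟨r, hr, fun h => hrS.1 ⟨hr, h, hN⟩, hr3, ?_, hra⟩
  intro hdvd
  exact hrS.2 ⟨hr, Int.natCast_dvd.1 hdvd, Int.natAbs_ne_zero.2 hΔ⟩

/-- **PIVOT at `p = 3`, level prime to `3`**, from the form with an auxiliary prime and the
Mazur step. -/
theorem pivotWCore3_of_aux (hA : Stmt_PivotWCoreAux3)
    (hNE : Fermat.Agent.S38.H37.Stmt_NonExcW) : Fermat.Agent.S38.P3.Stmt_PivotWCore3 := by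
  intro W hΔ hW hirr N q hsq h3N hq hqN hunrq hexc f 𝔪 S hf h𝔪 h3𝔪 hcong
  have h3 : Nat.Prime 3 := Nat.prime_three
  have hNpos : 0 < N := Nat.pos_of_ne_zero hsq.ne_zero
  -- the system at the level `N`, at all good primes
  have hres : W.IsResiduallyModularOfLevel 3 N :=
    ⟨f, 𝔪, hf, h𝔪, h3𝔪,
      Fermat.Agent.S38.H49.stmt_Complete 3 h3 W hΔ N hNpos f 𝔪 S hf h𝔪 h3𝔪 hcong⟩
  -- the auxiliary prime
  obtain ⟨r, hr, hrN, hr3, hgood, hra⟩ := exists_aux_prime W hΔ hW hirr N hsq.ne_zero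
  have hr3' : r ≠ 3 := by
    rintro rfl
    omega
  have hrq : r ≠ q := fun h => hrN (h ▸ hqN)
  have hsqNr : Squarefree (N * r) := by
    refine (Nat.squarefree_mul ((Nat.Coprime.symm
      ((Nat.Prime.coprime_iff_not_dvd hr).2 hrN)))).2 ⟨hsq, hr.squarefree⟩
  -- the level `N r`
  obtain ⟨f', 𝔪', hf', h𝔪', h3𝔪', hcong'⟩ :=
    Fermat.Agent.S38.H75.raise_level W 3 hsqNr (dvd_mul_right N r) hres
  have h3Nr : ¬ 3 ∣ N * r := by
    intro h
    rcases (Nat.Prime.dvd_mul h3).1 h with h | h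
    · exact h3N h
    · exact hr3' ((Nat.prime_dvd_prime_iff_eq h3 hr).1 h).symm
  have hunr : UnrW W 3 r := unrW_of_good 3 h3 (by decide) W hΔ hW hirr r hr hr3' hgood
  -- the pivot at the level `N r`
  have hLC : LowerConcl 3 (N * r) q W :=
    hA W hΔ hW hirr (N * r) q r hsqNr h3Nr hq (hqN.mul_right r) hunrq hr (dvd_mul_left r N) hrq
      hr3 hgood hunr hra
      (fun q' hq' hq'Nr hq'r hu => by
        rcases (Nat.Prime.dvd_mul hq').1 hq'Nr with h | h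
        · exact hexc q' hq' h hu
        · exact absurd ((Nat.prime_dvd_prime_iff_eq hq' hr).1 h) hq'r)
      f' 𝔪' ∅ hf' h𝔪' h3𝔪' (fun ℓ hℓ _ hg hℓN hℓp => hcong' ℓ hℓ hg hℓN hℓp)
  exact lowerConcl_of_aux_step hNE W hΔ hW hirr N q r hsq hq hqN hr hrN hr3 hgood hLC

/-- **PIVOT at `p = 3`, `3 ∥ N`, `E[3]` très ramifiée at `3`**, from the form with an auxiliary
prime and the Mazur step. -/
theorem pivotWCoreSO3_of_aux (hA : Stmt_PivotWCoreSOAux3)
    (hNE : Fermat.Agent.S38.H37.Stmt_NonExcW) : Fermat.Agent.S38.P3.Stmt_PivotWCoreSO3 := by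
  intro W hΔ hW hirr N q hsq h3N h3Δ hpeu hq hq3 hqN hunrq hexc f 𝔪 S hf h𝔪 h3𝔪 hcong
  have h3 : Nat.Prime 3 := Nat.prime_three
  have hNpos : 0 < N := Nat.pos_of_ne_zero hsq.ne_zero
  have hres : W.IsResiduallyModularOfLevel 3 N :=
    ⟨f, 𝔪, hf, h𝔪, h3𝔪,
      Fermat.Agent.S38.H49.stmt_Complete 3 h3 W hΔ N hNpos f 𝔪 S hf h𝔪 h3𝔪 hcong⟩
  obtain ⟨r, hr, hrN, hr3, hgood, hra⟩ := exists_aux_prime W hΔ hW hirr N hsq.ne_zero
  have hr3' : r ≠ 3 := by
    rintro rfl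
    omega
  have hrq : r ≠ q := fun h => hrN (h ▸ hqN)
  have hsqNr : Squarefree (N * r) := by
    refine (Nat.squarefree_mul ((Nat.Coprime.symm
      ((Nat.Prime.coprime_iff_not_dvd hr).2 hrN)))).2 ⟨hsq, hr.squarefree⟩
  obtain ⟨f', 𝔪', hf', h𝔪', h3𝔪', hcong'⟩ :=
    Fermat.Agent.S38.H75.raise_level W 3 hsqNr (dvd_mul_right N r) hres
  have hunr : UnrW W 3 r := unrW_of_good 3 h3 (by decide) W hΔ hW hirr r hr hr3' hgood
  have hLC : LowerConcl 3 (N * r) q W :=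
    hA W hΔ hW hirr (N * r) q r hsqNr (h3N.mul_right r) h3Δ hpeu hq hq3 (hqN.mul_right r) hunrq
      hr (dvd_mul_left r N) hrq hr3 hgood hunr hra
      (fun q' hq' hq'3 hq'Nr hq'r hu => by
        rcases (Nat.Prime.dvd_mul hq').1 hq'Nr with h | h
        · exact hexc q' hq' hq'3 h hu
        · exact absurd ((Nat.prime_dvd_prime_iff_eq hq' hr).1 h) hq'r)
      f' 𝔪' ∅ hf' h𝔪' h3𝔪' (fun ℓ hℓ _ hg hℓN hℓp => hcong' ℓ hℓ hg hℓN hℓp)
  exact lowerConcl_of_aux_step hNE W hΔ hW hirr N q r hsq hq hqN hr hrN hr3 hgood hLC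

end Fermat.Agent.L.Pivot3.H75
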