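import Fermat.Agent.L.Pivot3.H24_AuxDefs
import Fermat.Agent.L.Pivot.H76_Wire2Res
import Fermat.Agent.S58.H99_Plumb

/-!
# PIVOT at `p = 3` (package PIVOT3, owner helper75): `AuxAt` for a curve (helper80)

Shared lemma of the leaves W3 and WSO3.  Let `ρ` be a `3`-adic representation (over a local ring
`𝒪` with `3 ∈ 𝔪`) with the Frobenius characteristic polynomials `X² - a_r X + r` of a model `W` at
the prime `r`, `r ≡ 2 mod 3`, `a_r(W) ≢ 0 mod 3`, whose residual representation is unramified at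
`r`.  Then `H24.AuxAt 3 ρ.residual r`:  `det ρ̄(Frob_r) = r`, `tr ρ̄(Frob_r)² = a_r² ≠ 0 = (r + 1)²`.

* `auxAt_residual_of_charpoly` : the general form (integer `a` with `(a : ZMod 3) ≠ 0`);
* `auxAt_residual_of_curve`    : the form for `a = W.apOfModel r`.
-/

set_option autoImplicit false
set_option linter.unusedSectionVars false
set_option linter.unusedVariables false
set_option linter.style.haveILetI false

noncomputable section

open Polynomial IsLocalRing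

namespace Fermat.Agent.L.Pivot3.H80

open Fermat.Agent.L.Pivot3.H24

section Aux

variable {𝒪 : Type} [CommRing 𝒪] [IsLocalRing 𝒪]

/-- The residue field has characteristic `p` if `p ∈ 𝔪`. -/
theorem charP_residueField_of_mem {p : ℕ} (hp : p.Prime) (hp𝒪 : (p : 𝒪) ∈ maximalIdeal 𝒪) :
    CharP (ResidueField 𝒪) p := by
  refine (CharP.charP_iff_prime_eq_zero hp).mpr ?_
  have : residue 𝒪 (p : 𝒪) = 0 := (residue_eq_zero_iff _).mpr hp𝒪
  rwa [map_natCast] at this

/-- An integer which is nonzero modulo `p` is nonzero in a field of characteristic `p`. -/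
theorem intCast_ne_zero_of_zmod {k : Type} [Field k] {p : ℕ} [Fact p.Prime] [CharP k p]
    (a : ℤ) (ha : ((a : ℤ) : ZMod p) ≠ 0) : ((a : ℤ) : k) ≠ 0 := by
  intro h
  apply ha
  rw [ZMod.intCast_zmod_eq_zero_iff_dvd]
  exact (CharP.intCast_eq_zero_iff k p a).1 h

/-- **`AuxAt` from the Frobenius characteristic polynomials at `r`** (`p = 3`). -/
theorem auxAt_residual_of_charpoly (ρ : GaloisRepAdic 𝒪) (h3 : ((3 : ℕ) : 𝒪) ∈ maximalIdeal 𝒪)
    (r : ℕ) (hr : r.Prime) (hr3 : r % 3 = 2) (a : ℤ) (ha : ((a : ℤ) : ZMod 3) ≠ 0)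
    (hunr : ρ.residual.IsUnramifiedAt r)
    (hfrob : ∀ A : ValuationSubring (AlgebraicClosure ℚ), A.LiesOverPrime r →
      ∀ σ : AlgebraicClosure ℚ ≃ₐ[ℚ] AlgebraicClosure ℚ, A.IsFrobeniusAt σ r →
        LinearMap.charpoly (ρ.ρ σ) = X ^ 2 - C ((a : ℤ) : 𝒪) * X + C ((r : 𝒪))) :
    AuxAt 3 ρ.residual r := by
  haveI : Fact (3 : ℕ).Prime := ⟨Nat.prime_three⟩
  haveI : CharP (ResidueField 𝒪) 3 := charP_residueField_of_mem Nat.prime_three h3
  refine ⟨hr, ?_, ?_, hunr, fun P hP σ hσ => ?_⟩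
  · intro h
    rw [h] at hr3
    norm_num at hr3
  · intro h
    omega
  · have hc := Fermat.Agent.L.Pivot.H76.charpoly_frob_residual ρ σ a r (hfrob P hP σ hσ)
    obtain ⟨htr, hdet⟩ :=
      Fermat.Agent.S58.H99.trace_det_of_charpoly_two ρ.residual.finrank_eq (ρ.residual.ρ σ) hc
    refine ⟨hdet, ?_⟩
    rw [htr]
    have h0 : ((r : ℕ) : ResidueField 𝒪) + 1 = 0 := by
      have hd : 3 ∣ r + 1 := by omega
      have := (CharP.cast_eq_zero_iff (ResidueField 𝒪) 3 (r + 1)).2 hd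
      rwa [Nat.cast_add, Nat.cast_one] at this
    rw [h0]
    have hne : ((a : ℤ) : ResidueField 𝒪) ≠ 0 := intCast_ne_zero_of_zmod a ha
    intro h
    rw [zero_pow two_ne_zero] at h
    exact hne (pow_eq_zero_iff two_ne_zero |>.1 h)

/-- **`AuxAt` for a curve** (`p = 3`): `r ≡ 2 mod 3`, `a_r(W) ≢ 0 mod 3`. -/
theorem auxAt_residual_of_curve (ρ : GaloisRepAdic 𝒪) (h3 : ((3 : ℕ) : 𝒪) ∈ maximalIdeal 𝒪)
    (W : WeierstrassCurve ℤ) (r : ℕ) (hr : r.Prime) (hr3 : r % 3 = 2)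
    (har : ((W.apOfModel r : ℤ) : ZMod 3) ≠ 0)
    (hunr : ρ.residual.IsUnramifiedAt r)
    (hfrob : ∀ A : ValuationSubring (AlgebraicClosure ℚ), A.LiesOverPrime r →
      ∀ σ : AlgebraicClosure ℚ ≃ₐ[ℚ] AlgebraicClosure ℚ, A.IsFrobeniusAt σ r →
        LinearMap.charpoly (ρ.ρ σ)
          = X ^ 2 - C (((W.apOfModel r : ℤ) : 𝒪)) * X + C ((r : 𝒪))) :
    AuxAt 3 ρ.residual r :=
  auxAt_residual_of_charpoly ρ h3 r hr hr3 (W.apOfModel r) har hunr hfrob

end Aux

end Fermat.Agent.L.Pivot3.H80
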