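import Fermat.Agent.L.Pivot3.H75_Defs
import Fermat.Agent.L.Pivot3.H80_AuxCurve
import Fermat.Agent.L.Pivot.H76_Wire2W

/-!
# PIVOT at `p = 3` (package PIVOT3, owner helper75), leaf W3 (helper80)

`pivotWCoreAux3_of : H76.Stmt_CYC → H75.Stmt_PivotGalAux → H75.Stmt_PivotWCoreAux3`:
the curve form of the pivot at `p = 3` with one auxiliary prime `r ≡ 2 mod 3` in the level, from
the Galois form with the set `R = {r}` of auxiliary primes.

Clone of `H76.pivotWCore_of` (`L/Pivot/H76_Wire2W.lean`, helper76): the same coefficient ring and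
`3`-adic representation (`exists_coeff_rep`), the same bridge `E[3] ⊗ k ≅ ρ.residual`;
`AuxAt 3 ρ.residual r` is `H80.auxAt_residual_of_curve`.
-/

set_option autoImplicit false
set_option linter.style.haveILetI false
set_option linter.unusedVariables false

open Polynomial IsLocalRing CuspForm CongruenceSubgroup ModularFormClass
open WeierstrassCurve WeierstrassCurve.Affine WeierstrassCurve.Affine.Point
open scoped WeierstrassCurve.Affine

namespace Fermat.Agent.L.Pivot3.H80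

open Fermat.Agent.L.Pivot Fermat.Agent.S59 Fermat.Agent.S59.Asm Fermat.Agent.S44
  Fermat.Agent.S43 Fermat.Agent.L.Pivot.H76 Fermat.Agent.L.Pivot3.H24
  Fermat.Agent.L.Pivot3.H75

set_option maxHeartbeats 1000000 in
set_option synthInstance.maxHeartbeats 400000 in
/-- **Leaf W3 of PIVOT3** (level prime to `3`, one auxiliary prime `r ≡ 2 mod 3`). -/
theorem pivotWCoreAux3_of (hCYC : Stmt_CYC) (hG : Stmt_PivotGalAux) : Stmt_PivotWCoreAux3 := by
  classical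
  intro W hΔ hss hirr N q r hsq hpN hq hqN hunrq hr hrN hrq hr3 hgoodr hunrr har hexc
    f 𝔪 S hf h𝔪 hp𝔪 hcong
  have hp : (3 : ℕ).Prime := Nat.prime_three
  have hp2 : (3 : ℕ) ≠ 2 := by norm_num
  haveI : Fact (3 : ℕ).Prime := ⟨hp⟩
  have hN0 : 0 < N := Nat.pos_of_ne_zero hsq.ne_zero
  obtain ⟨𝒪, _, _, _, _, _, _, ρ, hdet, hunip, -, hfrob, habs, hTW, hsplit, ζ, hζ⟩ :=
    exists_coeff_rep hCYC 3 hp2 W hΔ hss hirr N
  have hp𝒪 : ((3 : ℕ) : 𝒪) ∈ maximalIdeal 𝒪 := hdet.1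
  haveI hchar : CharP (ResidueField 𝒪) 3 := by
    refine (CharP.charP_iff_prime_eq_zero hp).mpr ?_
    have : residue 𝒪 ((3 : ℕ) : 𝒪) = 0 := (residue_eq_zero_iff _).mpr hp𝒪
    rwa [map_natCast] at this
  let j : ZMod 3 →+* ResidueField 𝒪 := ZMod.castHom (dvd_refl 3) (ResidueField 𝒪)
  have hbr : ((torsRes W hΔ 3).baseChangeAlong j).IsEquiv ρ.residual :=
    Fermat.Agent.S59.LL.H77.bridgeRes W hΔ 3 _ _ j ρ ∅
      (fun ℓ hℓ hℓp _ hg A hA σ hσ => hfrob ℓ hℓ hℓp hg A hA σ hσ) habs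
  have hunr_iff : ∀ q' : ℕ, ρ.residual.IsUnramifiedAt q' ↔ UnrW W 3 q' := fun q' =>
    (Fermat.Agent.S59.LL.H77.unramified_iff_of_isEquiv j _ _ hbr q').trans
      (torsRes_isUnramifiedAt_iff W hΔ 3 q')
  have hqp : q ≠ 3 := fun h => hpN (h ▸ hqN)
  have hr3' : r ≠ 3 := by
    intro h
    rw [h] at hr3
    norm_num at hr3
  have hgoodS : ∀ ℓ : ℕ, ℓ.Prime → ℓ ∉ S ∪ W.Δ.natAbs.primeFactors → W.IsGoodPrimeFor ℓ := by
    intro ℓ hℓ hℓS hdvd
    refine hℓS (Finset.mem_union_right _ (Nat.mem_primeFactors.2 ⟨hℓ, ?_, ?_⟩))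
    · exact Int.natCast_dvd.1 hdvd
    · exact Int.natAbs_ne_zero.2 hΔ
  -- the auxiliary prime
  have haux : AuxAt 3 ρ.residual r :=
    auxAt_residual_of_curve ρ hp𝒪 W r hr hr3 har ((hunr_iff r).mpr hunrr)
      (fun A hA σ hσ => hfrob r hr hr3' hgoodr A hA σ hσ)
  obtain ⟨g, 𝔪', S', hg, h𝔪', hp𝔪', hgc⟩ := hG 𝒪 3 hp2 hp𝒪 true ρ.residual habs
    (detIsCyclotomic_residual ρ 3 hdet) hsplit hTW N hsq (fun _ => hpN)
    (fun h => by cases h)
    ({r} : Finset ℕ)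
    (fun r' hr' => by
      rw [Finset.mem_singleton] at hr'
      subst hr'
      exact ⟨haux, hrN⟩)
    (Or.inr ⟨r, hr, hrN, hr3⟩)
    (fun q' hq' _ hq'p => isUnipotentOnInertiaAt_residual ρ q' (hunip q' hq' hq'p))
    (fun q' hq' hq'N hq'p hq'R hu => by
      have hq'r : q' ≠ r := fun h => hq'R (Finset.mem_singleton.2 h)
      obtain ⟨hdvd, A, hA, c, hc⟩ := hexc q' hq' hq'N hq'r ((hunr_iff q').mp hu)
      refine ⟨hdvd, A, hA, fun σ hσ => ⟨j c, ?_⟩⟩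
      have h1 : (torsRes W hΔ 3).ρ σ = c • (1 : Module.End (ZMod 3) (torsRes W hΔ 3).V) :=
        LinearMap.ext fun v => hc σ hσ v
      exact scalar_of_isEquiv_resid hbr σ (j c) (scalar_bcAlong_resid j _ σ c h1))
    (fun q' hq' hq'N e he => by
      have h1 : 0 < q' - 1 := by have := hq'.two_le; omega
      have h2 : q' - 1 ≤ N := by
        have := Nat.le_of_dvd hN0 hq'N
        omega
      exact exists_primitiveRoot_of_le hp hζ (le_of_pow_dvd hp he h1 h2))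
    f 𝔪 (fun ℓ => W.apOfModel ℓ) (S ∪ W.Δ.natAbs.primeFactors) hf h𝔪 hp𝔪
    (fun ℓ hℓ hℓS hℓN hℓp =>
      hcong ℓ hℓ (fun h => hℓS (Finset.mem_union_left _ h)) (hgoodS ℓ hℓ hℓS) hℓN hℓp)
    (fun ℓ hℓ hℓS hℓp A hA σ hσ =>
      charpoly_frob_residual ρ σ _ ℓ (hfrob ℓ hℓ hℓp (hgoodS ℓ hℓ hℓS) A hA σ hσ))
    q hq hqN hqp (fun h => hrq (Finset.mem_singleton.1 h).symm) ((hunr_iff q).mpr hunrq)
  exact ⟨g, 𝔪', S', hg, h𝔪', hp𝔪', fun ℓ hℓ hℓS hℓN hℓp _ => hgc ℓ hℓ hℓS hℓN hℓp⟩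

end Fermat.Agent.L.Pivot3.H80
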