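/-
PIVOT3 (PIVOT at `p = 3`, owner helper75), the ASSEMBLY of the curve form.

`S38.P3.Stmt_PivotWCore3`, `Stmt_PivotWCoreSO3` from the Hecke–Galois core with auxiliary primes
(`L.Pivot3.Stmt_PivotCoreBA`, helper3/helper11) and the Mazur step at a prime which is not
exceptional (`S38.H37.Stmt_NonExcW`, helper37); plugged in:

* TOP  (helper75) `H75.pivotWCore3_of_aux`, `H75.pivotWCoreSO3_of_aux`;
* W3   (helper80) `H80.pivotWCoreAux3_of`;     WSO3 (helper34) `H34.pivotWCoreSOAux3_of`;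
* G3   (helper13) `H13.pivotGalAux_of`;
* CYC  (helper3)  `L.Pivot.H3.stmt_CYC`;       TRES (helper49) `S59.TRes.H49.stmt_TRES`;
* THETA-MIN (helper92) `S59.Asm.H92.stmt_THETAMIN`;  EXACT-b (helper80) `S59.Asm.H80.stmt_EXACTb`.
-/
import Fermat.Agent.L.Pivot3.H75_Top
import Fermat.Agent.L.Pivot3.H80_WAux
import Fermat.Agent.L.Pivot3.H34_WSOAux
import Fermat.Agent.L.Pivot3.H13_GAux
import Fermat.Agent.L.Pivot.H3_CycH76
import Fermat.Agent.S59.Asm.H92_ThetaMin
import Fermat.Agent.S59.Asm.H80_ExactB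
import Fermat.Agent.S59.TRes.H49_TRES

set_option autoImplicit false

namespace Fermat.Agent.L.Pivot3.H75

/-- The Galois form with auxiliary primes from the Hecke–Galois core. -/
theorem pivotGalAux_of_coreBA (hPC : Fermat.Agent.L.Pivot3.Stmt_PivotCoreBA) :
    Stmt_PivotGalAux :=
  Fermat.Agent.L.Pivot3.H13.pivotGalAux_of Fermat.Agent.S59.Asm.H92.stmt_THETAMIN
    Fermat.Agent.S59.Asm.H80.stmt_EXACTb hPC

/-- **PIVOT at `p = 3`, level prime to `3`**, from the Hecke–Galois core with auxiliary primes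
and the Mazur step. -/
theorem pivotWCore3_of_coreBA (hPC : Fermat.Agent.L.Pivot3.Stmt_PivotCoreBA)
    (hNE : Fermat.Agent.S38.H37.Stmt_NonExcW) : Fermat.Agent.S38.P3.Stmt_PivotWCore3 :=
  pivotWCore3_of_aux
    (Fermat.Agent.L.Pivot3.H80.pivotWCoreAux3_of Fermat.Agent.L.Pivot.H3.stmt_CYC
      (pivotGalAux_of_coreBA hPC)) hNE

/-- **PIVOT at `p = 3`, `3 ∥ N`, `E[3]` très ramifiée at `3`**, from the Hecke–Galois core with
auxiliary primes and the Mazur step. -/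
theorem pivotWCoreSO3_of_coreBA (hPC : Fermat.Agent.L.Pivot3.Stmt_PivotCoreBA)
    (hNE : Fermat.Agent.S38.H37.Stmt_NonExcW) : Fermat.Agent.S38.P3.Stmt_PivotWCoreSO3 :=
  pivotWCoreSO3_of_aux
    (Fermat.Agent.L.Pivot3.H34.pivotWCoreSOAux3_of Fermat.Agent.L.Pivot.H3.stmt_CYC
      Fermat.Agent.S59.TRes.H49.stmt_TRES (pivotGalAux_of_coreBA hPC)) hNE

end Fermat.Agent.L.Pivot3.H75
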