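/-
PIVOT3 (PIVOT at `p = 3`, owner helper75), the ASSEMBLY with the Mazur step plugged in.

* `stmt_NonExcW_closed : S38.H37.Stmt_NonExcW` : the Mazur step at a prime which is not
  exceptional, every odd `p` (helper37's `nonExcW_of` with FROB-T, OLD, COMP-EIS, COMP-EIS3,
  STRONG plugged in);
* `pivotWCore3_of_core`, `pivotWCoreSO3_of_core` :
  `L.Pivot3.Stmt_PivotCoreBA → S38.P3.Stmt_PivotWCore3` resp. `…SO3`.
-/
import Fermat.Agent.L.Pivot3.H75_Final
import Fermat.Agent.S38.H37_Final3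
import Fermat.Agent.S38.P3.H60_CompEis3

set_option autoImplicit false

namespace Fermat.Agent.L.Pivot3.H75

/-- **The Mazur step at a prime which is not exceptional**, every odd `p`, unconditionally. -/
theorem stmt_NonExcW_closed : Fermat.Agent.S38.H37.Stmt_NonExcW :=
  Fermat.Agent.S38.H37.nonExcW_of Fermat.Agent.S38.H37.stmt_FrobToricGen_done
    Fermat.Agent.S43.CompEis.H60.stmt_CompEis Fermat.Agent.S38.P3.H60.stmt_CompEis3S
    Fermat.Agent.S38.H37.stmt_OldGen_done Fermat.Agent.S38.P3.H57.stmt_Strong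

/-- **PIVOT at `p = 3`, level prime to `3`**, from the Hecke–Galois core with auxiliary
primes. -/
theorem pivotWCore3_of_core (hPC : Fermat.Agent.L.Pivot3.Stmt_PivotCoreBA) :
    Fermat.Agent.S38.P3.Stmt_PivotWCore3 :=
  pivotWCore3_of_coreBA hPC stmt_NonExcW_closed

/-- **PIVOT at `p = 3`, `3 ∥ N`**, from the Hecke–Galois core with auxiliary primes. -/
theorem pivotWCoreSO3_of_core (hPC : Fermat.Agent.L.Pivot3.Stmt_PivotCoreBA) :
    Fermat.Agent.S38.P3.Stmt_PivotWCoreSO3 :=
  pivotWCoreSO3_of_coreBA hPC stmt_NonExcW_closed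

end Fermat.Agent.L.Pivot3.H75
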