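import Mathlib
import Fermat.Prelude.Def_GaloisRep_Adic
import Fermat.Prelude.Def_GaloisRep_LocalConditions
import Fermat.Prelude.Def_FLTPrelim_Ramification
import Fermat.Agent.Lib.FrobExists

/-!
# PIVOT at `p = 3` (package PIVOT3, owner helper75), leaf AUTO-UNR, the DATUM FORM (helper80)

For an auxiliary prime `r` (`r ≠ p`, `p ∤ r - 1`) at which the residual representation `ρbar` is
unramified with `det ρbar(Frob_r) = r` and `tr ρbar(Frob_r)² ≠ (r + 1)²`, EVERY lift `ρ` of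
`ρbar` (to a noetherian local ring `A` with `p ∈ 𝔪`) is unramified at `r`.

* `Stmt_AutoUnrMain` : the statement of helper34's `autoUnr_main`
  (`L/Pivot3/H34_AutoUnrCore.lean`): the same with hypotheses on `ρ.residual` at one place `P`
  and one Frobenius `φ` at `P`;
* `autoUnr_datum`    : the datum form, all hypotheses unfolded;
* `AuxAtH`, `Stmt_AutoUnrH` : helper24's `AuxAt`, `Stmt_AutoUnr` (verbatim);
* `stmt_AutoUnr_of   : Stmt_AutoUnrMain → Stmt_AutoUnrH`.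

Transport of unramifiedness, determinant and trace along `ResidualGaloisRep.IsEquiv` and
`ResidualGaloisRep.baseChangeAlong`, and `(1 - r) r² ((1 + r)² - t²) ≠ 0` in characteristic `p`.
-/

set_option autoImplicit false
set_option linter.unusedSectionVars false
set_option linter.unusedVariables false
set_option linter.style.haveILetI false

noncomputable section

open IsLocalRing TensorProduct

namespace Fermat.Agent.L.Pivot3.H80

/-- `Q̄`. -/
abbrev Qb : Type := AlgebraicClosure ℚ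

/-- The absolute Galois group of `ℚ`. -/
abbrev GQ : Type := Qb ≃ₐ[ℚ] Qb

/-! ## Transport along equivalences and base change (residual representations) -/

section Transport

variable {k : Type} [Field k]

theorem rho_eq_of_equiv {ρ₁ ρ₂ : ResidualGaloisRep k} (e : ResidualGaloisRep.Equiv ρ₁ ρ₂)
    (σ : GQ) :
    ρ₂.ρ σ = (e.toLinearEquiv : ρ₁.V →ₗ[k] ρ₂.V) ∘ₗ ρ₁.ρ σ ∘ₗ
      (e.toLinearEquiv.symm : ρ₂.V →ₗ[k] ρ₁.V) := by
  refine LinearMap.ext fun x => ?_
  rw [LinearMap.comp_apply, LinearMap.comp_apply, LinearEquiv.coe_coe, LinearEquiv.coe_coe,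
    e.map_apply, LinearEquiv.apply_symm_apply]

theorem det_eq_of_isEquiv {ρ₁ ρ₂ : ResidualGaloisRep k} (h : ρ₁.IsEquiv ρ₂) (σ : GQ) :
    LinearMap.det (ρ₂.ρ σ) = LinearMap.det (ρ₁.ρ σ) := by
  obtain ⟨e⟩ := h
  rw [rho_eq_of_equiv e σ, LinearMap.det_conj]

theorem trace_eq_of_isEquiv {ρ₁ ρ₂ : ResidualGaloisRep k} (h : ρ₁.IsEquiv ρ₂) (σ : GQ) :
    LinearMap.trace k ρ₂.V (ρ₂.ρ σ) = LinearMap.trace k ρ₁.V (ρ₁.ρ σ) := by
  obtain ⟨e⟩ := h
  have h1 : ρ₂.ρ σ = e.toLinearEquiv.conj (ρ₁.ρ σ) := by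
    rw [rho_eq_of_equiv e σ]
    rfl
  rw [h1, LinearMap.trace_conj']

theorem one_of_isEquiv {ρ₁ ρ₂ : ResidualGaloisRep k} (h : ρ₁.IsEquiv ρ₂) (σ : GQ)
    (h1 : ρ₂.ρ σ = 1) : ρ₁.ρ σ = 1 := by
  obtain ⟨e⟩ := h
  refine LinearMap.ext fun x => ?_
  apply e.toLinearEquiv.injective
  rw [e.map_apply, h1]
  rfl

variable {k' : Type} [Field k']

theorem rho_baseChangeAlong (φ : k →+* k') (ρbar : ResidualGaloisRep k) (σ : GQ) :
    (ρbar.baseChangeAlong φ).ρ σ =
      letI : Algebra k k' := φ.toAlgebra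
      (ρbar.ρ σ).baseChange k' := rfl

theorem det_baseChangeAlong (φ : k →+* k') (ρbar : ResidualGaloisRep k) (σ : GQ) :
    LinearMap.det ((ρbar.baseChangeAlong φ).ρ σ) = φ (LinearMap.det (ρbar.ρ σ)) := by
  letI : Algebra k k' := φ.toAlgebra
  rw [rho_baseChangeAlong]
  exact LinearMap.det_baseChange (ρbar.ρ σ)

theorem trace_baseChangeAlong (φ : k →+* k') (ρbar : ResidualGaloisRep k) (σ : GQ) :
    LinearMap.trace k' (ρbar.baseChangeAlong φ).V ((ρbar.baseChangeAlong φ).ρ σ)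
      = φ (LinearMap.trace k ρbar.V (ρbar.ρ σ)) := by
  letI : Algebra k k' := φ.toAlgebra
  rw [rho_baseChangeAlong]
  exact LinearMap.trace_baseChange (ρbar.ρ σ) k'

theorem one_baseChangeAlong (φ : k →+* k') (ρbar : ResidualGaloisRep k) (σ : GQ)
    (h1 : ρbar.ρ σ = 1) : (ρbar.baseChangeAlong φ).ρ σ = 1 := by
  letI : Algebra k k' := φ.toAlgebra
  rw [rho_baseChangeAlong, h1]
  exact LinearMap.baseChange_one _ _

end Transport

/-! ## Arithmetic in characteristic `p` -/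

section Arith

variable {k : Type} [Field k]

/-- In a field with `(p : k) = 0`, `p` prime: `(n : k) = 0 ↔ p ∣ n`. -/
theorem natCast_eq_zero_iff_of_prime {p : ℕ} (hp : p.Prime) (hpk : (p : k) = 0) (n : ℕ) :
    (n : k) = 0 ↔ p ∣ n := by
  have h1 : ringChar k ∣ p := (ringChar.spec k p).1 hpk
  have h2 : ringChar k ≠ 1 := by
    intro h
    have : ((1 : ℕ) : k) = 0 := (ringChar.spec k 1).2 (by rw [h])
    rw [Nat.cast_one] at this
    exact one_ne_zero this
  have h3 : ringChar k = p := (Nat.dvd_prime hp).1 h1 |>.resolve_left h2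
  rw [ringChar.spec k n, h3]

theorem cast_ne_zero_of_ne {p r : ℕ} (hp : p.Prime) (hpk : (p : k) = 0) (hr : r.Prime)
    (hrp : r ≠ p) : (r : k) ≠ 0 := by
  rw [Ne, natCast_eq_zero_iff_of_prime hp hpk]
  intro hd
  exact hrp ((Nat.prime_dvd_prime_iff_eq hp hr).1 hd).symm

theorem one_sub_cast_ne_zero {p r : ℕ} (hp : p.Prime) (hpk : (p : k) = 0) (hr : r.Prime)
    (hpr : ¬ p ∣ r - 1) : (1 : k) - (r : k) ≠ 0 := by
  intro h
  apply hpr
  rw [← natCast_eq_zero_iff_of_prime (k := k) hp hpk, Nat.cast_sub hr.one_lt.le, Nat.cast_one]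
  rw [sub_eq_zero] at h
  rw [← h, sub_self]

end Arith

/-! ## The statements -/

/-- The statement of helper34's `autoUnr_main` (inertia form at one place). -/
def Stmt_AutoUnrMain : Prop :=
  ∀ (A : Type) [CommRing A] [IsLocalRing A] [IsNoetherianRing A]
    (p : ℕ) (hp : p.Prime) (hpA : (p : A) ∈ maximalIdeal A)
    (ρ : GaloisRepAdic A) (q : ℕ) (hq : q.Prime) (hqp : q ≠ p)
    (P : ValuationSubring Qb) (hP : P.LiesOverPrime q)
    (hur : ∀ σ ∈ P.inertiaSubgroupIn ℚ, ρ.residual.ρ σ = 1)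
    (φ : GQ) (hφ : P.IsFrobeniusAt φ q)
    (hne : (1 - (q : ResidueField A)) * LinearMap.det (ρ.residual.ρ φ) *
      ((1 + (q : ResidueField A)) ^ 2 * LinearMap.det (ρ.residual.ρ φ) -
        (q : ResidueField A) *
          LinearMap.trace (ResidueField A) ρ.residual.V (ρ.residual.ρ φ) ^ 2) ≠ 0),
    ∀ σ ∈ P.inertiaSubgroupIn ℚ, ρ.ρ σ = 1

/-- **AUTO-UNR, datum form** (all hypotheses unfolded): every lift of `ρbar` is unramified at an
auxiliary prime `r`. -/
theorem autoUnr_datum (hmain : Stmt_AutoUnrMain)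
    (A : Type) [CommRing A] [IsLocalRing A] [IsNoetherianRing A]
    (p : ℕ) (hp : p.Prime) (hpA : (p : A) ∈ maximalIdeal A)
    (k : Type) [Field k] (ρbar : ResidualGaloisRep k) (φ : k →+* ResidueField A)
    (ρ : GaloisRepAdic A) (hres : ρ.residual.IsEquiv (ρbar.baseChangeAlong φ))
    (r : ℕ) (hr : r.Prime) (hrp : r ≠ p) (hpr : ¬ p ∣ r - 1)
    (hunr : ρbar.IsUnramifiedAt r)
    (hfrob : ∀ P : ValuationSubring (AlgebraicClosure ℚ), P.LiesOverPrime r →
      ∀ σ, P.IsFrobeniusAt σ r →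
        LinearMap.det (ρbar.ρ σ) = (r : k) ∧
          LinearMap.trace k _ (ρbar.ρ σ) ^ 2 ≠ ((r : k) + 1) ^ 2) :
    ρ.IsUnramifiedAt r := by
  intro P hP
  obtain ⟨σ₀, hσ₀⟩ := Fermat.Agent.Lib.FrobExists.exists_isFrobeniusAt r hr P hP
  obtain ⟨hdet, htr⟩ := hfrob P hP σ₀ hσ₀
  -- characteristic `p`
  have hpκ : ((p : ℕ) : ResidueField A) = 0 := by
    have : residue A (p : A) = 0 := (residue_eq_zero_iff _).2 hpA
    rwa [map_natCast] at this
  have hpk : ((p : ℕ) : k) = 0 := by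
    apply φ.injective
    rw [map_natCast, map_zero]
    exact hpκ
  -- the residual representation at `P`
  have hur : ∀ σ ∈ P.inertiaSubgroupIn ℚ, ρ.residual.ρ σ = 1 := fun σ hσ =>
    one_of_isEquiv hres σ (one_baseChangeAlong φ ρbar σ (hunr P hP σ hσ))
  have hD : LinearMap.det (ρ.residual.ρ σ₀) = φ (r : k) := by
    rw [← det_eq_of_isEquiv hres σ₀, det_baseChangeAlong, hdet]
  have hT : LinearMap.trace (ResidueField A) ρ.residual.V (ρ.residual.ρ σ₀)
      = φ (LinearMap.trace k ρbar.V (ρbar.ρ σ₀)) := by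
    rw [← trace_eq_of_isEquiv hres σ₀, trace_baseChangeAlong]
  refine hmain A p hp hpA ρ r hr hrp P hP hur σ₀ hσ₀ ?_
  rw [hD, hT]
  have hcast : ((r : ℕ) : ResidueField A) = φ (r : k) := (map_natCast φ r).symm
  rw [hcast]
  set t : k := LinearMap.trace k ρbar.V (ρbar.ρ σ₀) with ht
  have e : (1 - φ (r : k)) * φ (r : k) * ((1 + φ (r : k)) ^ 2 * φ (r : k) - φ (r : k) * φ t ^ 2)
      = φ ((1 - (r : k)) * ((r : k) * (r : k)) * (((r : k) + 1) ^ 2 - t ^ 2)) := by
    simp only [map_mul, map_sub, map_add, map_pow, map_one]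
    ring
  rw [e]
  intro h0
  have h1 : (1 - (r : k)) * ((r : k) * (r : k)) * (((r : k) + 1) ^ 2 - t ^ 2) = 0 :=
    φ.injective (by rw [h0, map_zero])
  have hr0 : (r : k) ≠ 0 := cast_ne_zero_of_ne hp hpk hr hrp
  have hr1 : (1 : k) - (r : k) ≠ 0 := one_sub_cast_ne_zero hp hpk hr hpr
  rcases mul_eq_zero.1 h1 with h2 | h2
  · rcases mul_eq_zero.1 h2 with h3 | h3
    · exact hr1 h3
    · rcases mul_eq_zero.1 h3 with h4 | h4 <;> exact hr0 h4
  · exact htr (sub_eq_zero.1 h2).symm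

/-! ## helper24's interface (verbatim) -/

/-- Hypothesis on `ρbar` at an auxiliary prime `r` (helper24's `AuxAt`). -/
def AuxAtH (p : ℕ) {k : Type} [Field k] (ρbar : ResidualGaloisRep k) (r : ℕ) : Prop :=
  r.Prime ∧ r ≠ p ∧ ¬ p ∣ r - 1 ∧ ρbar.IsUnramifiedAt r ∧
  ∀ P : ValuationSubring (AlgebraicClosure ℚ), P.LiesOverPrime r → ∀ σ, P.IsFrobeniusAt σ r →
    LinearMap.det (ρbar.ρ σ) = (r : k) ∧ LinearMap.trace k _ (ρbar.ρ σ) ^ 2 ≠ ((r : k) + 1) ^ 2

/-- **AUTO-UNR**, datum form (helper24's `Stmt_AutoUnr`). -/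
def Stmt_AutoUnrH : Prop :=
  ∀ (A : Type) [CommRing A] [IsLocalRing A] [IsNoetherianRing A]
    [IsAdicComplete (maximalIdeal A) A]
    (p : ℕ), p.Prime → (p : A) ∈ maximalIdeal A →
    ∀ (k : Type) [Field k] (ρbar : ResidualGaloisRep k) (φ : k →+* ResidueField A)
      (ρ : GaloisRepAdic A),
    ρ.residual.IsEquiv (ρbar.baseChangeAlong φ) → ∀ r, AuxAtH p ρbar r → ρ.IsUnramifiedAt r

/-- **AUTO-UNR, datum form**, from the inertia form. -/
theorem stmt_AutoUnr_of (hmain : Stmt_AutoUnrMain) : Stmt_AutoUnrH := by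
  intro A _ _ _ _ p hp hpA k _ ρbar φ ρ hres r haux
  exact autoUnr_datum hmain A p hp hpA k ρbar φ ρ hres r haux.1 haux.2.1 haux.2.2.1
    haux.2.2.2.1 haux.2.2.2.2

end Fermat.Agent.L.Pivot3.H80
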