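import Fermat.Agent.L.Pivot3.H80_AutoUnr
import Fermat.Agent.L.Pivot3.H34_AutoUnr

/-!
# PIVOT at `p = 3` (package PIVOT3), leaf AUTO-UNR, the DATUM FORM, unconditional (helper80)

* `stmt_AutoUnr : Stmt_AutoUnrH` (= helper24's `Stmt_AutoUnr`, verbatim): for `AuxAt p ρbar r`,
  every lift `ρ` of `ρbar` (`ρ.residual ≅ ρbar.baseChangeAlong φ`) is unramified at `r`;
* `autoUnr` : the same with all hypotheses unfolded.

From helper34's inertia form `H34.stmt_AutoUnrMain` and `H80.stmt_AutoUnr_of`.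
-/

set_option autoImplicit false
set_option linter.unusedSectionVars false
set_option linter.unusedVariables false

noncomputable section

open IsLocalRing TensorProduct

namespace Fermat.Agent.L.Pivot3.H80

/-- helper34's inertia form, in the shape of `H80.Stmt_AutoUnrMain`. -/
theorem stmt_AutoUnrMain_h34 : Stmt_AutoUnrMain :=
  fun A _ _ _ p hp hpA ρ q hq hqp P hP hur φ hφ hne =>
    Fermat.Agent.L.Pivot3.H34.stmt_AutoUnrMain A p hp hpA ρ q hq hqp P hP hur φ hφ hne

/-- **AUTO-UNR, datum form** (unconditional). -/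
theorem stmt_AutoUnr : Stmt_AutoUnrH := stmt_AutoUnr_of stmt_AutoUnrMain_h34

/-- **AUTO-UNR, datum form**, all hypotheses unfolded (unconditional). -/
theorem autoUnr (A : Type) [CommRing A] [IsLocalRing A] [IsNoetherianRing A]
    (p : ℕ) (hp : p.Prime) (hpA : (p : A) ∈ maximalIdeal A)
    (k : Type) [Field k] (ρbar : ResidualGaloisRep k) (φ : k →+* ResidueField A)
    (ρ : GaloisRepAdic A) (hres : ρ.residual.IsEquiv (ρbar.baseChangeAlong φ))
    (r : ℕ) (hr : r.Prime) (hrp : r ≠ p) (hpr : ¬ p ∣ r - 1)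
    (hunr : ρbar.IsUnramifiedAt r)
    (hfrob : ∀ P : ValuationSubring (AlgebraicClosure ℚ), P.LiesOverPrime r →
      ∀ σ, P.IsFrobeniusAt σ r →
        LinearMap.det (ρbar.ρ σ) = (r : k) ∧
          LinearMap.trace k _ (ρbar.ρ σ) ^ 2 ≠ ((r : k) + 1) ^ 2) :
    ρ.IsUnramifiedAt r :=
  autoUnr_datum stmt_AutoUnrMain_h34 A p hp hpA k ρbar φ ρ hres r hr hrp hpr hunr hfrob

end Fermat.Agent.L.Pivot3.H80
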